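import Fermat.Agent.LT.CTree.Val

/-!
# LT / C-TREE: the tree at a finite place

`dn w g` is the distance in the tree between the standard vertex and its image under `g`.
`nu w o` (`o : Option (residue field)`) are the `q + 1` elements of `GL₂(F)` which give the
neighbours.
-/

open NumberField IsDedekindDomain Matrix
open Fermat.LT

namespace Fermat.Agent.LT.CTree

noncomputable section

variable {F : Type} [Field F] [NumberField F] (w : Pl F)

/-! ### triangular elements -/

omit [NumberField F] in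
/-- the matrix `(a b; 0 1)` -/
def tri (a : Fˣ) (b : F) : G2 F := un b * dg a

omit [NumberField F] in
theorem un_val (b : F) : (un b).1 = !![1, b; 0, 1] := rfl

omit [NumberField F] in
theorem dg_val (a : Fˣ) : (dg a).1 = !![(a : F), 0; 0, 1] := rfl

omit [NumberField F] in
theorem tri_val (a : Fˣ) (b : F) : (tri a b).1 = !![(a : F), b; 0, 1] := by
  rw [tri, Units.val_mul, un_val, dg_val, Matrix.mul_fin_two]
  simp

omit [NumberField F] in
theorem tri_mul (a a' : Fˣ) (b b' : F) : tri a b * tri a' b' = tri (a * a') (a * b' + b) := by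
  apply Units.ext
  rw [Units.val_mul, tri_val, tri_val, tri_val, Matrix.mul_fin_two]
  simp

omit [NumberField F] in
theorem tri_one : tri (1 : Fˣ) 0 = 1 := by
  apply Units.ext
  rw [tri_val, Units.val_one, Units.val_one, Matrix.one_fin_two]

omit [NumberField F] in
theorem tri_inv (a : Fˣ) (b : F) : (tri a b)⁻¹ = tri a⁻¹ (-((a⁻¹ : Fˣ) * b)) := by
  rw [inv_eq_iff_mul_eq_one, tri_mul, mul_inv_cancel, ← tri_one]
  congr 1
  rw [mul_neg, ← mul_assoc, ← Units.val_mul, mul_inv_cancel, Units.val_one, one_mul, neg_add_cancel]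

omit [NumberField F] in
theorem dg_eq_tri (a : Fˣ) : dg a = tri a 0 := by rw [tri, un_zero, one_mul]

omit [NumberField F] in
theorem un_eq_tri (b : F) : un b = tri 1 b := by
  apply Units.ext
  rw [un_val, tri_val, Units.val_one]

omit [NumberField F] in
theorem det_tri (a : Fˣ) (b : F) : (tri a b).1.det = a := by
  rw [tri_val, Matrix.det_fin_two_of]; simp

theorem nm_tri (a : Fˣ) (b : F) : nm w (tri a b).1 = max (max (av w a) (av w b)) 1 := by
  rw [tri_val, nm]
  simp

/-! ### the distance -/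

/-- `q ^ distance` -/
def dd (g : G2 F) : ℝ := nm w g.1 * nm w (g⁻¹).1

omit [NumberField F] in
theorem det_ne_zero (g : G2 F) : g.1.det ≠ 0 :=
  ((Matrix.isUnit_iff_isUnit_det _).mp g.isUnit).ne_zero

theorem nm_inv (g : G2 F) : nm w (g⁻¹).1 = (av w g.1.det)⁻¹ * nm w g.1 := by
  have h1 : (g⁻¹).1 = (g.1.det)⁻¹ • g.1.adjugate := by
    rw [Matrix.coe_units_inv, Matrix.inv_def, Ring.inverse_eq_inv']
  rw [h1, nm_smul, nm_adjugate, map_inv₀]

theorem dd_eq (g : G2 F) : dd w g = (av w g.1.det)⁻¹ * nm w g.1 ^ 2 := by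
  rw [dd, nm_inv]; ring

theorem dd_inv (g : G2 F) : dd w g⁻¹ = dd w g := by
  rw [dd, dd, inv_inv, mul_comm]

theorem nm_mul_of_mem {g h : G2 F} (hh : h ∈ stdH w) : nm w (g * h).1 = nm w g.1 * nm w h.1 := by
  have h1 := nm_mul_le w g.1 h.1
  have h2 := nm_mul_le w (g * h).1 (h⁻¹).1
  rw [← Units.val_mul, mul_inv_cancel_right, nm_inv_of_mem w hh] at h2
  have hp := nm_pos w h
  apply le_antisymm
  · rw [Units.val_mul]; exact h1
  · calc nm w g.1 * nm w h.1 ≤ (nm w (g * h).1 * (nm w h.1)⁻¹) * nm w h.1 :=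
          mul_le_mul_of_nonneg_right h2 hp.le
      _ = nm w (g * h).1 := by field_simp

theorem dd_mul_right (g : G2 F) {h : G2 F} (hh : h ∈ stdH w) : dd w (g * h) = dd w g := by
  have hp := nm_pos w h
  rw [dd_eq, dd_eq, nm_mul_of_mem w hh, Units.val_mul, Matrix.det_mul, map_mul,
    av_det_of_mem w hh]
  field_simp

theorem dd_mul_left {h : G2 F} (hh : h ∈ stdH w) (g : G2 F) : dd w (h * g) = dd w g := by
  rw [← dd_inv, _root_.mul_inv_rev, dd_mul_right w _ (inv_mem hh), dd_inv]

theorem one_le_dd (g : G2 F) : 1 ≤ dd w g := nm_mul_inv_ge w g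

theorem exists_dn (g : G2 F) : ∃ n : ℕ, dd w g = qv w ^ n := by
  obtain ⟨c, hc⟩ := exists_nm_eq w g
  have h1 : dd w g = qv w ^ (2 * lv w (c : F) - lv w g.1.det) := by
    rw [dd_eq, hc, av_eq_zpow w c.ne_zero, av_eq_zpow w (det_ne_zero g), ← zpow_natCast,
      ← _root_.zpow_neg, ← _root_.zpow_mul, ← zpow_add₀ (qv_pos w).ne']
    congr 1
    push_cast
    ring
  have h2 : 0 ≤ 2 * lv w (c : F) - lv w g.1.det := by
    have := one_le_dd w g
    rw [h1, ← zpow_zero (qv w), zpow_le_iff] at this
    exact this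
  refine ⟨(2 * lv w (c : F) - lv w g.1.det).toNat, ?_⟩
  rw [h1, ← zpow_natCast, Int.toNat_of_nonneg h2]

/-- the distance (as a function on `GL₂(F)`) -/
def dn (g : G2 F) : ℕ := (exists_dn w g).choose

theorem dd_eq_pow (g : G2 F) : dd w g = qv w ^ dn w g := (exists_dn w g).choose_spec

theorem dn_eq_iff {g : G2 F} {n : ℕ} : dn w g = n ↔ dd w g = qv w ^ n := by
  rw [dd_eq_pow]
  constructor
  · rintro rfl; rfl
  · intro h
    have := zpow_inj w (a := dn w g) (b := n) (by rw [zpow_natCast, zpow_natCast]; exact h)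
    exact_mod_cast this

theorem dn_congr {g g' : G2 F} (h : dd w g = dd w g') : dn w g = dn w g' := by
  rw [dn_eq_iff, h, dd_eq_pow]

theorem dn_mul_right (g : G2 F) {h : G2 F} (hh : h ∈ stdH w) : dn w (g * h) = dn w g :=
  dn_congr w (dd_mul_right w g hh)

theorem dn_mul_left {h : G2 F} (hh : h ∈ stdH w) (g : G2 F) : dn w (h * g) = dn w g :=
  dn_congr w (dd_mul_left w hh g)

theorem dn_inv (g : G2 F) : dn w g⁻¹ = dn w g := dn_congr w (dd_inv w g)

theorem dn_eq_zero_iff (g : G2 F) : dn w g = 0 ↔ g ∈ stdH w := by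
  rw [dn_eq_iff, pow_zero, mem_stdH]
  exact ⟨fun h ↦ h.le, fun h ↦ le_antisymm h (one_le_dd w g)⟩

theorem dd_tri (a : Fˣ) (b : F) :
    dd w (tri a b) = (av w a)⁻¹ * (max (max (av w a) (av w b)) 1) ^ 2 := by
  rw [dd_eq, det_tri, nm_tri]

/-! ### Iwasawa decomposition -/

theorem exists_tri (g : G2 F) : ∃ (a : Fˣ) (b : F) (h : G2 F), h ∈ stdH w ∧ g = tri a b * h := by
  -- it suffices to find `h ∈ stdH` with `g * h` upper triangular
  have key : ∀ g : G2 F, g.1 1 0 = 0 → ∃ (a : Fˣ) (b : F) (h : G2 F), h ∈ stdH w ∧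
      g = tri a b * h := by
    intro g h0
    have hd := det_ne_zero g
    rw [Matrix.det_fin_two, h0, mul_zero, sub_zero] at hd
    have h00 : g.1 0 0 ≠ 0 := left_ne_zero_of_mul hd
    have h11 : g.1 1 1 ≠ 0 := right_ne_zero_of_mul hd
    refine ⟨Units.mk0 (g.1 0 0 / g.1 1 1) (div_ne_zero h00 h11), g.1 0 1 / g.1 1 1,
      sc (Units.mk0 _ h11), scal_le_stdH w (sc_mem _), ?_⟩
    apply Units.ext
    rw [← sc_comm, sc_mul_val, tri_val, Units.val_mk0, Units.val_mk0]
    ext i j
    fin_cases i <;> fin_cases j <;> simp [h0, mul_div_cancel₀, h11] 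
  by_cases hcase : av w (g.1 1 0) ≤ av w (g.1 1 1)
  · have h11 : g.1 1 1 ≠ 0 := by
      intro h11
      rw [h11, map_zero] at hcase
      have h10 : g.1 1 0 = 0 := (av w).eq_zero.mp (le_antisymm hcase ((av w).nonneg _))
      have hd := det_ne_zero g
      rw [Matrix.det_fin_two, h10, h11] at hd
      simp at hd
    set c := g.1 1 0 / g.1 1 1 with hc
    have hcle : av w c ≤ 1 := by
      rw [hc, map_div₀]
      exact div_le_one_of_le₀ hcase ((av w).nonneg _)
    set h : G2 F := Matrix.GeneralLinearGroup.mkOfDetNeZero !![1, 0; -c, 1] (by simp) with hh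
    have hval : h.1 = !![1, 0; -c, 1] := rfl
    have hmem : h ∈ stdH w := by
      have h1 : nm w h.1 = 1 := by
        rw [hval, nm]; simp [hcle]
      have hdet : h.1.det = 1 := by rw [hval, Matrix.det_fin_two_of]; simp
      rw [mem_stdH, nm_inv, h1, hdet, map_one]; simp
    obtain ⟨a, b, h', hh', hg⟩ := key (g * h) (by
      rw [Units.val_mul, Matrix.mul_apply, Fin.sum_univ_two, hval]
      simp only [Matrix.of_apply, Matrix.cons_val', Matrix.cons_val_zero, Matrix.cons_val_one,
        Matrix.cons_val_fin_one]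
      rw [hc]
      field_simp
      ring)
    exact ⟨a, b, h' * h⁻¹, mul_mem hh' (inv_mem hmem), by
      rw [← mul_assoc, ← hg, mul_inv_cancel_right]⟩
  · rw [not_le] at hcase
    have h10 : g.1 1 0 ≠ 0 := by
      intro h10
      rw [h10, map_zero] at hcase
      exact absurd hcase (not_lt.mpr ((av w).nonneg _))
    set c := g.1 1 1 / g.1 1 0 with hc
    have hcle : av w c ≤ 1 := by
      rw [hc, map_div₀]
      exact div_le_one_of_le₀ hcase.le ((av w).nonneg _)
    set h : G2 F := Matrix.GeneralLinearGroup.mkOfDetNeZero !![-c, 1; 1, 0] (by simp) with hh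
    have hval : h.1 = !![-c, 1; 1, 0] := rfl
    have hmem : h ∈ stdH w := by
      have h1 : nm w h.1 = 1 := by
        rw [hval, nm]; simp [hcle]
      have hdet : h.1.det = -1 := by rw [hval, Matrix.det_fin_two_of]; simp
      rw [mem_stdH, nm_inv, h1, hdet, (av w).map_neg, map_one]; simp
    obtain ⟨a, b, h', hh', hg⟩ := key (g * h) (by
      rw [Units.val_mul, Matrix.mul_apply, Fin.sum_univ_two, hval]
      simp only [Matrix.of_apply, Matrix.cons_val', Matrix.cons_val_zero, Matrix.cons_val_one,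
        Matrix.cons_val_fin_one]
      rw [hc]
      field_simp
      ring)
    exact ⟨a, b, h' * h⁻¹, mul_mem hh' (inv_mem hmem), by
      rw [← mul_assoc, ← hg, mul_inv_cancel_right]⟩

/-! ### the neighbours -/

/-- the `q+1` elements giving the neighbours of the standard vertex -/
def nu : Option (𝓞 F ⧸ w.asIdeal) → G2 F
  | none => tri (unif w)⁻¹ 0
  | some c => tri (unif w) (rep w c)

theorem av_unif_inv : av w (((unif w)⁻¹ : Fˣ) : F) = qv w := by
  rw [Units.val_inv_eq_inv_val, map_inv₀, av_unif, inv_inv]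

theorem dd_none (a : Fˣ) (b : F) : dd w ((nu w none)⁻¹ * tri a b) =
    (av w a)⁻¹ * qv w * (max (max (av w a) (av w b) / qv w) 1) ^ 2 := by
  have hq := qv_pos w
  rw [nu, tri_inv, tri_mul, inv_inv, mul_zero, neg_zero, add_zero, dd_tri, Units.val_mul, map_mul,
    map_mul, av_unif, mul_inv, inv_inv]
  have h1 : max ((qv w)⁻¹ * av w a) ((qv w)⁻¹ * av w b) = max (av w a) (av w b) / qv w := by
    rw [← mul_max_of_nonneg _ _ (inv_pos.mpr hq).le]; ring
  rw [h1]
  ring

theorem dd_some (c : 𝓞 F ⧸ w.asIdeal) (a : Fˣ) (b : F) : dd w ((nu w (some c))⁻¹ * tri a b) =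
    (av w a)⁻¹ * (qv w)⁻¹ * (max (max (av w a) (av w (b - rep w c)) * qv w) 1) ^ 2 := by
  have hq := qv_pos w
  rw [nu, tri_inv, tri_mul, dd_tri, Units.val_mul, map_mul, av_unif_inv, mul_inv]
  have h1 : (((unif w)⁻¹ : Fˣ) : F) * b + -((((unif w)⁻¹ : Fˣ) : F) * rep w c) =
      (((unif w)⁻¹ : Fˣ) : F) * (b - rep w c) := by ring
  rw [h1, map_mul, av_unif_inv, ← mul_max_of_nonneg _ _ hq.le]
  rw [mul_comm (qv w) (max _ _)]
  ring

/-- The key counting lemma, distance zero. -/
theorem dn_nu_of_zero {g : G2 F} (hg : dn w g = 0) (o : Option (𝓞 F ⧸ w.asIdeal)) :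
    dn w ((nu w o)⁻¹ * g) = 1 := by
  rw [dn_eq_zero_iff] at hg
  rw [dn_mul_right w _ hg, dn_inv, dn_eq_iff, pow_one]
  have hq := qv_pos w
  have hq1 := one_lt_qv w
  cases o with
  | none =>
    rw [nu, dd_tri, av_unif_inv, map_zero, max_eq_left hq.le, max_eq_left hq1.le]
    field_simp
  | some c =>
    rw [nu, dd_tri, av_unif, inv_inv,
      max_eq_right (max_le (inv_le_one_of_one_le₀ hq1.le) (av_rep_le w c)), one_pow, mul_one]

/-- The key counting lemma, positive distance. -/
theorem exists_unique_nu {g : G2 F} {n : ℕ} (hg : dn w g = n + 1) :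
    ∃ o, dn w ((nu w o)⁻¹ * g) = n ∧ ∀ o', o' ≠ o → dn w ((nu w o')⁻¹ * g) = n + 2 := by
  obtain ⟨a, b, h, hh, rfl⟩ := exists_tri w g
  have hq := qv_pos w
  have hq1 := one_lt_qv w
  have ha : 0 < av w a := (av w).pos a.ne_zero
  rw [dn_mul_right w _ hh, dn_eq_iff, dd_tri] at hg
  have hred : ∀ o (m : ℕ), dn w ((nu w o)⁻¹ * (tri a b * h)) = m ↔
      dd w ((nu w o)⁻¹ * tri a b) = qv w ^ m := by
    intro o m
    rw [← mul_assoc, dn_mul_right w _ hh, dn_eq_iff]
  simp only [hred]
  rcases le_or_gt (max (av w a) (av w b)) 1 with hM | hM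
  · -- M = 1
    rw [max_eq_right hM, one_pow, mul_one] at hg
    have hb : av w b ≤ 1 := (le_max_right _ _).trans hM
    obtain ⟨c, hc, huniq⟩ := existsUnique_rep w hb
    have haq : av w a * qv w ≤ 1 := by
      have h1 : av w a = (qv w ^ (n + 1))⁻¹ := by rw [← hg, inv_inv]
      rw [h1, pow_succ, mul_inv, inv_mul_cancel_right₀ hq.ne']
      exact inv_le_one_of_one_le₀ (one_le_pow₀ hq1.le)
    refine ⟨some c, ?_, ?_⟩
    · rw [dd_some]
      have h2 : max (av w a) (av w (b - rep w c)) * qv w ≤ 1 := by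
        rw [max_mul_of_nonneg _ _ hq.le]
        refine max_le haq ?_
        have := (av_lt_one_iff_le w).mp hc
        calc av w (b - rep w c) * qv w ≤ (qv w)⁻¹ * qv w := mul_le_mul_of_nonneg_right this hq.le
          _ = 1 := inv_mul_cancel₀ hq.ne'
      rw [max_eq_right h2, hg, one_pow, mul_one, pow_succ, mul_inv_cancel_right₀ hq.ne']
    · intro o' ho'
      cases o' with
      | none =>
        rw [dd_none, max_eq_right (by
          rw [div_le_one hq]; exact hM.trans hq1.le), hg]
        ring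
      | some d =>
        have hd : av w (b - rep w d) = 1 := by
          have h3 : ¬ av w (b - rep w d) < 1 := fun h3 ↦ ho' (by rw [huniq d h3])
          refine le_antisymm ?_ (not_lt.mp h3)
          rw [sub_eq_add_neg]
          refine (av_add_le w _ _).trans (max_le hb ?_)
          rw [(av w).map_neg]; exact av_rep_le w d
        have ha1 : av w a ≤ 1 := (le_max_left _ _).trans hM
        rw [dd_some, hd, max_eq_right ha1, one_mul, max_eq_left hq1.le, hg]
        field_simp
        ring
  · -- M > 1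
    rw [max_eq_left hM.le] at hg
    have hMq : qv w ≤ max (av w a) (av w b) := by
      rcases max_choice (av w a) (av w b) with h1 | h1 <;> rw [h1] at hM ⊢ <;>
        exact (one_lt_av_iff w).mp hM
    refine ⟨none, ?_, ?_⟩
    · rw [dd_none, max_eq_left (by rw [le_div_iff₀ hq, one_mul]; exact hMq)]
      have : (av w a)⁻¹ * qv w * (max (av w a) (av w b) / qv w) ^ 2 =
          ((av w a)⁻¹ * max (av w a) (av w b) ^ 2) * (qv w)⁻¹ := by field_simp
      rw [this, hg, pow_succ, mul_inv_cancel_right₀ hq.ne']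
    · intro o' ho'
      cases o' with
      | none => exact absurd rfl ho'
      | some d =>
        rw [dd_some]
        have h2 : max (av w a) (av w (b - rep w d)) = max (av w a) (av w b) := by
          have hr := av_rep_le w d
          rcases le_or_gt (av w b) 1 with hb | hb
          · have ha1 : 1 < av w a := by
              rcases lt_max_iff.mp hM with h1 | h1
              · exact h1
              · exact absurd hb (not_le.mpr h1)
            rw [max_eq_left (hb.trans ha1.le), max_eq_left]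
            rw [sub_eq_add_neg]
            refine (av_add_le w _ _).trans (max_le (hb.trans ha1.le) ?_)
            rw [(av w).map_neg]; exact hr.trans ha1.le
          · have h3 : av w (b - rep w d) = av w b := by
              rw [sub_eq_add_neg, add_comm]
              apply av_add_eq_of_lt
              rw [(av w).map_neg]
              exact hr.trans_lt hb
            rw [h3]
        rw [h2, max_eq_left (by
          calc (1:ℝ) ≤ qv w := hq1.le
            _ = 1 * qv w := (one_mul _).symm
            _ ≤ _ := mul_le_mul_of_nonneg_right hM.le hq.le)]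
        have : (av w a)⁻¹ * (qv w)⁻¹ * (max (av w a) (av w b) * qv w) ^ 2 =
          ((av w a)⁻¹ * max (av w a) (av w b) ^ 2) * qv w := by field_simp
        rw [this, hg]
        ring

end

end Fermat.Agent.LT.CTree
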