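import Fermat.Agent.LT.CTree.KillFam
import Fermat.Agent.LT.G.SphConv2
import Fermat.Agent.LT.CArch.Approx

/-!
# LT, piece C: the killer for the comparison of trace formulas
-/

set_option autoImplicit false

open NumberField IsDedekindDomain Matrix MeasureTheory
open Fermat.LT Fermat.LT.GeoDatum Fermat.Agent.LT.D Fermat.Agent.LT.CArch
open Fermat.Agent.LT.B (Killed appK)

namespace Fermat.Agent.LT.CTree

attribute [local instance] KillData.fJf KillData.fJa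

theorem isTF_A {F : Type} [Field F] [NumberField F] {D : Datum F} (k : KillData D)
    {g : D.I → ℝ → ℂ} (hg : ∀ i, IsTest (g i)) (d : k.J →₀ ℕ) : (k.A g hg d).IsTF :=
  fun w ↦ ⟨k.P d w, rfl⟩

variable {K L : Type} [Field K] [NumberField K] [Field L] [NumberField L] [Algebra K L]
  {C : Cub K L} {G : GeoDatum C} {M : ℕ} {lam : Pl L → ℝ} {φ : X G.DL.toDatum → ℂ}

/-- **The killer for the comparison of trace formulas.** -/
theorem exists_killer (h : Top.DescHyp G M lam φ) : ∃ P : LT.PS G.DL.toDatum,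
    (∀ j, UnitIR (P.k j)) ∧ (∀ j w, G.DL.n w ≠ 0 → (P.k j).f w = unitF (G.DL.H w)) ∧
    (∀ i j, SCom (P.k i) (P.k j)) ∧ P.Rad ∧ (∀ j, (P.k j).IsTF) ∧ (∀ E : LocProj G, FamHyp E P) ∧
    Killed P.ker ∧ Killed (P.map aPure).ker ∧
    ∃ α : ℂ, α ≠ 0 ∧ ∀ x, appK volume P.ker φ x = α * φ x := by
  obtain ⟨k, hk, hv⟩ := exists_killData h.kill h.n_split h.n_pl
  obtain ⟨g, hg, hg0⟩ := exists_hat_ne_zero 0
  have hgi : ∀ i : G.DL.I, IsTest ((fun _ ↦ g : G.DL.I → ℝ → ℂ) i) := fun _ ↦ hg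
  refine ⟨k.ps (fun _ ↦ g) hgi, unitIR_ps k hk hgi, fun d w hw ↦ ?_, fun d d' ↦ sCom_A k hgi d.1 d'.1,
    rad_ps k hgi, fun d ↦ isTF_A k hgi d.1, fun E ↦ famHyp_ps k hk E hgi, killed_ps k hgi,
    killed_ps_aPure k hk hgi, k.kval (fun w ↦ (lam w : ℂ)) 0 * ∏ i : G.DL.I, hat g 0, ?_, ?_⟩
  · refine k.A_f_eq_unit _ hgi d.1 ?_
    rintro j rfl
    exact hw (k.good j)
  · exact mul_ne_zero hv (Finset.prod_ne_zero_iff.mpr fun _ _ ↦ hg0)
  · intro x
    have h1 := appK_ps k hgi h.form.cusp.cont h.form.eig (fun j ↦ k.good j)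
    rw [h1]
    rfl

end Fermat.Agent.LT.CTree
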