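import Fermat.Agent.LT.Defs

/-!
# LT / C-TREE: the valuation at a finite place, uniformizers, residue representatives
-/

open NumberField IsDedekindDomain Matrix
open Fermat.LT

namespace Fermat.Agent.LT.CTree

noncomputable section

variable {F : Type} [Field F] [NumberField F] (w : Pl F)

/-- residue cardinality as a natural number -/
def qn : ℕ := Ideal.absNorm w.asIdeal

theorem qv_eq : qv w = (qn w : ℝ) := rfl

/-- `av w x = q ^ (lv w x)`; this is minus the usual additive valuation -/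
def lv (x : F) : ℤ := WithZero.log (w.valuation F x)

theorem av_eq_zpow {x : F} (hx : x ≠ 0) : av w x = qv w ^ lv w x := by
  have h0 : w.valuation F x ≠ 0 := (Valuation.ne_zero_iff _).mpr hx
  unfold av
  rw [NumberField.HeightOneSpectrum.adicAbv_def, WithZeroMulInt.toNNReal_neg_apply _ h0,
    WithZero.toAdd_unzero_eq_log]
  simp only [NNReal.coe_zpow]
  rfl

theorem av_le_one_iff_valuation {x : F} : av w x ≤ 1 ↔ w.valuation F x ≤ 1 := by
  unfold av
  rw [NumberField.HeightOneSpectrum.adicAbv_def, ← NNReal.coe_one, NNReal.coe_le_coe]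
  exact WithZeroMulInt.toNNReal_le_one_iff
    (NumberField.HeightOneSpectrum.one_lt_absNorm_nnreal w)

theorem av_lt_one_iff_valuation {x : F} : av w x < 1 ↔ w.valuation F x < 1 := by
  unfold av
  rw [NumberField.HeightOneSpectrum.adicAbv_def, ← NNReal.coe_one, NNReal.coe_lt_coe]
  exact WithZeroMulInt.toNNReal_lt_one_iff
    (NumberField.HeightOneSpectrum.one_lt_absNorm_nnreal w)

theorem av_algebraMap_le_one (x : 𝓞 F) : av w (algebraMap (𝓞 F) F x) ≤ 1 := by
  rw [av_le_one_iff_valuation]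
  exact w.valuation_le_one x

theorem av_algebraMap_lt_one_iff (x : 𝓞 F) : av w (algebraMap (𝓞 F) F x) < 1 ↔ x ∈ w.asIdeal := by
  rw [av_lt_one_iff_valuation]
  exact w.valuation_lt_one_iff_mem x

theorem zpow_inj {a b : ℤ} (h : qv w ^ a = qv w ^ b) : a = b :=
  zpow_right_injective₀ (qv_pos w) (one_lt_qv w).ne' h

theorem zpow_le_iff {a b : ℤ} : qv w ^ a ≤ qv w ^ b ↔ a ≤ b :=
  zpow_le_zpow_iff_right₀ (one_lt_qv w)

theorem zpow_lt_iff {a b : ℤ} : qv w ^ a < qv w ^ b ↔ a < b :=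
  zpow_lt_zpow_iff_right₀ (one_lt_qv w)

theorem lv_mul {x y : F} (hx : x ≠ 0) (hy : y ≠ 0) : lv w (x * y) = lv w x + lv w y := by
  unfold lv
  rw [map_mul, WithZero.log_mul ((Valuation.ne_zero_iff _).mpr hx)
    ((Valuation.ne_zero_iff _).mpr hy)]

theorem lv_inv (x : F) : lv w x⁻¹ = - lv w x := by
  unfold lv
  rw [map_inv₀, WithZero.log_inv]

theorem lv_one : lv w (1 : F) = 0 := by
  unfold lv
  rw [map_one, WithZero.log_one]

theorem lv_neg (x : F) : lv w (-x) = lv w x := by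
  unfold lv
  rw [Valuation.map_neg]

theorem lv_zpow (x : F) (n : ℤ) : lv w (x ^ n) = n * lv w x := by
  unfold lv
  rw [map_zpow₀, WithZero.log_zpow, smul_eq_mul]

theorem exists_unif : ∃ ϖ : Fˣ, lv w (ϖ : F) = -1 := by
  obtain ⟨π, hπ⟩ := w.valuation_exists_uniformizer F
  have h0 : π ≠ 0 := by
    rintro rfl
    rw [map_zero] at hπ
    exact absurd hπ.symm (by simp)
  refine ⟨Units.mk0 π h0, ?_⟩
  unfold lv
  rw [Units.val_mk0, hπ, WithZero.log_exp]

/-- a uniformizer -/
def unif : Fˣ := (exists_unif w).choose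

theorem lv_unif : lv w (unif w : F) = -1 := (exists_unif w).choose_spec

theorem av_unif : av w (unif w : F) = (qv w)⁻¹ := by
  rw [av_eq_zpow w (unif w).ne_zero, lv_unif, _root_.zpow_neg_one]

theorem lv_unif_zpow (n : ℤ) : lv w ((unif w : F) ^ n) = -n := by
  rw [lv_zpow, lv_unif]; ring

/-- gap principle -/
theorem av_lt_one_iff_le {x : F} : av w x < 1 ↔ av w x ≤ (qv w)⁻¹ := by
  by_cases hx : x = 0
  · subst hx
    rw [map_zero]
    exact ⟨fun _ ↦ (inv_pos.mpr (qv_pos w)).le, fun _ ↦ zero_lt_one⟩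
  · rw [av_eq_zpow w hx, ← zpow_zero (qv w), zpow_lt_iff, ← _root_.zpow_neg_one, zpow_le_iff]
    omega

theorem one_lt_av_iff {x : F} : 1 < av w x ↔ qv w ≤ av w x := by
  by_cases hx : x = 0
  · subst hx
    rw [map_zero]
    exact ⟨fun h ↦ absurd h (by norm_num), fun h ↦ absurd h (not_le.mpr (qv_pos w))⟩
  · rw [av_eq_zpow w hx]
    nth_rewrite 1 [← zpow_zero (qv w)]
    nth_rewrite 3 [← zpow_one (qv w)]
    rw [zpow_lt_iff, zpow_le_iff]
    omega

/-! ### residue representatives -/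

instance : Finite (𝓞 F ⧸ w.asIdeal) := Ideal.finiteQuotientOfFreeOfNeBot _ w.ne_bot

/-- representatives of the residue field -/
def rep (c : 𝓞 F ⧸ w.asIdeal) : F := algebraMap (𝓞 F) F c.out

theorem card_res : Nat.card (𝓞 F ⧸ w.asIdeal) = qn w := by
  rw [qn, Ideal.absNorm_apply, Submodule.cardQuot_apply]

theorem av_rep_le (c : 𝓞 F ⧸ w.asIdeal) : av w (rep w c) ≤ 1 := av_algebraMap_le_one w _

theorem rep_close {c d : 𝓞 F ⧸ w.asIdeal} : av w (rep w c - rep w d) < 1 ↔ c = d := by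
  unfold rep
  rw [← map_sub, av_algebraMap_lt_one_iff, ← Ideal.Quotient.eq]
  have h : ∀ c : 𝓞 F ⧸ w.asIdeal, Ideal.Quotient.mk w.asIdeal c.out = c := fun c ↦
    Quotient.out_eq' c
  rw [h, h]

theorem exists_rep {x : F} (hx : av w x ≤ 1) : ∃ c, av w (x - rep w c) < 1 := by
  obtain ⟨a, ha⟩ := w.exists_valuation_sub_lt_of_integer ((av_le_one_iff_valuation w).mp hx) 1
  refine ⟨Ideal.Quotient.mk _ a, ?_⟩
  have h1 : av w (algebraMap (𝓞 F) F a - x) < 1 := by
    rw [av_lt_one_iff_valuation]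
    simpa using ha
  have h2 : av w (algebraMap (𝓞 F) F a - rep w (Ideal.Quotient.mk _ a)) < 1 := by
    unfold rep
    rw [← map_sub, av_algebraMap_lt_one_iff, ← Ideal.Quotient.eq]
    exact (Quotient.out_eq' (Ideal.Quotient.mk w.asIdeal a)).symm
  have h3 : x - rep w (Ideal.Quotient.mk _ a) =
      -(algebraMap (𝓞 F) F a - x) + (algebraMap (𝓞 F) F a - rep w (Ideal.Quotient.mk _ a)) := by
    ring
  rw [h3]
  refine (av_add_le w _ _).trans_lt (max_lt ?_ h2)
  rwa [(av w).map_neg]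

theorem existsUnique_rep {x : F} (hx : av w x ≤ 1) : ∃! c, av w (x - rep w c) < 1 := by
  obtain ⟨c, hc⟩ := exists_rep w hx
  refine ⟨c, hc, fun d hd ↦ ?_⟩
  rw [← rep_close w]
  have h : rep w d - rep w c = -(x - rep w d) + (x - rep w c) := by ring
  rw [h]
  refine (av_add_le w _ _).trans_lt (max_lt ?_ hc)
  rwa [(av w).map_neg]

/-- strict ultrametric inequality -/
theorem av_add_eq_of_lt {x y : F} (h : av w x < av w y) : av w (x + y) = av w y := by
  apply le_antisymm ((av_add_le w x y).trans (max_le h.le le_rfl))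
  by_contra hc
  rw [not_le] at hc
  have h1 : y = (x + y) + (-x) := by ring
  have h2 := av_add_le w (x + y) (-x)
  rw [← h1, (av w).map_neg] at h2
  exact absurd h2 (not_le.mpr (max_lt hc h))

end

end Fermat.Agent.LT.CTree
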