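import Fermat.Agent.LT.CTree.Tree
import Fermat.Agent.LT.F.TreeSums

/-!
# LT / C-TREE: local Hecke operators on `GL₂(F) ⧸ H_w`

`dY w y y'` is the distance.  At a good place (`U.n w = 0`) the operator
`Tl w a φ y = ∑ x, a (d(y,x)) φ x` for finitely supported `a : ℕ → ℂ`.
-/

open NumberField IsDedekindDomain Matrix
open Fermat.LT
open Fermat.Agent.LT.F (sph sph_self sph_of_lt sph_of_even sph_of_odd)

namespace Fermat.Agent.LT.CTree

noncomputable section

variable {F : Type} [Field F] [NumberField F] {U : Level F} (w : Pl F)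

/-- distance on the local factor -/
def dY : Yl U w → Yl U w → ℕ :=
  fun y y' ↦ Quotient.liftOn₂' y y' (fun g g' ↦ dn w (g⁻¹ * g')) (by
    intro a b a' b' h h'
    have h1 : a⁻¹ * a' ∈ U.H w := QuotientGroup.leftRel_apply.mp h
    have h2 : b⁻¹ * b' ∈ U.H w := QuotientGroup.leftRel_apply.mp h'
    have e : a'⁻¹ * b' = (a⁻¹ * a')⁻¹ * (a⁻¹ * b * (b⁻¹ * b')) := by group
    change dn w (a⁻¹ * b) = dn w (a'⁻¹ * b')
    rw [e, dn_mul_left w (inv_mem (U.le_std w h1)), dn_mul_right w _ (U.le_std w h2)])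

theorem dY_mk (g g' : G2 F) : dY (U := U) w (g : Yl U w) (g' : Yl U w) = dn w (g⁻¹ * g') := rfl

theorem dY_smul (γ : G2 F) (y y' : Yl U w) : dY w (γ • y) (γ • y') = dY w y y' := by
  obtain ⟨g, rfl⟩ := QuotientGroup.mk_surjective y
  obtain ⟨g', rfl⟩ := QuotientGroup.mk_surjective y'
  change dY w ((γ * g : G2 F) : Yl U w) ((γ * g' : G2 F) : Yl U w) = _
  rw [dY_mk, dY_mk]
  congr 1
  group

theorem dY_comm (y y' : Yl U w) : dY w y y' = dY w y' y := by
  obtain ⟨g, rfl⟩ := QuotientGroup.mk_surjective y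
  obtain ⟨g', rfl⟩ := QuotientGroup.mk_surjective y'
  rw [dY_mk, dY_mk, ← dn_inv w (g⁻¹ * g'), _root_.mul_inv_rev, inv_inv]

theorem dY_self (y : Yl U w) : dY w y y = 0 := by
  obtain ⟨g, rfl⟩ := QuotientGroup.mk_surjective y
  rw [dY_mk, inv_mul_cancel, dn_eq_zero_iff]
  exact one_mem _

variable {w}

theorem dY_eq_zero_iff (hw : U.n w = 0) (y y' : Yl U w) : dY w y y' = 0 ↔ y = y' := by
  obtain ⟨g, rfl⟩ := QuotientGroup.mk_surjective y
  obtain ⟨g', rfl⟩ := QuotientGroup.mk_surjective y'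
  rw [dY_mk, dn_eq_zero_iff, QuotientGroup.eq, U.H_eq hw]

variable (w) in
/-- the neighbours of `g H` -/
def nb (g : G2 F) (o : Option (𝓞 F ⧸ w.asIdeal)) : Yl U w := ((g * nu w o : G2 F) : Yl U w)

theorem dn_nu (o : Option (𝓞 F ⧸ w.asIdeal)) : dn w (nu w o) = 1 := by
  have h := dn_nu_of_zero w (g := 1) (by rw [dn_eq_zero_iff]; exact one_mem _) o
  rwa [mul_one, dn_inv] at h

theorem dY_nb (g : G2 F) (o : Option (𝓞 F ⧸ w.asIdeal)) :
    dY w ((g : G2 F) : Yl U w) (nb w g o) = 1 := by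
  rw [nb, dY_mk, inv_mul_cancel_left, dn_nu]

theorem dY_nb_left (g g' : G2 F) (o : Option (𝓞 F ⧸ w.asIdeal)) :
    dY w (nb (U := U) w g o) ((g' : G2 F) : Yl U w) = dn w ((nu w o)⁻¹ * (g⁻¹ * g')) := by
  rw [nb, dY_mk, _root_.mul_inv_rev, mul_assoc]

theorem nb_injective (g : G2 F) : Function.Injective (nb (U := U) w g) := by
  intro o o' h
  by_contra hne
  have h1 : dY w (nb (U := U) w g o') (nb w g o) = 0 := by rw [h, dY_self]
  rw [nb, nb, dY_mk] at h1
  have e : (g * nu w o')⁻¹ * (g * nu w o) = (nu w o')⁻¹ * nu w o := by group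
  rw [e] at h1
  obtain ⟨o'', h2, h3⟩ := exists_unique_nu w (g := nu w o) (n := 0) (dn_nu o)
  by_cases h4 : o'' = o
  · subst h4
    have := h3 o' (fun h ↦ hne h.symm)
    omega
  · have := h3 o (fun h ↦ h4 h.symm)
    rw [inv_mul_cancel, (dn_eq_zero_iff w 1).mpr (one_mem _)] at this
    omega

theorem exists_nb_of_dY {g : G2 F} {y : Yl U w} {n : ℕ}
    (h : dY w (g : Yl U w) y = n + 1) : ∃ o, dY w (nb w g o) y = n ∧
      ∀ o', o' ≠ o → dY w (nb w g o') y = n + 2 := by
  obtain ⟨g', rfl⟩ := QuotientGroup.mk_surjective y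
  rw [dY_mk] at h
  obtain ⟨o, h1, h2⟩ := exists_unique_nu w h
  exact ⟨o, by rw [dY_nb_left, h1], fun o' ho' ↦ by rw [dY_nb_left, h2 o' ho']⟩

theorem exists_nb_eq (hw : U.n w = 0) {g : G2 F} {y : Yl U w} (h : dY w (g : Yl U w) y = 1) :
    ∃ o, nb w g o = y := by
  obtain ⟨o, h1, -⟩ := exists_nb_of_dY (n := 0) h
  exact ⟨o, (dY_eq_zero_iff hw _ _).mp h1⟩

theorem dY_nb_of_eq {g : G2 F} {y : Yl U w} (hw : U.n w = 0) (h : dY w (g : Yl U w) y = 0)
    (o : Option (𝓞 F ⧸ w.asIdeal)) : dY w (nb w g o) y = 1 := by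
  rw [dY_eq_zero_iff hw] at h
  rw [← h, dY_comm, dY_nb]

theorem finite_sphere (hw : U.n w = 0) (m : ℕ) (y : Yl U w) : {x : Yl U w | dY w y x = m}.Finite := by
  induction m generalizing y with
  | zero =>
    refine (Set.finite_singleton y).subset ?_
    intro x hx
    rw [Set.mem_ofPred_eq, dY_eq_zero_iff hw] at hx
    exact hx.symm
  | succ m ih =>
    obtain ⟨g, rfl⟩ := QuotientGroup.mk_surjective y
    refine (Set.finite_iUnion fun o ↦ ih (nb w g o)).subset ?_
    intro x hx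
    obtain ⟨o, ho, -⟩ := exists_nb_of_dY (n := m) hx
    exact Set.mem_iUnion.mpr ⟨o, ho⟩

/-- finitely supported functions of the distance have finite fibres -/
theorem finite_support (hw : U.n w = 0) {a : ℕ → ℂ} (ha : a.support.Finite) (y : Yl U w) :
    {x : Yl U w | a (dY w y x) ≠ 0}.Finite := by
  have h : {x : Yl U w | a (dY w y x) ≠ 0} = ⋃ m ∈ a.support, {x : Yl U w | dY w y x = m} := by
    ext x
    simp
  rw [h]
  exact ha.biUnion fun m _ ↦ finite_sphere hw m y

variable (w) in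
/-- The local Hecke operator with kernel `a(d(y,x))`. -/
def Tl (a : ℕ → ℂ) (φ : Yl U w → ℂ) (y : Yl U w) : ℂ := ∑ᶠ x, a (dY w y x) * φ x

theorem Tl_eq_sum (hw : U.n w = 0) {a : ℕ → ℂ} (ha : a.support.Finite) (φ : Yl U w → ℂ)
    (y : Yl U w) {s : Finset (Yl U w)} (hs : (finite_support hw ha y).toFinset ⊆ s) :
    Tl w a φ y = ∑ x ∈ s, a (dY w y x) * φ x := by
  unfold Tl
  apply finsum_eq_sum_of_support_subset
  intro x hx
  apply hs
  rw [Set.Finite.mem_toFinset, Set.mem_ofPred_eq]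
  exact left_ne_zero_of_mul hx

instance : Fintype (𝓞 F ⧸ w.asIdeal) := Fintype.ofFinite _

theorem card_res' : (Fintype.card (𝓞 F ⧸ w.asIdeal) : ℂ) = (qn w : ℂ) := by
  rw [← card_res w, Nat.card_eq_fintype_card]

/-- the indicator of distance one -/
def δ₁ : ℕ → ℂ := fun n ↦ if n = 1 then 1 else 0

theorem δ₁_support : (δ₁.support).Finite :=
  (Set.finite_singleton 1).subset fun n hn ↦ by
    by_contra h
    exact hn (if_neg h)

/-- `T₁ φ (g H) = ∑ over neighbours` -/
theorem Tl_one (hw : U.n w = 0) (φ : Yl U w → ℂ) (g : G2 F) :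
    Tl w δ₁ φ (g : Yl U w) = ∑ o, φ (nb w g o) := by
  classical
  rw [Tl_eq_sum hw δ₁_support φ _
    (s := Finset.univ.image (nb (U := U) w g)) (by
      intro x hx
      rw [Set.Finite.mem_toFinset, Set.mem_ofPred_eq] at hx
      have h1 : dY w (g : Yl U w) x = 1 := by
        by_contra h
        exact hx (if_neg h)
      obtain ⟨o, ho⟩ := exists_nb_eq hw h1
      exact Finset.mem_image.mpr ⟨o, Finset.mem_univ _, ho⟩),
    Finset.sum_image fun o _ o' _ h ↦ nb_injective g h]
  refine Finset.sum_congr rfl fun o _ ↦ ?_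
  rw [dY_nb, δ₁, if_pos rfl, one_mul]

/-- the action of `T₁` on functions of the distance -/
def step (q : ℂ) (a : ℕ → ℂ) : ℕ → ℂ
  | 0 => (q + 1) * a 1
  | n + 1 => a n + q * a (n + 2)

theorem step_support {q : ℂ} {a : ℕ → ℂ} (ha : a.support.Finite) :
    ((step q a).support).Finite := by
  obtain ⟨N, hN⟩ := ha.bddAbove
  refine (Set.finite_Iic (N + 1)).subset fun n hn ↦ ?_
  by_contra h
  rw [Set.mem_Iic, not_le] at h
  apply hn
  have h0 : ∀ m, N < m → a m = 0 := fun m hm ↦ by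
    by_contra hc
    exact absurd (hN hc) (not_le.mpr hm)
  cases n with
  | zero => omega
  | succ n => rw [step, h0 n (by omega), h0 (n + 2) (by omega), mul_zero, add_zero]

theorem sum_nb (hw : U.n w = 0) (a : ℕ → ℂ) (g : G2 F) (x : Yl U w) :
    ∑ o, a (dY w (nb w g o) x) = step (qn w) a (dY w (g : Yl U w) x) := by
  classical
  rcases hn : dY w (g : Yl U w) x with _ | n
  · rw [Finset.sum_congr rfl fun o _ ↦ by rw [dY_nb_of_eq hw hn o], Finset.sum_const,
      Finset.card_univ, Fintype.card_option, nsmul_eq_mul, step]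
    push_cast
    rw [card_res']
  · obtain ⟨o, h1, h2⟩ := exists_nb_of_dY hn
    rw [← Finset.add_sum_erase _ _ (Finset.mem_univ o), h1,
      Finset.sum_congr rfl fun o' ho' ↦ by rw [h2 o' (Finset.ne_of_mem_erase ho')],
      Finset.sum_const, Finset.card_erase_of_mem (Finset.mem_univ _), Finset.card_univ,
      Fintype.card_option, nsmul_eq_mul, step, Nat.add_sub_cancel, card_res']

/-- `T₁ T_a = T_{step a}` -/
theorem Tl_one_Tl (hw : U.n w = 0) {a : ℕ → ℂ} (ha : a.support.Finite) (φ : Yl U w → ℂ) :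
    Tl w δ₁ (Tl w a φ) = Tl w (step (qn w) a) φ := by
  classical
  funext y
  obtain ⟨g, rfl⟩ := QuotientGroup.mk_surjective y
  rw [Tl_one hw]
  set s : Finset (Yl U w) := (Finset.univ.biUnion fun o ↦
    (finite_support hw ha (nb w g o)).toFinset) ∪
      (finite_support hw (step_support (q := qn w) ha) (g : Yl U w)).toFinset with hs
  have h1 : ∀ o, Tl w a φ (nb w g o) = ∑ x ∈ s, a (dY w (nb w g o) x) * φ x := by
    intro o
    apply Tl_eq_sum hw ha
    refine Finset.Subset.trans ?_ Finset.subset_union_left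
    intro x hx
    exact Finset.mem_biUnion.mpr ⟨o, Finset.mem_univ _, hx⟩
  rw [Finset.sum_congr rfl fun o _ ↦ h1 o, Finset.sum_comm,
    Tl_eq_sum hw (step_support ha) φ _ Finset.subset_union_right]
  refine Finset.sum_congr rfl fun x _ ↦ ?_
  rw [← Finset.sum_mul, sum_nb hw]

theorem Tl_add (hw : U.n w = 0) {a b : ℕ → ℂ} (ha : a.support.Finite) (hb : b.support.Finite)
    (φ : Yl U w → ℂ) : Tl w (a + b) φ = Tl w a φ + Tl w b φ := by
  classical
  funext y
  have hab : (a + b).support.Finite := (ha.union hb).subset (Function.support_add a b)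
  set s := (finite_support hw ha y).toFinset ∪ (finite_support hw hb y).toFinset ∪
    (finite_support hw hab y).toFinset with hs
  rw [Pi.add_apply, Tl_eq_sum hw hab φ y (s := s) Finset.subset_union_right,
    Tl_eq_sum hw ha φ y (s := s) (Finset.subset_union_left.trans Finset.subset_union_left),
    Tl_eq_sum hw hb φ y (s := s) (Finset.subset_union_right.trans Finset.subset_union_left),
    ← Finset.sum_add_distrib]
  refine Finset.sum_congr rfl fun x _ ↦ ?_
  rw [Pi.add_apply, add_mul]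

theorem Tl_smul (c : ℂ) (a : ℕ → ℂ) (φ : Yl U w → ℂ) : Tl w (c • a) φ = c • Tl w a φ := by
  funext y
  unfold Tl
  rw [Pi.smul_apply, smul_finsum]
  refine finsum_congr fun x ↦ ?_
  rw [Pi.smul_apply, smul_eq_mul, smul_eq_mul, mul_assoc]

theorem Tl_fun_smul (c : ℂ) (a : ℕ → ℂ) (φ : Yl U w → ℂ) : Tl w a (c • φ) = c • Tl w a φ := by
  funext y
  unfold Tl
  rw [Pi.smul_apply, smul_finsum]
  refine finsum_congr fun x ↦ ?_
  rw [Pi.smul_apply, smul_eq_mul, smul_eq_mul]
  ring

/-- the operators commute with the action of `GL₂(F)` -/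
theorem Tl_equivariant (a : ℕ → ℂ) (φ : Yl U w → ℂ) (γ : G2 F) (y : Yl U w) :
    Tl w a φ (γ • y) = Tl w a (fun x ↦ φ (γ • x)) y := by
  unfold Tl
  rw [← finsum_comp_equiv (MulAction.toPerm γ)]
  refine finsum_congr fun x ↦ ?_
  rw [MulAction.toPerm_apply, dY_smul]

/-! ### the spherical functions `f^(m)` -/

/-- indicator of distance zero -/
def δ₀ : ℕ → ℂ := fun n ↦ if n = 0 then 1 else 0

theorem δ₀_support : (δ₀.support).Finite :=
  (Set.finite_singleton 0).subset fun n hn ↦ by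
    by_contra h
    exact hn (if_neg h)

theorem Tl_zero' (hw : U.n w = 0) (φ : Yl U w → ℂ) : Tl w δ₀ φ = φ := by
  classical
  funext y
  rw [Tl_eq_sum hw δ₀_support φ y (s := {y}) (by
    intro x hx
    rw [Set.Finite.mem_toFinset, Set.mem_ofPred_eq] at hx
    rw [Finset.mem_singleton]
    by_contra h
    exact hx (if_neg fun h' ↦ h ((dY_eq_zero_iff hw _ _).mp h').symm))]
  rw [Finset.sum_singleton, dY_self, δ₀, if_pos rfl, one_mul]

variable (w) in
/-- square root of `q` -/
def sq : ℝ := Real.sqrt (qv w)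

variable (w) in
theorem sq_pos : 0 < sq w := Real.sqrt_pos.mpr (qv_pos w)

variable (w) in
theorem sq_sq : sq w ^ 2 = qv w := Real.sq_sqrt (qv_pos w).le

variable (w) in
/-- `fh w m` is the spherical function with Satake transform `z^m + z^{-m}` (`2` for `m = 0`). -/
def fh (m : ℕ) : ℕ → ℂ := if m = 0 then (2 : ℂ) • δ₀ else fun n ↦ (sph (sq w) m n : ℂ)

variable (w) in
theorem fh_support (m : ℕ) : ((fh w m).support).Finite := by
  unfold fh
  split_ifs
  · exact δ₀_support.subset (Function.support_const_smul_subset _ _)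
  · refine (Set.finite_Iic m).subset fun n hn ↦ ?_
    by_contra h
    rw [Set.mem_Iic, not_le] at h
    exact hn (by beta_reduce; rw [sph_of_lt h]; norm_num)

variable (w) in
theorem fh_one : fh w 1 = ((sq w : ℂ)⁻¹) • δ₁ := by
  funext n
  rw [fh, if_neg one_ne_zero, Pi.smul_apply, smul_eq_mul, δ₁]
  split_ifs with h
  · rw [h, sph_self]; push_cast; ring
  · rcases lt_or_gt_of_ne h with h1 | h1
    · have h0 : n = 0 := by omega
      subst h0
      rw [sph_of_odd (by norm_num) (by decide)]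
      norm_num
    · rw [sph_of_lt h1]; norm_num

variable (w) in
/-- Chebyshev recursion -/
theorem step_fh (m : ℕ) : step (qn w) (fh w (m + 1)) =
    (sq w : ℂ) • (fh w (m + 2) + fh w m) := by
  have hs := (sq_pos w).ne'
  have hsC : (sq w : ℂ) ≠ 0 := by exact_mod_cast hs
  have hq : (qn w : ℂ) = (sq w : ℂ) ^ 2 := by
    have := sq_sq w
    rw [qv_eq] at this
    exact_mod_cast this.symm
  have hst : (sq w : ℂ) * (sq w : ℂ)⁻¹ = 1 := mul_inv_cancel₀ hsC
  rw [hq]
  funext n
  rw [Pi.smul_apply, Pi.add_apply, smul_eq_mul]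
  have e1 : fh w (m + 1) = fun n ↦ (sph (sq w) (m + 1) n : ℂ) := by
    rw [fh, if_neg (by omega)]
  have e2 : fh w (m + 2) = fun n ↦ (sph (sq w) (m + 2) n : ℂ) := by
    rw [fh, if_neg (by omega)]
  rw [e1, e2]
  beta_reduce
  by_cases hpar : Even (m + n)
  swap
  · -- wrong parity: everything vanishes
    have z : ∀ k l : ℕ, Odd (k + l) → sph (sq w) k l = 0 := by
      intro k l hkl
      unfold sph
      rw [if_neg (by rintro rfl; rw [← two_mul] at hkl; exact (Nat.not_odd_iff_even.mpr (even_two_mul _)) hkl),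
        if_neg]
      rintro ⟨h1, h2⟩
      have h3 : k + l = (k - l) + 2 * l := by omega
      rw [h3] at hkl
      exact (Nat.not_odd_iff_even.mpr (h2.add (even_two_mul _))) hkl
    have hodd : Odd (m + n) := Nat.not_even_iff_odd.mp hpar
    have hm : fh w m n = 0 := by
      unfold fh
      split_ifs with h0
      · subst h0
        rw [Pi.smul_apply, δ₀, if_neg, smul_zero]
        rintro rfl
        exact absurd hodd (by decide)
      · simp only
        rw [z _ _ hodd]; norm_num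
    simp only [hm]
    rw [z (m + 2) n (by
      obtain ⟨k, hk⟩ := hodd
      exact ⟨k + 1, by omega⟩)]
    cases n with
    | zero =>
      rw [step]
      try simp only
      rw [z (m + 1) 1 (by obtain ⟨k, hk⟩ := hodd; exact ⟨k + 1, by omega⟩)]
      push_cast; ring
    | succ n =>
      rw [step]
      try simp only
      rw [z (m + 1) n (by obtain ⟨k, hk⟩ := hodd; exact ⟨k, by omega⟩),
        z (m + 1) (n + 2) (by obtain ⟨k, hk⟩ := hodd; exact ⟨k + 1, by omega⟩)]
      push_cast; ring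
  · -- right parity
    have v : ∀ k l : ℕ, l < k → Even (k + l) → sph (sq w) k l =
        -((sq w) ^ 2 - 1) * ((sq w)⁻¹) ^ k := by
      intro k l hlk hkl
      apply sph_of_even hlk
      have h3 : k + l = (k - l) + 2 * l := by omega
      rw [h3] at hkl
      exact (Nat.even_add.mp hkl).mpr (even_two_mul _)
    rcases Nat.lt_trichotomy n m with h | h | h
    · -- n < m
      have hm : fh w m n = ((-((sq w) ^ 2 - 1) * ((sq w)⁻¹) ^ m : ℝ) : ℂ) := by
        rw [fh, if_neg (by omega)]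
        try simp only
        rw [v m n h hpar]
      simp only [hm]
      rw [v (m + 2) n (by omega) (by obtain ⟨k, hk⟩ := hpar; exact ⟨k + 1, by omega⟩)]
      cases n with
      | zero =>
        rw [step]
        try simp only
        rw [v (m + 1) 1 (by
          rcases hpar with ⟨k, hk⟩
          omega) (by obtain ⟨k, hk⟩ := hpar; exact ⟨k + 1, by omega⟩)]
        push_cast
        generalize (sq w : ℂ)⁻¹ = t at hst
        generalize (sq w : ℂ) = s at hst
        linear_combination (-(s ^ 2 - 1) * t ^ m * (s - t)) * hst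
      | succ n =>
        rw [step]
        try simp only
        rw [v (m + 1) n (by omega) (by obtain ⟨k, hk⟩ := hpar; exact ⟨k, by omega⟩),
          v (m + 1) (n + 2) (by
            rcases hpar with ⟨k, hk⟩
            omega) (by obtain ⟨k, hk⟩ := hpar; exact ⟨k + 1, by omega⟩)]
        push_cast
        generalize (sq w : ℂ)⁻¹ = t at hst
        generalize (sq w : ℂ) = s at hst
        linear_combination (-(s ^ 2 - 1) * t ^ m * (s - t)) * hst
    · -- n = m
      subst h
      rw [v (n + 2) n (by omega) (by exact ⟨n + 1, by omega⟩)]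
      cases n with
      | zero =>
        rw [step, fh, if_pos rfl, Pi.smul_apply, δ₀, if_pos rfl]
        try simp only
        rw [zero_add, sph_self, smul_eq_mul]
        push_cast
        field_simp
        ring
      | succ n =>
        rw [step, fh, if_neg (by omega)]
        try simp only
        rw [v (n + 1 + 1) n (by omega) ⟨n + 1, by omega⟩, sph_self, sph_self]
        push_cast
        generalize (sq w : ℂ)⁻¹ = t at hst
        generalize (sq w : ℂ) = s at hst
        linear_combination (t ^ (n + 1) * (s * (s * t + 1) - t)) * hst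
    · -- m < n
      have hn : m + 2 ≤ n := by
        rcases hpar with ⟨k, hk⟩
        omega
      have hm : fh w m n = 0 := by
        unfold fh
        split_ifs with h0
        · rw [Pi.smul_apply, δ₀, if_neg (by omega), smul_zero]
        · simp only
          rw [sph_of_lt h]; norm_num
      simp only [hm]
      obtain ⟨n, rfl⟩ : ∃ n', n = n' + 1 := ⟨n - 1, by omega⟩
      rw [step]
      try simp only
      rw [sph_of_lt (m := m + 1) (n := n + 2) (by omega)]
      rcases Nat.lt_or_ge (m + 2) (n + 1) with h5 | h5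
      · rw [sph_of_lt (m := m + 1) (n := n) (by omega), sph_of_lt h5]
        push_cast; ring
      · have h6 : n = m + 1 := by omega
        subst h6
        rw [sph_self, sph_self]
        push_cast
        generalize (sq w : ℂ)⁻¹ = t at hst
        generalize (sq w : ℂ) = s at hst
        linear_combination (-t ^ (m + 1)) * hst

/-- Chebyshev recursion for the operators -/
theorem Tl_fh_succ (hw : U.n w = 0) (m : ℕ) (φ : Yl U w → ℂ) :
    Tl w (fh w (m + 2)) φ =
      ((sq w : ℂ)⁻¹) • Tl w δ₁ (Tl w (fh w (m + 1)) φ) - Tl w (fh w m) φ := by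
  have hs : (sq w : ℂ) ≠ 0 := by exact_mod_cast (sq_pos w).ne'
  rw [Tl_one_Tl hw (fh_support w _), step_fh, Tl_smul, Tl_add hw (fh_support w _) (fh_support w _),
    smul_smul, inv_mul_cancel₀ hs, one_smul, add_sub_cancel_right]

theorem Tl_fh_zero (hw : U.n w = 0) (φ : Yl U w → ℂ) : Tl w (fh w 0) φ = (2 : ℂ) • φ := by
  rw [fh, if_pos rfl, Tl_smul, Tl_zero' hw]

theorem Tl_fh_one (φ : Yl U w → ℂ) :
    Tl w (fh w 1) φ = ((sq w : ℂ)⁻¹) • Tl w δ₁ φ := by
  rw [fh_one, Tl_smul]

/-- Eigenfunctions of `T₁`. -/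
theorem Tl_fh_eigen (hw : U.n w = 0) {φ : Yl U w → ℂ} {z : ℂ} (hz : z ≠ 0)
    (h : Tl w δ₁ φ = ((sq w : ℂ) * (z + z⁻¹)) • φ) (m : ℕ) :
    Tl w (fh w m) φ = (z ^ m + z⁻¹ ^ m) • φ := by
  have hs : (sq w : ℂ) ≠ 0 := by exact_mod_cast (sq_pos w).ne'
  induction m using Nat.strong_induction_on with
  | _ m ih =>
    match m with
    | 0 => rw [Tl_fh_zero hw, pow_zero, pow_zero, one_add_one_eq_two]
    | 1 => rw [Tl_fh_one, h, smul_smul, inv_mul_cancel_left₀ hs, pow_one, pow_one]
    | m + 2 =>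
      rw [Tl_fh_succ hw, ih (m + 1) (by omega), ih m (by omega), Tl_fun_smul, h, smul_smul,
        smul_smul, ← sub_smul]
      congr 1
      have hz' : z * z⁻¹ = 1 := mul_inv_cancel₀ hz
      generalize z⁻¹ = y at hz'
      field_simp
      linear_combination (z ^ m + y ^ m) * hz'

/-! ### functions invariant under the unipotent group -/

/-- invariance under `N(F)` at the place `w` -/
def NInv (ψ : Yl U w → ℂ) : Prop := ∀ (b : F) (y : Yl U w), ψ (un b • y) = ψ y

theorem NInv.map_tri {ψ : Yl U w → ℂ} (h : NInv ψ) (a : Fˣ) (b : F) :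
    ψ ((tri a b : G2 F) : Yl U w) = ψ ((dg a : G2 F) : Yl U w) :=
  h b ((dg a : G2 F) : Yl U w)

theorem exists_tri_rep (hw : U.n w = 0) (y : Yl U w) :
    ∃ (a : Fˣ) (b : F), y = ((tri a b : G2 F) : Yl U w) := by
  obtain ⟨g, rfl⟩ := QuotientGroup.mk_surjective y
  obtain ⟨a, b, h, hh, rfl⟩ := exists_tri w g
  refine ⟨a, b, ?_⟩
  rw [QuotientGroup.eq, U.H_eq hw, _root_.mul_inv_rev, inv_mul_cancel_right]
  exact inv_mem hh

omit [NumberField F] in
theorem dg_mul_tri (x a : Fˣ) (b : F) : dg x * tri a b = tri (x * a) (x * b) := by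
  rw [dg_eq_tri, tri_mul, add_zero]

theorem NInv.dg_smul_tri {ψ : Yl U w → ℂ} (h : NInv ψ) (x a : Fˣ) (b : F) :
    ψ (dg x • ((tri a b : G2 F) : Yl U w)) = ψ ((dg (x * a) : G2 F) : Yl U w) := by
  change ψ ((dg x * tri a b : G2 F) : Yl U w) = _
  rw [dg_mul_tri, h.map_tri]

theorem NInv.dg_congr (hw : U.n w = 0) {ψ : Yl U w → ℂ} {x x' : Fˣ}
    (hx : lv w (x : F) = lv w (x' : F)) :
    ψ ((dg x : G2 F) : Yl U w) = ψ ((dg x' : G2 F) : Yl U w) := by
  congr 1
  rw [QuotientGroup.eq, U.H_eq hw, ← dn_eq_zero_iff, dn_eq_iff, pow_zero]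
  have e : (dg x)⁻¹ * dg x' = tri (x⁻¹ * x') 0 := by
    rw [dg_eq_tri, dg_eq_tri, tri_inv, tri_mul]
    congr 1
    ring
  have hav : av w ((x⁻¹ * x' : Fˣ) : F) = 1 := by
    rw [Units.val_mul, Units.val_inv_eq_inv_val, map_mul, map_inv₀, av_eq_zpow w x.ne_zero,
      av_eq_zpow w x'.ne_zero, hx, inv_mul_cancel₀]
    exact zpow_ne_zero _ (qv_pos w).ne'
  rw [e, dd_tri, hav, map_zero]
  norm_num

theorem NInv.dg_smul_congr (hw : U.n w = 0) {ψ : Yl U w → ℂ} (h : NInv ψ) {x x' : Fˣ}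
    (hx : lv w (x : F) = lv w (x' : F)) (y : Yl U w) : ψ (dg x • y) = ψ (dg x' • y) := by
  obtain ⟨a, b, rfl⟩ := exists_tri_rep hw y
  rw [h.dg_smul_tri, h.dg_smul_tri]
  apply NInv.dg_congr hw
  rw [Units.val_mul, Units.val_mul, lv_mul w x.ne_zero a.ne_zero, lv_mul w x'.ne_zero a.ne_zero, hx]

theorem NInv.comp_dg {ψ : Yl U w → ℂ} (h : NInv ψ) (x : Fˣ) : NInv (fun y ↦ ψ (dg x • y)) := by
  intro b y
  have e : dg x * un b = un (x * b) * dg x := by
    rw [un_eq_tri, dg_mul_tri, un_eq_tri, dg_eq_tri, tri_mul]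
    simp
  change ψ (dg x • un b • y) = ψ (dg x • y)
  rw [← mul_smul, e, mul_smul, h]

theorem NInv.hecke {ψ : Yl U w → ℂ} (h : NInv ψ) (a : ℕ → ℂ) : NInv (Tl w a ψ) := by
  intro b y
  rw [Tl_equivariant]
  congr 1
  funext x
  exact h b x

/-- `T₁` on `N`-invariant functions. -/
theorem NInv.hecke_one (hw : U.n w = 0) {ψ : Yl U w → ℂ} (h : NInv ψ) (y : Yl U w) :
    Tl w δ₁ ψ y = ψ (dg (unif w)⁻¹ • y) + (qn w : ℂ) * ψ (dg (unif w) • y) := by
  obtain ⟨a, b, rfl⟩ := exists_tri_rep hw y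
  rw [Tl_one hw, Fintype.sum_option, h.dg_smul_tri, h.dg_smul_tri]
  congr 1
  · rw [nb, nu, tri_mul, h.map_tri, mul_comm]
  · have e : ∀ c, ψ (nb w (tri a b) (some c)) =
        ψ ((dg (unif w * a) : G2 F) : Yl U w) := by
      intro c
      rw [nb, nu, tri_mul, h.map_tri, mul_comm]
    rw [Finset.sum_congr rfl fun c _ ↦ e c, Finset.sum_const, Finset.card_univ, nsmul_eq_mul,
      card_res']

/-- **Satake transform on `N`-invariant functions.** -/
theorem NInv.hecke_fh (hw : U.n w = 0) {ψ : Yl U w → ℂ} (h : NInv ψ) (m : ℕ) (y : Yl U w) :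
    Tl w (fh w m) ψ y = (sq w : ℂ) ^ m * ψ (dg (unif w ^ m) • y) +
      ((sq w : ℂ)⁻¹) ^ m * ψ (dg ((unif w)⁻¹ ^ m) • y) := by
  have hs : (sq w : ℂ) ≠ 0 := by exact_mod_cast (sq_pos w).ne'
  have hq : (qn w : ℂ) = (sq w : ℂ) ^ 2 := by
    have := sq_sq w
    rw [qv_eq] at this
    exact_mod_cast this.symm
  have hdg : ∀ (x x' : Fˣ) (y : Yl U w), dg x • dg x' • y = dg (x * x') • y := by
    intro x x' y
    rw [← mul_smul, dg_eq_tri x', dg_mul_tri, mul_zero, ← dg_eq_tri]
  induction m using Nat.strong_induction_on generalizing y with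
  | _ m ih =>
    match m with
    | 0 =>
      rw [Tl_fh_zero hw, Pi.smul_apply, smul_eq_mul]
      simp only [pow_zero]
      rw [dg_eq_tri, tri_one, one_smul]
      ring
    | 1 =>
      rw [Tl_fh_one, Pi.smul_apply, smul_eq_mul, h.hecke_one hw, hq, pow_one, pow_one, pow_one, pow_one]
      field_simp
      ring
    | m + 2 =>
      rw [Tl_fh_succ hw, Pi.sub_apply, Pi.smul_apply, smul_eq_mul, (h.hecke _).hecke_one hw,
        ih (m + 1) (by omega), ih (m + 1) (by omega), ih m (by omega), hq,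
        hdg, hdg, hdg, hdg]
      have e1 : unif w ^ (m + 1) * (unif w)⁻¹ = unif w ^ m := by
        rw [pow_succ, mul_inv_cancel_right]
      have e2 : (unif w)⁻¹ ^ (m + 1) * unif w = (unif w)⁻¹ ^ m := by
        rw [pow_succ, inv_mul_cancel_right]
      have e3 : unif w ^ (m + 1) * unif w = unif w ^ (m + 2) := by rw [← pow_succ]
      have e4 : (unif w)⁻¹ ^ (m + 1) * (unif w)⁻¹ = (unif w)⁻¹ ^ (m + 2) := by rw [← pow_succ]
      rw [e1, e2, e3, e4]
      have hst : (sq w : ℂ) * (sq w : ℂ)⁻¹ = 1 := mul_inv_cancel₀ hs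
      generalize (sq w : ℂ)⁻¹ = t at hst
      generalize (sq w : ℂ) = s at hst
      linear_combination (s ^ m * ψ (dg (unif w ^ m) • y) + s ^ (m + 2) *
        ψ (dg (unif w ^ (m + 2)) • y) + t ^ m * ψ (dg ((unif w)⁻¹ ^ m) • y) * (t * s + 1)) * hst

/-- Satake transform, in terms of any element of valuation `h`. -/
theorem NInv.hecke_fh' (hw : U.n w = 0) {ψ : Yl U w → ℂ} (h : NInv ψ) {m : ℕ} {x : Fˣ}
    (hx : lv w (x : F) = -m) (y : Yl U w) :
    Tl w (fh w m) ψ y = (sq w : ℂ) ^ m * ψ (dg x • y) +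
      ((sq w : ℂ)⁻¹) ^ m * ψ (dg x⁻¹ • y) := by
  rw [h.hecke_fh hw]
  have h1 : lv w ((unif w ^ m : Fˣ) : F) = lv w (x : F) := by
    rw [hx, Units.val_pow_eq_pow_val, ← zpow_natCast, lv_unif_zpow]
  have h2 : lv w (((unif w)⁻¹ ^ m : Fˣ) : F) = lv w ((x⁻¹ : Fˣ) : F) := by
    rw [inv_pow, Units.val_inv_eq_inv_val, Units.val_inv_eq_inv_val, lv_inv, lv_inv, h1]
  rw [h.dg_smul_congr hw h1, h.dg_smul_congr hw h2]

end

end Fermat.Agent.LT.CTree
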