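import Fermat.Agent.LT.CTree.KillUnit
import Fermat.Agent.Density.Cyclic

/-!
# LT / C-TREE: the killer element from a Galois extension

`K` a number field, `L / K` Galois with (arbitrary) group `G`, `H ⊴ G` normal.

* `density_frobIn`: the set of primes of `K` having an arithmetic Frobenius in `H` has Dirichlet
  density `1 / [G : H]`.
* `exists_killer_unit_gal`: the killer element, where `A` (`B`) consists of primes with an
  arithmetic Frobenius not in (in) `H`.
-/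

set_option autoImplicit false
set_option linter.unusedSectionVars false

open Filter Topology NumberField Asymptotics IsDedekindDomain
open Fermat.Agent.Density
open Fermat.Agent.LT.CTree.KillPrime

namespace Fermat.Agent.LT.CTree.KillGal

noncomputable section

section frob

variable {K L : Type*} [Field K] [NumberField K] [Field L] [NumberField L] [Algebra K L]
variable (G : Type*) [Group G] [Finite G] [MulSemiringAction G L] [IsGaloisGroup G K L]

theorem card_quot' {E : Type*} [Field E] [NumberField E] [Algebra K E]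
    {P : HeightOneSpectrum (𝓞 K)} {Q : HeightOneSpectrum (𝓞 E)} (h : below K Q = P) :
    Nat.card (𝓞 K ⧸ Q.asIdeal.under (𝓞 K)) = Ideal.absNorm P.asIdeal := by
  have h4 := congrArg HeightOneSpectrum.asIdeal h
  change Q.asIdeal.under (𝓞 K) = P.asIdeal at h4
  rw [h4]
  rfl

variable {G} in
theorem frob_spec2 {P : HeightOneSpectrum (𝓞 K)} {Q : HeightOneSpectrum (𝓞 L)}
    (h : below K Q = P) {σ : G} (hσ : IsArithFrobAt (𝓞 K) σ Q.asIdeal) (x : 𝓞 L) :
    σ • x - x ^ (Ideal.absNorm P.asIdeal) ∈ Q.asIdeal := by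
  have h1 := hσ x
  rw [card_quot' h] at h1
  exact h1

variable (H : Subgroup G) [hH : H.Normal]

variable (K L) in
/-- fixed field -/
abbrev fixG : IntermediateField K L := FixedPoints.intermediateField H

local notation "E" => fixG K L G H

variable {G H} in
theorem inertiaDeg_eq_one {P : HeightOneSpectrum (𝓞 K)} {Q : HeightOneSpectrum (𝓞 L)}
    (h : below K Q = P) {σ : G} (hσ : IsArithFrobAt (𝓞 K) σ Q.asIdeal) (hσH : σ ∈ H)
    (Q' : Above (fixG K L G H) P) (hQ : below E Q = Q'.1) :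
    Q'.1.asIdeal.inertiaDeg (𝓞 K) = 1 := by
  have hlies : Q.asIdeal.LiesOver Q'.1.asIdeal := liesOver L ⟨Q, hQ⟩
  set q := Ideal.absNorm P.asIdeal with hq
  have hq2 : 1 < q := by
    have h0 : q ≠ 0 := fun h ↦ P.ne_bot (Ideal.absNorm_eq_zero_iff.1 h)
    have h1 : q ≠ 1 := fun h ↦ P.isPrime.ne_top (Ideal.absNorm_eq_one_iff.1 h)
    omega
  have key : ∀ x : 𝓞 E, x - x ^ q ∈ Q'.1.asIdeal := by
    intro x
    have h2 := frob_spec2 h hσ (algebraMap (𝓞 E) (𝓞 L) x)
    have h3 : σ • (algebraMap (𝓞 E) (𝓞 L) x) = algebraMap (𝓞 E) (𝓞 L) x := by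
      apply RingOfIntegers.coe_injective
      have h4 : algebraMap (𝓞 L) L (σ • (algebraMap (𝓞 E) (𝓞 L) x)) =
        σ • algebraMap (𝓞 L) L (algebraMap (𝓞 E) (𝓞 L) x) := algebraMap.smul' _ _ _
      rw [h4]
      exact (x : E).2 ⟨_, hσH⟩
    rw [h3, ← map_pow, ← map_sub] at h2
    rw [hlies.over]
    exact h2
  have : Q'.1.asIdeal.IsMaximal := Q'.1.isPrime.isMaximal Q'.1.ne_bot
  let : Field (𝓞 E ⧸ Q'.1.asIdeal) := Ideal.Quotient.field _
  have hroots : ∀ y : 𝓞 E ⧸ Q'.1.asIdeal, y ^ q = y := by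
    intro y
    obtain ⟨x, rfl⟩ := Ideal.Quotient.mk_surjective y
    rw [← map_pow, eq_comm, Ideal.Quotient.eq]
    exact key x
  have hcard : Nat.card (𝓞 E ⧸ Q'.1.asIdeal) ≤ q := by
    classical
    have hfin : Finite (𝓞 E ⧸ Q'.1.asIdeal) := inferInstance
    have := Fintype.ofFinite (𝓞 E ⧸ Q'.1.asIdeal)
    set f : Polynomial (𝓞 E ⧸ Q'.1.asIdeal) := Polynomial.X ^ q - Polynomial.X with hf
    have hf0 : f ≠ 0 := FiniteField.X_pow_card_sub_X_ne_zero _ hq2
    have h5 : (Finset.univ : Finset (𝓞 E ⧸ Q'.1.asIdeal)) ⊆ f.roots.toFinset := by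
      intro y _
      rw [Multiset.mem_toFinset, Polynomial.mem_roots hf0]
      simp [f, hroots y]
    rw [Nat.card_eq_fintype_card, ← Finset.card_univ]
    calc Finset.card Finset.univ ≤ f.roots.toFinset.card := Finset.card_le_card h5
      _ ≤ Multiset.card f.roots := Multiset.toFinset_card_le _
      _ ≤ f.natDegree := Polynomial.card_roots' _
      _ = q := FiniteField.X_pow_card_sub_X_natDegree_eq _ hq2
  have hlies' : Q'.1.asIdeal.LiesOver P.asIdeal := liesOver E Q'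
  have h6 := Ideal.absNorm_pow_inertiaDeg P.asIdeal Q'.1.asIdeal
  have h7 : Ideal.absNorm Q'.1.asIdeal ≤ q := hcard
  rw [← h6, ← hq] at h7
  have h8 := f_pos E Q'
  have h9 : Q'.1.asIdeal.inertiaDeg (𝓞 K) ≤ 1 := by
    by_contra hcon
    push Not at hcon
    have h10 : q ^ 1 < q ^ (Q'.1.asIdeal.inertiaDeg (𝓞 K)) := Nat.pow_lt_pow_right hq2 hcon
    rw [pow_one] at h10
    omega
  omega

include hH in
theorem smul_mem_fixG (σ : G) (x : L) (hx : x ∈ fixG K L G H) : σ • x ∈ fixG K L G H := by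
  intro h
  have h1 := hx ⟨σ⁻¹ * h * σ, by
    have := hH.conj_mem h h.2 σ⁻¹
    rwa [inv_inv] at this⟩
  change (σ⁻¹ * h * σ : G) • x = x at h1
  change (h : G) • σ • x = σ • x
  rw [mul_smul, mul_smul, inv_smul_eq_iff] at h1
  exact h1

variable (K L) in
/-- restriction of `σ` to the fixed field -/
def restrG (σ : G) : fixG K L G H →ₐ[K] fixG K L G H :=
  AlgHom.codRestrict (((MulSemiringAction.toAlgHom K L σ)).comp (fixG K L G H).val)
    (fixG K L G H).toSubalgebra (fun x ↦ smul_mem_fixG G H σ x.1 x.2)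

theorem coe_restrG (σ : G) (x : fixG K L G H) :
    ((restrG K L G H σ x : fixG K L G H) : L) = σ • (x : L) :=
  rfl

variable {G H} in
include hH in
theorem mem_of_inertiaDeg_eq_one {P : HeightOneSpectrum (𝓞 K)} (hP : P ∉ ramSet K L)
    {Q : HeightOneSpectrum (𝓞 L)}
    (h : below K Q = P) {σ : G} (hσ : IsArithFrobAt (𝓞 K) σ Q.asIdeal)
    (Q' : Above (fixG K L G H) P) (hQ : below E Q = Q'.1)
    (hf : Q'.1.asIdeal.inertiaDeg (𝓞 K) = 1) : σ ∈ H := by
  have hlies : Q.asIdeal.LiesOver Q'.1.asIdeal := liesOver L ⟨Q, hQ⟩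
  set q := Ideal.absNorm P.asIdeal with hq
  set φ : 𝓞 E →ₐ[𝓞 K] 𝓞 E := RingOfIntegers.mapAlgHom (restrG K L G H σ) with hφ
  have hφσ : ∀ x : 𝓞 E, algebraMap (𝓞 E) (𝓞 L) (φ x) = σ • algebraMap (𝓞 E) (𝓞 L) x := by
    intro x
    apply RingOfIntegers.coe_injective
    have h4 : algebraMap (𝓞 L) L (σ • (algebraMap (𝓞 E) (𝓞 L) x)) =
        σ • algebraMap (𝓞 L) L (algebraMap (𝓞 E) (𝓞 L) x) := algebraMap.smul' _ _ _
    rw [h4]
    rfl
  have hcardq : Nat.card (𝓞 K ⧸ Q'.1.asIdeal.under (𝓞 K)) = q := card_quot' Q'.2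
  have hφF : φ.IsArithFrobAt Q'.1.asIdeal := by
    intro x
    rw [hcardq, hlies.over]
    change algebraMap (𝓞 E) (𝓞 L) (φ x - x ^ q) ∈ Q.asIdeal
    rw [map_sub, map_pow, hφσ]
    exact frob_spec2 h hσ (algebraMap (𝓞 E) (𝓞 L) x)
  have : Q'.1.asIdeal.IsMaximal := Q'.1.isPrime.isMaximal Q'.1.ne_bot
  let : Field (𝓞 E ⧸ Q'.1.asIdeal) := Ideal.Quotient.field _
  have hlies' : Q'.1.asIdeal.LiesOver P.asIdeal := liesOver E Q'
  have h6 := Ideal.absNorm_pow_inertiaDeg P.asIdeal Q'.1.asIdeal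
  rw [hf, pow_one] at h6
  have hid : (AlgHom.id (𝓞 K) (𝓞 E)).IsArithFrobAt Q'.1.asIdeal := by
    intro x
    rw [hcardq]
    have hfin : Finite (𝓞 E ⧸ Q'.1.asIdeal) := inferInstance
    have := Fintype.ofFinite (𝓞 E ⧸ Q'.1.asIdeal)
    have h7 : Fintype.card (𝓞 E ⧸ Q'.1.asIdeal) = q := by
      rw [← Nat.card_eq_fintype_card]
      exact h6.symm
    have h8 := FiniteField.pow_card (Ideal.Quotient.mk Q'.1.asIdeal x)
    rw [h7, ← map_pow, eq_comm, Ideal.Quotient.eq] at h8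
    exact h8
  have := unramified_of_notMem_ramSet K L E hP Q'
  have heq : φ = AlgHom.id (𝓞 K) (𝓞 E) :=
    hφF.eq_of_isUnramifiedAt hid (Q'.1.asIdeal.primeCompl_le_nonZeroDivisors)
  have hfix : σ ∈ fixingSubgroup G ((E : IntermediateField K L) : Set L) := by
    rw [mem_fixingSubgroup_iff]
    intro y hy
    obtain ⟨a, b, hb, hab⟩ := IsFractionRing.div_surjective (A := 𝓞 E) (⟨y, hy⟩ : E)
    have h9 : ∀ x : 𝓞 E, σ • ((x : E) : L) = ((x : E) : L) := by
      intro x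
      have h10 := hφσ x
      rw [heq] at h10
      have h11 := congrArg (algebraMap (𝓞 L) L) h10
      have h4 : algebraMap (𝓞 L) L (σ • (algebraMap (𝓞 E) (𝓞 L) x)) =
        σ • algebraMap (𝓞 L) L (algebraMap (𝓞 E) (𝓞 L) x) := algebraMap.smul' _ _ _
      rw [h4] at h11
      exact h11.symm
    have h12 : y = ((a : E) : L) / ((b : E) : L) := by
      have := congrArg (fun z : E ↦ (z : L)) hab
      simpa using this.symm
    rw [h12, smul_div₀', h9 a, h9 b]
  rwa [IsGaloisGroup.fixingSubgroup_fixedPoints] at hfix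

variable (L) in
/-- the primes with an arithmetic Frobenius in `H` -/
def frobIn : Set (HeightOneSpectrum (𝓞 K)) :=
  {P | ∃ Q : HeightOneSpectrum (𝓞 L), below K Q = P ∧ ∃ σ ∈ H, IsArithFrobAt (𝓞 K) σ Q.asIdeal}

include hH in
theorem mem_frobIn_of {P : HeightOneSpectrum (𝓞 K)} (hP : P ∈ frobIn L G H)
    {Q : HeightOneSpectrum (𝓞 L)} (h : below K Q = P) :
    ∃ σ ∈ H, IsArithFrobAt (𝓞 K) σ Q.asIdeal := by
  obtain ⟨Q₀, h0, σ₀, hσH, hσ⟩ := hP
  have h2 : Q₀.asIdeal.under (𝓞 K) = Q.asIdeal.under (𝓞 K) := by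
    have h3 := congrArg HeightOneSpectrum.asIdeal h0
    have h4 := congrArg HeightOneSpectrum.asIdeal h
    exact h3.trans h4.symm
  obtain ⟨τ, hτ⟩ := Algebra.IsInvariant.exists_smul_of_under_eq (𝓞 K) (𝓞 L) G _ _ h2
  have h5 := hσ.conj τ
  rw [← hτ] at h5
  exact ⟨_, hH.conj_mem _ hσH τ, h5⟩

include hH in
theorem density_frobIn :
    (fun s : ℝ ↦ pzetaOn (frobIn (K := K) L G H) s -
      (1 / (H.index : ℝ)) * Real.log (1 / (s - 1))) =O[𝓝[>] 1] (fun _ ↦ (1 : ℝ)) := by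
  have hidx : Module.finrank K E = H.index := by
    have h1 : Module.finrank K E * Module.finrank E L = Module.finrank K L :=
      Module.finrank_mul_finrank K E L
    rw [IsGaloisGroup.finrank_fixedPoints_eq_card_subgroup, ← IsGaloisGroup.card_eq_finrank G K L,
      ← H.card_mul_index, mul_comm] at h1
    exact Nat.eq_of_mul_eq_mul_left Nat.card_pos h1
  rw [← hidx]
  refine pzetaOn_isBigO E _ (ramSet K L) (ramSet_finite K L) ?_ ?_
  · intro P hP hPB Q'
    obtain ⟨Q, hQ⟩ := exists_above E L Q'.1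
    have h1 : below K Q = P := by rw [← below_below K L E, hQ, Q'.2]
    obtain ⟨σ, hσH, hσ⟩ := mem_frobIn_of G H hP h1
    exact ⟨ramIdx_eq_one K L E hPB Q', inertiaDeg_eq_one h1 hσ hσH Q' hQ⟩
  · intro P hP hPB Q'
    have h1 := f_pos E Q'
    by_contra hcon
    push Not at hcon
    obtain ⟨Q, hQ⟩ := exists_above E L Q'.1
    have h2 : below K Q = P := by rw [← below_below K L E, hQ, Q'.2]
    have h3 : IsArithFrobAt (𝓞 K) (arithFrobAt (𝓞 K) G Q.asIdeal) Q.asIdeal :=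
      IsArithFrobAt.arithFrobAt (𝓞 K) G _
    exact hP ⟨Q, h2, _, mem_of_inertiaDeg_eq_one hPB h2 h3 Q' hQ (by omega), h3⟩

include hH in
theorem notMem_frobIn {P : HeightOneSpectrum (𝓞 K)} (hram : P ∉ ramSet K L)
    (h : ∃ Q : HeightOneSpectrum (𝓞 L), below K Q = P ∧ ∃ σ : G, σ ∉ H ∧
      IsArithFrobAt (𝓞 K) σ Q.asIdeal) : P ∉ frobIn L G H := by
  intro hP
  obtain ⟨Q, hQ, σ, hσH, hσ⟩ := h
  obtain ⟨σ', hσH', hσ'⟩ := mem_frobIn_of G H hP hQ
  let Q' : Above (fixG K L G H) P := ⟨below E Q, by rw [below_below K L E, hQ]⟩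
  exact hσH (mem_of_inertiaDeg_eq_one hram hQ hσ Q' rfl (inertiaDeg_eq_one hQ hσ' hσH' Q' rfl))

end frob

section main

open Fermat.LT

theorem pzetaOn_le_add {K : Type*} [Field K] [NumberField K] {T U V : Set (HeightOneSpectrum (𝓞 K))}
    (h : T ⊆ U ∪ V) {s : ℝ} (hs : 1 < s) : pzetaOn T s ≤ pzetaOn U s + pzetaOn V s := by
  unfold pzetaOn
  rw [← (summable_pzetaOn U hs).tsum_add (summable_pzetaOn V hs)]
  refine (summable_pzetaOn T hs).tsum_le_tsum (fun P ↦ ?_)
    ((summable_pzetaOn U hs).add (summable_pzetaOn V hs))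
  have h3 : ∀ U : Set (HeightOneSpectrum (𝓞 K)),
      0 ≤ U.indicator (fun P : HeightOneSpectrum (𝓞 K) ↦ nrm P.asIdeal s) P :=
    fun U ↦ Set.indicator_nonneg (fun _ _ ↦ nrm_nonneg _ _) P
  by_cases hPT : P ∈ T
  · rw [Set.indicator_of_mem hPT]
    rcases h hPT with hPU | hPV
    · rw [Set.indicator_of_mem hPU]
      linarith [h3 V]
    · rw [Set.indicator_of_mem hPV]
      linarith [h3 U]
  · rw [Set.indicator_of_notMem hPT]
    exact add_nonneg (h3 _) (h3 _)

/-- complementary sets up to small errors -/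
theorem abs_pzetaOn_le {K : Type*} [Field K] [NumberField K]
    {A T R : Set (HeightOneSpectrum (𝓞 K))} (h1 : ∀ w, w ∈ A → w ∈ T → w ∈ R)
    (h2 : ∀ w, w ∉ A → w ∉ T → w ∈ R) {s : ℝ} (hs : 1 < s) :
    |pzetaOn A s - (pzeta K s - pzetaOn T s)| ≤ pzetaOn R s := by
  unfold pzeta pzetaOn
  have hA := summable_pzetaOn A hs
  have hT := summable_pzetaOn T hs
  have h3 := summable_nrm_primes K hs
  rw [← h3.tsum_sub hT, ← hA.tsum_sub (h3.sub hT), ← Real.norm_eq_abs]
  refine tsum_of_norm_bounded (summable_pzetaOn R hs).hasSum fun P ↦ ?_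
  have hn := nrm_nonneg P.asIdeal s
  have hR : 0 ≤ R.indicator (fun P : HeightOneSpectrum (𝓞 K) ↦ nrm P.asIdeal s) P :=
    Set.indicator_nonneg (fun _ _ ↦ nrm_nonneg _ _) P
  rw [Real.norm_eq_abs]
  by_cases hPA : P ∈ A
  · by_cases hPT : P ∈ T
    · rw [Set.indicator_of_mem hPA, Set.indicator_of_mem hPT, Set.indicator_of_mem (h1 P hPA hPT),
        sub_self, sub_zero, abs_of_nonneg hn]
    · rw [Set.indicator_of_mem hPA, Set.indicator_of_notMem hPT, sub_zero, sub_self, abs_zero]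
      exact hR
  · by_cases hPT : P ∈ T
    · rw [Set.indicator_of_notMem hPA, Set.indicator_of_mem hPT, sub_self, sub_self, abs_zero]
      exact hR
    · rw [Set.indicator_of_notMem hPA, Set.indicator_of_notMem hPT,
        Set.indicator_of_mem (h2 P hPA hPT), sub_zero, zero_sub, abs_neg, abs_of_nonneg hn]

variable {F : Type} [Field F] [NumberField F] {N : Type*} [Field N] [NumberField N] [Algebra F N]
variable (G : Type*) [Group G] [Finite G] [MulSemiringAction G N] [IsGaloisGroup G F N]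
variable (H : Subgroup G) [hH : H.Normal]

include hH in
/-- **The killer element from a Galois extension** `N / F` with group `G`, `H ⊴ G` of index
`≥ 3`. -/
theorem exists_killer_unit_gal (hidx : 3 ≤ H.index)
    {n : Pl F → ℕ} (hn : {w | n w ≠ 0}.Finite) {A B : Set (Pl F)} (hdis : Disjoint A B)
    (hAB : ∀ w ∈ A ∪ B, n w = 0)
    {bad : Set (Pl F)} (hbad : bad.Finite)
    (hcov : ∀ w, w ∉ A ∪ B → w ∈ bad ∨ ¬ (Ideal.absNorm w.asIdeal).Prime)
    (hA : ∀ w ∈ A, ∃ Q : HeightOneSpectrum (𝓞 N), below F Q = w ∧ ∃ σ : G, σ ∉ H ∧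
      IsArithFrobAt (𝓞 F) σ Q.asIdeal)
    (hB : ∀ w ∈ B, ∃ Q : HeightOneSpectrum (𝓞 N), below F Q = w ∧ ∃ σ ∈ H,
      IsArithFrobAt (𝓞 F) σ Q.asIdeal) :
    ∃ (ϖ : Fˣ) (S : Finset (Pl F)), (∀ w ∈ S, w ∈ A ∪ B) ∧ (∀ w ∉ S, av w (ϖ : F) = 1) ∧
      (∀ w, n w ≠ 0 → av w ((ϖ : F) - 1) ≤ (qv w)⁻¹ ^ (n w)) ∧
      (∀ (T : Finset (Pl F)), (∀ w, w ∈ T ↔ w ∈ S ∧ w ∈ A) → Odd (∑ w ∈ T, lv w (ϖ : F))) := by
  set np : Set (Pl F) := {P | ¬ (Ideal.absNorm P.asIdeal).Prime} with hnp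
  set C₀ := ∑' P : HeightOneSpectrum (𝓞 F), nrm (below ℚ P).asIdeal 2 with hC₀
  set T := frobIn (K := F) N G H with hT
  have hBT : B ⊆ T := fun w hw ↦ hB w hw
  have hram := ramSet_finite F N
  have hfin : (bad ∪ ramSet F N).Finite := hbad.union hram
  have hidx0 : (0 : ℝ) < H.index := by
    have : 0 < H.index := by omega
    exact_mod_cast this
  have hidx3 : (3 : ℝ) ≤ H.index := by exact_mod_cast hidx
  refine exists_killer_unit hn hdis hAB ⟨bad.ncard + C₀, fun s hs _ ↦ ?_⟩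
    (α := 1 - 1 / (H.index : ℝ)) ?_ ?_ ?_
  · have h1 : pzetaOn (A ∪ B)ᶜ s ≤ pzetaOn bad s + pzetaOn np s :=
      pzetaOn_le_add (fun w hw ↦ hcov w hw) hs
    have h2 := pzetaOn_le_of_finite hbad (by linarith : 0 < s)
    have h3 := pzetaOn_not_prime_le F hs
    exact h1.trans (add_le_add h2 h3)
  · have : 1 / (H.index : ℝ) ≤ 1 / 3 := one_div_le_one_div_of_le (by norm_num) hidx3
    linarith
  · have : 0 < 1 / (H.index : ℝ) := by positivity
    linarith
  · set ℓ : ℝ → ℝ := fun s ↦ Real.log (1 / (s - 1)) with hℓ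
    have hℓtop : Tendsto ℓ (𝓝[>] 1) atTop := tendsto_log_inv
    have hd := density_frobIn (K := F) (L := N) G H
    rw [← hT] at hd
    have h1 : (fun s : ℝ ↦ pzetaOn A s - (pzeta F s - pzetaOn T s)) =O[𝓝[>] 1]
        (fun _ ↦ (1 : ℝ)) := by
      refine IsBigO.of_bound ((bad ∪ ramSet F N).ncard + C₀) ?_
      filter_upwards [self_mem_nhdsWithin] with s hs
      have hs : 1 < s := hs
      rw [norm_one, mul_one, Real.norm_eq_abs]
      refine (abs_pzetaOn_le (R := (bad ∪ ramSet F N) ∪ np) (fun w hwA hwT ↦ ?_)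
        (fun w hwA hwT ↦ ?_) hs).trans ?_
      · by_contra hcon
        simp only [Set.mem_union, not_or] at hcon
        exact notMem_frobIn G H hcon.1.2 (hA w hwA) hwT
      · rcases hcov w (fun h ↦ h.elim hwA fun h ↦ hwT (hBT h)) with h | h
        · exact Or.inl (Or.inl h)
        · exact Or.inr h
      · refine (pzetaOn_le_add subset_rfl hs).trans ?_
        exact add_le_add (pzetaOn_le_of_finite hfin (by linarith : 0 < s))
          (pzetaOn_not_prime_le F hs)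
    have h2 : (fun s : ℝ ↦ pzetaOn A s - (1 - 1 / (H.index : ℝ)) * ℓ s) =O[𝓝[>] 1]
        (fun _ ↦ (1 : ℝ)) := by
      refine ((h1.add (pzeta_isBigO F)).sub hd).congr_left fun s ↦ ?_
      simp only [hℓ]
      ring
    have h1o : (fun _ : ℝ ↦ (1 : ℝ)) =o[𝓝[>] 1] ℓ :=
      (isLittleO_const_left.mpr (Or.inr (tendsto_norm_atTop_atTop.comp hℓtop)))
    have h3 := (h2.trans_isLittleO h1o).tendsto_div_nhds_zero.add_const (1 - 1 / (H.index : ℝ))
    rw [zero_add] at h3
    refine h3.congr' ?_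
    filter_upwards [hℓtop.eventually_gt_atTop 0] with s hs
    have hs' : ℓ s ≠ 0 := hs.ne'
    rw [sub_div, mul_div_assoc, div_self hs']
    ring

end main

end

end Fermat.Agent.LT.CTree.KillGal
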