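import Fermat.Agent.LT.CTree.Hecke
import Fermat.Agent.LT.B.TestKer

/-!
# LT / C-TREE: the global finite spherical Hecke algebra

`HA U` is the (commutative) algebra of operators on `Y U →₀ ℂ` generated by the operators
`T_w` (`w` good).  `ker T y y'` is the kernel of `T`; it is invariant, symmetric, of finite
propagation: `isFinTest_ker`.  `act T φ y = ∑ ker T y y' φ y'`.
-/

open NumberField IsDedekindDomain Matrix
open Fermat.LT
open Fermat.Agent.LT.F (sph sph_self sph_of_lt sph_of_even sph_of_odd)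

namespace Fermat.Agent.LT.CTree

noncomputable section

variable {F : Type} [Field F] [NumberField F] {U : Level F}

/-! ### changing one component -/

open Classical in
/-- replace the component at `w` by `t` -/
def upd (y : Y U) (w : Pl F) (t : Yl U w) : Y U :=
  ⟨Function.update y.val w t, by
    refine (y.fin.insert w).subset ?_
    intro w' hw'
    by_cases h : w' = w
    · exact Or.inl h
    · right
      rw [Set.mem_ofPred_eq, Function.update_of_ne h] at hw'
      exact hw'⟩

open Classical in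
theorem upd_same (y : Y U) (w : Pl F) (t : Yl U w) : upd y w t w = t :=
  Function.update_self w t y.val

open Classical in
theorem upd_ne (y : Y U) {w w' : Pl F} (h : w' ≠ w) (t : Yl U w) : upd y w t w' = y w' :=
  Function.update_of_ne h t y.val

theorem upd_self (y : Y U) (w : Pl F) : upd y w (y w) = y := by
  refine Y.ext' fun w' ↦ ?_
  by_cases h : w' = w
  · subst h; rw [upd_same]
  · rw [upd_ne _ h]

theorem upd_upd (y : Y U) (w : Pl F) (t t' : Yl U w) : upd (upd y w t) w t' = upd y w t' := by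
  refine Y.ext' fun w' ↦ ?_
  by_cases h : w' = w
  · subst h; rw [upd_same, upd_same]
  · rw [upd_ne _ h, upd_ne _ h, upd_ne _ h]

theorem upd_comm (y : Y U) {w w' : Pl F} (h : w ≠ w') (t : Yl U w) (t' : Yl U w') :
    upd (upd y w t) w' t' = upd (upd y w' t') w t := by
  refine Y.ext' fun v ↦ ?_
  by_cases h1 : v = w
  · subst h1
    rw [upd_ne _ h, upd_same, upd_same]
  · by_cases h2 : v = w'
    · subst h2
      rw [upd_same, upd_ne _ h1, upd_same]
    · rw [upd_ne _ h2, upd_ne _ h1, upd_ne _ h1, upd_ne _ h2]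

theorem smul_upd (g : GA F) (y : Y U) (w : Pl F) (t : Yl U w) :
    g • upd y w t = upd (g • y) w (g.1 w • t) := by
  refine Y.ext' fun v ↦ ?_
  by_cases h : v = w
  · subst h
    rw [GA_smul_apply, upd_same, upd_same]
  · rw [GA_smul_apply, upd_ne _ h, upd_ne _ h, GA_smul_apply]

theorem upd_injective (y : Y U) (w : Pl F) : Function.Injective (upd y w) := fun t t' h ↦ by
  have := congrArg (fun z : Y U ↦ z w) h
  simpa only [upd_same] using this

/-! ### the operators -/

/-- The endomorphism of `Y U →₀ ℂ` with kernel `a(d_w(y,y'))`. -/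
def TE (w : Pl F) (a : ℕ → ℂ) : Module.End ℂ (Y U →₀ ℂ) :=
  Finsupp.lift (Y U →₀ ℂ) ℂ (Y U) fun y ↦
    ∑ᶠ t : Yl U w, Finsupp.single (upd y w t) (a (dY w (y w) t))

theorem TE_single' (w : Pl F) (a : ℕ → ℂ) (y : Y U) :
    TE w a (Finsupp.single y 1) =
      ∑ᶠ t : Yl U w, Finsupp.single (upd y w t) (a (dY w (y w) t)) := by
  unfold TE
  rw [Finsupp.lift_apply, Finsupp.sum_single_index, one_smul]
  exact zero_smul _ _

theorem TE_single {w : Pl F} (hw : U.n w = 0) {a : ℕ → ℂ} (ha : a.support.Finite) (y : Y U)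
    {s : Finset (Yl U w)} (hs : (finite_support hw ha (y w)).toFinset ⊆ s) :
    TE w a (Finsupp.single y 1) = ∑ t ∈ s, Finsupp.single (upd y w t) (a (dY w (y w) t)) := by
  rw [TE_single']
  apply finsum_eq_sum_of_support_subset
  intro t ht
  apply hs
  rw [Set.Finite.mem_toFinset, Set.mem_ofPred_eq]
  intro h0
  apply ht
  change Finsupp.single (upd y w t) (a (dY w (y w) t)) = 0
  rw [h0, Finsupp.single_zero]

/-- the transposed action on arbitrary functions -/
def act (T : Module.End ℂ (Y U →₀ ℂ)) (φ : Y U → ℂ) (y : Y U) : ℂ :=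
  Finsupp.linearCombination ℂ φ (T (Finsupp.single y 1))

/-- the kernel -/
def ker (T : Module.End ℂ (Y U →₀ ℂ)) (y y' : Y U) : ℂ := T (Finsupp.single y 1) y'

theorem act_eq_sum (T : Module.End ℂ (Y U →₀ ℂ)) (φ : Y U → ℂ) (y : Y U) {s : Finset (Y U)}
    (hs : (T (Finsupp.single y 1)).support ⊆ s) : act T φ y = ∑ y' ∈ s, ker T y y' * φ y' := by
  unfold act ker
  rw [Finsupp.linearCombination_apply, Finsupp.sum_of_support_subset _ hs _ (by simp)]
  rfl

theorem act_eq_finsum (T : Module.End ℂ (Y U →₀ ℂ)) (φ : Y U → ℂ) (y : Y U) :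
    act T φ y = ∑ᶠ y', ker T y y' * φ y' := by
  rw [act_eq_sum T φ y (s := (T (Finsupp.single y 1)).support) subset_rfl]
  symm
  apply finsum_eq_sum_of_support_subset
  intro y' hy'
  rw [Finset.mem_coe, Finsupp.mem_support_iff]
  exact left_ne_zero_of_mul hy'

theorem linearCombination_act (T : Module.End ℂ (Y U →₀ ℂ)) (φ : Y U → ℂ) (m : Y U →₀ ℂ) :
    Finsupp.linearCombination ℂ φ (T m) = Finsupp.linearCombination ℂ (act T φ) m := by
  have h : (Finsupp.linearCombination ℂ φ).comp T = Finsupp.linearCombination ℂ (act T φ) := by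
    apply Finsupp.lhom_ext'
    intro y
    apply LinearMap.ext_ring
    simp only [LinearMap.comp_apply, Finsupp.lsingle_apply, Finsupp.linearCombination_single,
      one_smul]
    rfl
  exact LinearMap.congr_fun h m

theorem act_mul (T T' : Module.End ℂ (Y U →₀ ℂ)) (φ : Y U → ℂ) :
    act (T * T') φ = act T' (act T φ) := by
  funext y
  unfold act
  rw [Module.End.mul_apply, linearCombination_act T φ]
  rfl

theorem act_one (φ : Y U → ℂ) : act 1 φ = φ := by
  funext y
  unfold act
  rw [Module.End.one_apply, Finsupp.linearCombination_single, one_smul]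

theorem act_add (T T' : Module.End ℂ (Y U →₀ ℂ)) (φ : Y U → ℂ) :
    act (T + T') φ = act T φ + act T' φ := by
  funext y
  unfold act
  rw [LinearMap.add_apply, map_add]
  rfl

theorem act_smul (c : ℂ) (T : Module.End ℂ (Y U →₀ ℂ)) (φ : Y U → ℂ) :
    act (c • T) φ = c • act T φ := by
  funext y
  unfold act
  rw [LinearMap.smul_apply, map_smul]
  rfl

theorem act_fun_add (T : Module.End ℂ (Y U →₀ ℂ)) (φ ψ : Y U → ℂ) :
    act T (φ + ψ) = act T φ + act T ψ := by
  funext y
  rw [Pi.add_apply, act_eq_sum T (φ + ψ) y subset_rfl, act_eq_sum T φ y subset_rfl,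
    act_eq_sum T ψ y subset_rfl, ← Finset.sum_add_distrib]
  refine Finset.sum_congr rfl fun x _ ↦ ?_
  rw [Pi.add_apply, mul_add]

theorem act_fun_smul (T : Module.End ℂ (Y U →₀ ℂ)) (c : ℂ) (φ : Y U → ℂ) :
    act T (c • φ) = c • act T φ := by
  funext y
  rw [Pi.smul_apply, act_eq_sum T (c • φ) y subset_rfl, act_eq_sum T φ y subset_rfl,
    Finset.smul_sum]
  refine Finset.sum_congr rfl fun x _ ↦ ?_
  rw [Pi.smul_apply, smul_eq_mul, smul_eq_mul]
  ring

theorem act_TE {w : Pl F} (hw : U.n w = 0) {a : ℕ → ℂ} (ha : a.support.Finite) (φ : Y U → ℂ)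
    (y : Y U) : act (TE w a) φ y = Tl w a (fun t ↦ φ (upd y w t)) (y w) := by
  unfold act
  rw [TE_single hw ha y subset_rfl, map_sum, Tl_eq_sum hw ha _ _ subset_rfl]
  refine Finset.sum_congr rfl fun t _ ↦ ?_
  rw [Finsupp.linearCombination_single, smul_eq_mul]

/-- An operator is determined by its action on functions. -/
theorem ext_of_act {T T' : Module.End ℂ (Y U →₀ ℂ)} (h : ∀ φ : Y U → ℂ, act T φ = act T' φ) :
    T = T' := by
  classical
  apply Finsupp.lhom_ext'
  intro y
  apply LinearMap.ext_ring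
  simp only [LinearMap.comp_apply, Finsupp.lsingle_apply]
  ext y'
  have h1 := congrFun (h (fun z ↦ if z = y' then 1 else 0)) y
  have h2 : ∀ S : Module.End ℂ (Y U →₀ ℂ), act S (fun z ↦ if z = y' then 1 else 0) y =
      S (Finsupp.single y 1) y' := by
    intro S
    rw [act_eq_sum S _ y (s := insert y' (S (Finsupp.single y 1)).support)
      (Finset.subset_insert _ _)]
    rw [Finset.sum_eq_single y']
    · rw [if_pos rfl, mul_one]; rfl
    · intro z _ hz
      rw [if_neg hz, mul_zero]
    · intro h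
      exact absurd (Finset.mem_insert_self _ _) h
  rw [h2, h2] at h1
  exact h1

/-! ### commutation -/

theorem TE_comm_of_ne {w w' : Pl F} (hne : w ≠ w') (hw : U.n w = 0) (hw' : U.n w' = 0)
    {a b : ℕ → ℂ} (ha : a.support.Finite) (hb : b.support.Finite) :
    (TE w a : Module.End ℂ (Y U →₀ ℂ)) * TE w' b = TE w' b * TE w a := by
  apply ext_of_act
  intro φ
  funext y
  rw [act_mul, act_mul, act_TE hw' hb, act_TE hw ha, Tl_eq_sum hw' hb _ _ subset_rfl,
    Tl_eq_sum hw ha _ _ subset_rfl]
  have e1 : ∀ t : Yl U w', act (TE w a) φ (upd y w' t) =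
      ∑ s ∈ (finite_support hw ha (y w)).toFinset, a (dY w (y w) s) * φ (upd (upd y w' t) w s) := by
    intro t
    rw [act_TE hw ha, upd_ne _ hne, Tl_eq_sum hw ha _ _ subset_rfl]
  have e2 : ∀ s : Yl U w, act (TE w' b) φ (upd y w s) =
      ∑ t ∈ (finite_support hw' hb (y w')).toFinset, b (dY w' (y w') t) *
        φ (upd (upd y w s) w' t) := by
    intro s
    rw [act_TE hw' hb, upd_ne _ hne.symm, Tl_eq_sum hw' hb _ _ subset_rfl]
  rw [Finset.sum_congr rfl fun t _ ↦ by rw [e1 t, Finset.mul_sum], Finset.sum_comm]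
  refine Finset.sum_congr rfl fun s _ ↦ ?_
  rw [e2, Finset.mul_sum]
  refine Finset.sum_congr rfl fun t _ ↦ ?_
  rw [upd_comm y hne]
  ring

variable (U) in
/-- generators -/
def gens : Set (Module.End ℂ (Y U →₀ ℂ)) := {T | ∃ w, U.n w = 0 ∧ T = TE w δ₁}

theorem gens_comm : ∀ a ∈ gens U, ∀ b ∈ gens U, a * b = b * a := by
  rintro _ ⟨w, hw, rfl⟩ _ ⟨w', hw', rfl⟩
  by_cases h : w = w'
  · subst h; rfl
  · exact TE_comm_of_ne h hw hw' δ₁_support δ₁_support

variable (U) in
/-- The spherical Hecke algebra. -/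
def HA : Subalgebra ℂ (Module.End ℂ (Y U →₀ ℂ)) := Algebra.adjoin ℂ (gens U)

instance : IsMulCommutative (HA U) := Algebra.isMulCommutative_adjoin ℂ gens_comm

theorem TE_one_mem {w : Pl F} (hw : U.n w = 0) : TE w δ₁ ∈ HA U :=
  Algebra.subset_adjoin ⟨w, hw, rfl⟩

theorem TE_add {w : Pl F} (hw : U.n w = 0) {a b : ℕ → ℂ} (ha : a.support.Finite)
    (hb : b.support.Finite) : (TE w (a + b) : Module.End ℂ (Y U →₀ ℂ)) = TE w a + TE w b := by
  have hab : (a + b).support.Finite := (ha.union hb).subset (Function.support_add a b)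
  apply ext_of_act
  intro φ
  rw [act_add]
  funext y
  rw [Pi.add_apply, act_TE hw hab, act_TE hw ha, act_TE hw hb, Tl_add hw ha hb, Pi.add_apply]

theorem TE_smul {w : Pl F} (hw : U.n w = 0) (c : ℂ) {a : ℕ → ℂ} (ha : a.support.Finite) :
    (TE w (c • a) : Module.End ℂ (Y U →₀ ℂ)) = c • TE w a := by
  have hca : (c • a).support.Finite := ha.subset (Function.support_const_smul_subset _ _)
  apply ext_of_act
  intro φ
  rw [act_smul]
  funext y
  rw [Pi.smul_apply, act_TE hw hca, act_TE hw ha, Tl_smul, Pi.smul_apply]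

theorem TE_zero {w : Pl F} (hw : U.n w = 0) : (TE w δ₀ : Module.End ℂ (Y U →₀ ℂ)) = 1 := by
  apply ext_of_act
  intro φ
  rw [act_one]
  funext y
  rw [act_TE hw δ₀_support, Tl_zero' hw, upd_self]

theorem TE_mul_one {w : Pl F} (hw : U.n w = 0) {a : ℕ → ℂ} (ha : a.support.Finite) :
    (TE w a : Module.End ℂ (Y U →₀ ℂ)) * TE w δ₁ = TE w (step (qn w) a) := by
  apply ext_of_act
  intro φ
  rw [act_mul]
  funext y
  rw [act_TE hw δ₁_support, act_TE hw (step_support ha), ← Tl_one_Tl hw ha]
  congr 1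
  funext t
  rw [act_TE hw ha, upd_same]
  congr 1
  funext t'
  rw [upd_upd]

/-- indicator of `m` -/
def δn (m : ℕ) : ℕ → ℂ := fun n ↦ if n = m then 1 else 0

theorem δn_support (m : ℕ) : (δn m).support.Finite :=
  (Set.finite_singleton m).subset fun n hn ↦ by
    by_contra h
    exact hn (if_neg h)

theorem TE_δn_mem {w : Pl F} (hw : U.n w = 0) (m : ℕ) : (TE w (δn m)) ∈ HA U := by
  induction m using Nat.strong_induction_on with
  | _ m ih =>
    match m with
    | 0 =>
      have : δn 0 = δ₀ := rfl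
      rw [this, TE_zero hw]; exact one_mem _
    | 1 => exact TE_one_mem hw
    | m + 2 =>
      have h1 := mul_mem (ih (m + 1) (by omega)) (TE_one_mem hw)
      rw [TE_mul_one hw (δn_support _)] at h1
      by_cases hm : m = 0
      · subst hm
        have e : δn 2 = step (qn w) (δn 1) + (-((qn w : ℂ) + 1)) • δn 0 := by
          funext n
          rcases n with _ | _ | _ | n
          · simp [step, δn]
          · simp [step, δn]
          · simp [step, δn]
          · simp [step, δn]
        rw [e, TE_add hw (step_support (δn_support 1))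
          ((δn_support 0).subset (Function.support_const_smul_subset _ _)),
          TE_smul hw _ (δn_support 0)]
        exact add_mem h1 (Subalgebra.smul_mem _ (ih 0 (by omega)) _)
      · obtain ⟨m', rfl⟩ : ∃ m', m = m' + 1 := ⟨m - 1, by omega⟩
        have e : δn (m' + 1 + 2) = step (qn w) (δn (m' + 1 + 1)) + (-(qn w : ℂ)) • δn (m' + 1) := by
          funext n
          rcases n with _ | n
          · simp only [δn, step, Pi.add_apply, Pi.smul_apply, smul_eq_mul]
            rw [if_neg (by omega), if_neg (by omega), if_neg (by omega)]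
            ring
          · simp only [δn, step, Pi.add_apply, Pi.smul_apply, smul_eq_mul]
            by_cases h2 : n = m' + 1 + 1
            · rw [if_pos (by omega), if_pos h2, if_neg (by omega), if_neg (by omega)]; ring
            · by_cases h3 : n + 2 = m' + 1 + 1
              · rw [if_neg (by omega), if_neg h2, if_pos h3, if_pos (by omega)]; ring
              · rw [if_neg (by omega), if_neg h2, if_neg h3, if_neg (by omega)]; ring
        rw [e, TE_add hw (step_support (δn_support _))
          ((δn_support _).subset (Function.support_const_smul_subset _ _)),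
          TE_smul hw _ (δn_support _)]
        exact add_mem h1 (Subalgebra.smul_mem _ (ih (m' + 1) (by omega)) _)

theorem TE_mem {w : Pl F} (hw : U.n w = 0) {a : ℕ → ℂ} (ha : a.support.Finite) :
    TE w a ∈ HA U := by
  have key : ∀ s : Finset ℕ, ∀ a : ℕ → ℂ, (∀ n, n ∉ s → a n = 0) → TE w a ∈ HA U := by
    intro s
    classical
    induction s using Finset.induction_on with
    | empty =>
      intro a h
      have : a = (0 : ℂ) • δ₀ := by
        funext n
        rw [h n (Finset.notMem_empty n), Pi.smul_apply, zero_smul]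
      rw [this, TE_smul hw _ δ₀_support, zero_smul]
      exact zero_mem _
    | insert m s hm ih =>
      intro a h
      have h1 : (a m • δn m : ℕ → ℂ).support.Finite :=
        (δn_support m).subset (Function.support_const_smul_subset _ _)
      have h2 : ∀ n, n ∉ s → (a - a m • δn m) n = 0 := by
        intro n hn
        rw [Pi.sub_apply, Pi.smul_apply, δn, smul_eq_mul]
        by_cases hnm : n = m
        · rw [if_pos hnm, hnm]; ring
        · rw [if_neg hnm, h n (by
            rw [Finset.mem_insert, not_or]; exact ⟨hnm, hn⟩)]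
          ring
      have h3 : (a - a m • δn m).support.Finite := by
        refine s.finite_toSet.subset fun n hn ↦ ?_
        by_contra hc
        exact hn (h2 n hc)
      have e : a = a m • δn m + (a - a m • δn m) := by abel
      rw [e, TE_add hw h1 h3, TE_smul hw _ (δn_support m)]
      exact add_mem (Subalgebra.smul_mem _ (TE_δn_mem hw m) _) (ih _ h2)
  refine key ha.toFinset a fun n hn ↦ ?_
  by_contra h
  exact hn (ha.mem_toFinset.mpr h)

/-! ### properties of the kernels -/

theorem ker_TE {w : Pl F} (hw : U.n w = 0) {a : ℕ → ℂ} (ha : a.support.Finite) (y y' : Y U)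
    (h : ∀ v, v ≠ w → y v = y' v) : ker (TE w a) y y' = a (dY w (y w) (y' w)) := by
  classical
  have h1 : upd y w (y' w) = y' := by
    refine Y.ext' fun v ↦ ?_
    by_cases hv : v = w
    · subst hv; rw [upd_same]
    · rw [upd_ne _ hv, h v hv]
  unfold ker
  rw [TE_single hw ha y (s := insert (y' w) (finite_support hw ha (y w)).toFinset)
    (Finset.subset_insert _ _), Finsupp.finset_sum_apply, Finset.sum_eq_single (y' w)]
  · rw [h1, Finsupp.single_eq_same]
  · intro t _ ht
    rw [Finsupp.single_eq_of_ne]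
    intro h2
    apply ht
    rw [h2, upd_same]
  · intro h3
    exact absurd (Finset.mem_insert_self _ _) h3

theorem ker_TE_of_ne {w : Pl F} (hw : U.n w = 0) {a : ℕ → ℂ} (ha : a.support.Finite) (y y' : Y U)
    {v : Pl F} (hv : v ≠ w) (h : y v ≠ y' v) : ker (TE w a) y y' = 0 := by
  unfold ker
  rw [TE_single hw ha y subset_rfl, Finsupp.finset_sum_apply]
  refine Finset.sum_eq_zero fun t _ ↦ ?_
  rw [Finsupp.single_eq_of_ne]
  intro h2
  apply h
  rw [h2, upd_ne _ hv]

open Classical in
/-- The kernel of `TE w a`. -/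
theorem ker_TE_eq {w : Pl F} (hw : U.n w = 0) {a : ℕ → ℂ} (ha : a.support.Finite) (y y' : Y U) :
    ker (TE w a) y y' = if ∀ v, v ≠ w → y v = y' v then a (dY w (y w) (y' w)) else 0 := by
  split_ifs with h
  · exact ker_TE hw ha y y' h
  · push Not at h
    obtain ⟨v, hv, hne⟩ := h
    exact ker_TE_of_ne hw ha y y' hv hne

theorem ker_mul (T T' : Module.End ℂ (Y U →₀ ℂ)) (y z : Y U) :
    ker (T * T') y z = ∑ x ∈ (T' (Finsupp.single y 1)).support, ker T' y x * ker T x z := by
  classical
  unfold ker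
  rw [Module.End.mul_apply]
  conv_lhs => rw [← Finsupp.sum_single (T' (Finsupp.single y 1))]
  rw [Finsupp.sum, map_sum, Finsupp.finset_sum_apply]
  refine Finset.sum_congr rfl fun x _ ↦ ?_
  have : Finsupp.single x (T' (Finsupp.single y 1) x) =
      (T' (Finsupp.single y 1) x) • Finsupp.single x (1 : ℂ) := by
    rw [Finsupp.smul_single, smul_eq_mul, mul_one]
  rw [this, map_smul, Finsupp.smul_apply, smul_eq_mul]

theorem ker_mul' (T T' : Module.End ℂ (Y U →₀ ℂ)) (y z : Y U) {s : Finset (Y U)}
    (hs : (T' (Finsupp.single y 1)).support ⊆ s) :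
    ker (T * T') y z = ∑ x ∈ s, ker T' y x * ker T x z := by
  rw [ker_mul]
  refine Finset.sum_subset hs fun x _ hx ↦ ?_
  rw [Finsupp.notMem_support_iff] at hx
  unfold ker
  rw [hx, zero_mul]

theorem ker_mul_finsum (T T' : Module.End ℂ (Y U →₀ ℂ)) (y z : Y U) :
    ker (T * T') y z = ∑ᶠ x, ker T' y x * ker T x z := by
  rw [ker_mul]
  symm
  apply finsum_eq_sum_of_support_subset
  intro x hx
  rw [Finset.mem_coe, Finsupp.mem_support_iff]
  exact left_ne_zero_of_mul hx

theorem ker_add (T T' : Module.End ℂ (Y U →₀ ℂ)) (y z : Y U) :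
    ker (T + T') y z = ker T y z + ker T' y z := rfl

theorem ker_smul (c : ℂ) (T : Module.End ℂ (Y U →₀ ℂ)) (y z : Y U) :
    ker (c • T) y z = c * ker T y z := rfl

theorem ker_algebraMap (c : ℂ) (y z : Y U) [Decidable (z = y)] :
    ker (algebraMap ℂ (Module.End ℂ (Y U →₀ ℂ)) c) y z = if z = y then c else 0 := by
  unfold ker
  rw [Module.algebraMap_end_apply, Finsupp.smul_single, smul_eq_mul, mul_one]
  split_ifs with h
  · rw [h, Finsupp.single_eq_same]
  · rw [Finsupp.single_eq_of_ne h]

/-- equivariance under `GA F` -/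
theorem ker_smul_smul {T : Module.End ℂ (Y U →₀ ℂ)} (hT : T ∈ HA U) (g : GA F) (y z : Y U) :
    ker T (g • y) (g • z) = ker T y z := by
  classical
  induction hT using Algebra.adjoin_induction generalizing y z with
  | mem T hT =>
    obtain ⟨w, hw, rfl⟩ := hT
    rw [ker_TE_eq hw δ₁_support, ker_TE_eq hw δ₁_support, GA_smul_apply, GA_smul_apply, dY_smul]
    congr 1
    rw [eq_iff_iff]
    refine forall_congr' fun v ↦ forall_congr' fun _ ↦ ?_
    rw [GA_smul_apply, GA_smul_apply, smul_left_cancel_iff]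
  | algebraMap c =>
    rw [ker_algebraMap, ker_algebraMap]
    simp only [smul_left_cancel_iff]
  | add T T' _ _ h h' => rw [ker_add, ker_add, h, h']
  | mul T T' _ _ h h' =>
    rw [ker_mul_finsum, ker_mul_finsum, ← finsum_comp_equiv (MulAction.toPerm g)]
    refine finsum_congr fun x ↦ ?_
    rw [MulAction.toPerm_apply, h, h']

theorem HA_comm {T T' : Module.End ℂ (Y U →₀ ℂ)} (hT : T ∈ HA U) (hT' : T' ∈ HA U) :
    T * T' = T' * T :=
  congrArg Subtype.val (mul_comm' (⟨T, hT⟩ : HA U) ⟨T', hT'⟩)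

/-- symmetry -/
theorem ker_symm {T : Module.End ℂ (Y U →₀ ℂ)} (hT : T ∈ HA U) (y z : Y U) :
    ker T y z = ker T z y := by
  classical
  induction hT using Algebra.adjoin_induction generalizing y z with
  | mem T hT =>
    obtain ⟨w, hw, rfl⟩ := hT
    rw [ker_TE_eq hw δ₁_support, ker_TE_eq hw δ₁_support, dY_comm]
    congr 1
    rw [eq_iff_iff]
    exact forall_congr' fun v ↦ forall_congr' fun _ ↦ eq_comm
  | algebraMap c =>
    rw [ker_algebraMap, ker_algebraMap]
    by_cases h : z = y
    · rw [if_pos h, if_pos h.symm]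
    · rw [if_neg h, if_neg (fun h' ↦ h h'.symm)]
  | add T T' _ _ h h' => rw [ker_add, ker_add, h, h']
  | mul T T' hT hT' h h' =>
    rw [HA_comm hT hT', ker_mul_finsum, ← HA_comm hT hT', ker_mul_finsum]
    refine finsum_congr fun x ↦ ?_
    rw [h y x, h' x z, mul_comm]

theorem support_ker (T : Module.End ℂ (Y U →₀ ℂ)) (y : Y U) : {y' | ker T y y' ≠ 0}.Finite := by
  refine (T (Finsupp.single y 1)).support.finite_toSet.subset fun y' h ↦ ?_
  rw [Finset.mem_coe, Finsupp.mem_support_iff]
  exact h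

/-- bounded row sums -/
theorem exists_rowSum {T : Module.End ℂ (Y U →₀ ℂ)} (hT : T ∈ HA U) :
    ∃ A : ℝ, 0 ≤ A ∧ ∀ y, ∑ y' ∈ (T (Finsupp.single y 1)).support, ‖ker T y y'‖ ≤ A := by
  classical
  induction hT using Algebra.adjoin_induction with
  | mem T hT =>
    obtain ⟨w, hw, rfl⟩ := hT
    -- row sums of `T_w` are `q+1`
    refine ⟨qn w + 1, by positivity, fun y ↦ ?_⟩
    have h1 : ∑ y' ∈ ((TE w δ₁ : Module.End ℂ (Y U →₀ ℂ)) (Finsupp.single y 1)).support,
        ((‖ker (TE w δ₁) y y'‖ : ℝ) : ℂ) = (qn w : ℂ) + 1 := by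
      have h2 : ∀ y', ((‖ker (TE w δ₁) y y'‖ : ℝ) : ℂ) = ker (TE w δ₁) y y' * 1 := by
        intro y'
        rw [mul_one, ker_TE_eq hw δ₁_support]
        split_ifs with h3
        · unfold δ₁
          split_ifs <;> simp
        · simp
      rw [Finset.sum_congr rfl fun y' _ ↦ h2 y', ← act_eq_sum (TE w δ₁) (fun _ ↦ 1) y subset_rfl,
        act_TE hw δ₁_support]
      obtain ⟨g, hg⟩ := QuotientGroup.mk_surjective (y w)
      rw [← hg, Tl_one hw]
      rw [Finset.sum_const, Finset.card_univ, Fintype.card_option, nsmul_eq_mul, mul_one]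
      push_cast
      rw [card_res']
    have h3 : ((∑ y' ∈ ((TE w δ₁ : Module.End ℂ (Y U →₀ ℂ)) (Finsupp.single y 1)).support,
        ‖ker (TE w δ₁) y y'‖ : ℝ) : ℂ) = ((qn w + 1 : ℝ) : ℂ) := by
      push_cast
      exact h1
    exact (Complex.ofReal_injective h3).le
  | algebraMap c =>
    refine ⟨‖c‖, norm_nonneg _, fun y ↦ ?_⟩
    calc ∑ y' ∈ _, ‖ker (algebraMap ℂ (Module.End ℂ (Y U →₀ ℂ)) c) y y'‖
        ≤ ∑ y' ∈ {y}, ‖ker (algebraMap ℂ (Module.End ℂ (Y U →₀ ℂ)) c) y y'‖ := by
          refine Finset.sum_le_sum_of_subset_of_nonneg ?_ fun _ _ _ ↦ norm_nonneg _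
          intro y' hy'
          rw [Finsupp.mem_support_iff] at hy'
          change ker (algebraMap ℂ (Module.End ℂ (Y U →₀ ℂ)) c) y y' ≠ 0 at hy'
          rw [ker_algebraMap] at hy'
          rw [Finset.mem_singleton]
          by_contra h
          exact hy' (if_neg h)
      _ = ‖c‖ := by rw [Finset.sum_singleton, ker_algebraMap, if_pos rfl]
  | add T T' _ _ h h' =>
    obtain ⟨A, hA0, hA⟩ := h
    obtain ⟨B, hB0, hB⟩ := h'
    refine ⟨A + B, add_nonneg hA0 hB0, fun y ↦ ?_⟩
    set s := (T (Finsupp.single y 1)).support ∪ (T' (Finsupp.single y 1)).support ∪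
      ((T + T') (Finsupp.single y 1)).support with hs
    have e : ∀ S : Module.End ℂ (Y U →₀ ℂ), (S (Finsupp.single y 1)).support ⊆ s →
        ∑ y' ∈ (S (Finsupp.single y 1)).support, ‖ker S y y'‖ = ∑ y' ∈ s, ‖ker S y y'‖ := by
      intro S hS
      refine Finset.sum_subset hS fun x _ hx ↦ ?_
      rw [Finsupp.notMem_support_iff] at hx
      unfold ker
      rw [hx, norm_zero]
    rw [e (T + T') Finset.subset_union_right]
    calc ∑ y' ∈ s, ‖ker (T + T') y y'‖ ≤ ∑ y' ∈ s, (‖ker T y y'‖ + ‖ker T' y y'‖) :=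
          Finset.sum_le_sum fun _ _ ↦ norm_add_le _ _
      _ = ∑ y' ∈ s, ‖ker T y y'‖ + ∑ y' ∈ s, ‖ker T' y y'‖ := Finset.sum_add_distrib
      _ ≤ A + B := by
          rw [← e T (Finset.subset_union_left.trans Finset.subset_union_left),
            ← e T' (Finset.subset_union_right.trans Finset.subset_union_left)]
          exact add_le_add (hA y) (hB y)
  | mul T T' _ _ h h' =>
    obtain ⟨A, hA0, hA⟩ := h
    obtain ⟨B, hB0, hB⟩ := h'
    refine ⟨A * B, mul_nonneg hA0 hB0, fun y ↦ ?_⟩
    set s := ((T * T') (Finsupp.single y 1)).support with hs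
    set s' := (T' (Finsupp.single y 1)).support with hs'
    calc ∑ z ∈ s, ‖ker (T * T') y z‖ ≤ ∑ z ∈ s, ∑ x ∈ s', ‖ker T' y x‖ * ‖ker T x z‖ := by
          refine Finset.sum_le_sum fun z _ ↦ ?_
          rw [ker_mul]
          refine (norm_sum_le _ _).trans (Finset.sum_le_sum fun x _ ↦ ?_)
          rw [norm_mul]
      _ = ∑ x ∈ s', ‖ker T' y x‖ * ∑ z ∈ s, ‖ker T x z‖ := by
          rw [Finset.sum_comm]
          refine Finset.sum_congr rfl fun x _ ↦ ?_
          rw [Finset.mul_sum]
      _ ≤ ∑ x ∈ s', ‖ker T' y x‖ * A := by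
          refine Finset.sum_le_sum fun x _ ↦ mul_le_mul_of_nonneg_left ?_ (norm_nonneg _)
          refine le_trans ?_ (hA x)
          calc ∑ z ∈ s, ‖ker T x z‖ ≤ ∑ z ∈ s ∪ (T (Finsupp.single x 1)).support, ‖ker T x z‖ :=
                Finset.sum_le_sum_of_subset_of_nonneg Finset.subset_union_left
                  fun _ _ _ ↦ norm_nonneg _
            _ = ∑ z ∈ (T (Finsupp.single x 1)).support, ‖ker T x z‖ := by
                symm
                refine Finset.sum_subset Finset.subset_union_right fun z _ hz ↦ ?_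
                rw [Finsupp.notMem_support_iff] at hz
                unfold ker
                rw [hz, norm_zero]
      _ = A * ∑ x ∈ s', ‖ker T' y x‖ := by rw [← Finset.sum_mul, mul_comm]
      _ ≤ A * B := mul_le_mul_of_nonneg_left (hB y) hA0

/-- The kernels of spherical operators are finite test kernels. -/
theorem isFinTest_ker {T : Module.End ℂ (Y U →₀ ℂ)} (hT : T ∈ HA U) :
    Fermat.Agent.LT.B.IsFinTest (ker T) where
  inv γ y y' := by
    obtain ⟨g, rfl⟩ := Matrix.ProjGenLinGroup.mk_surjective γ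
    exact ker_smul_smul hT (diag g) y y'
  fin := support_ker T
  fin' y' := by
    have h := support_ker T y'
    refine h.subset fun y hy ↦ ?_
    rw [Set.mem_ofPred_eq] at hy ⊢
    rwa [ker_symm hT y' y]
  bdd := by
    obtain ⟨A, hA0, hA⟩ := exists_rowSum hT
    refine ⟨A, fun y y' ↦ ?_⟩
    by_cases h : y' ∈ (T (Finsupp.single y 1)).support
    · exact (Finset.single_le_sum (f := fun y' ↦ ‖ker T y y'‖) (fun _ _ ↦ norm_nonneg _) h).trans
        (hA y)
    · rw [Finsupp.notMem_support_iff] at h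
      unfold ker
      rw [h, norm_zero]
      exact hA0

end

end Fermat.Agent.LT.CTree
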