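import Fermat.Agent.LT.CArch.OnH3
import Fermat.Agent.LT.A.XMeas

/-!
# LT / C-TREE: the archimedean part of the killer

* `scl r P` : scaling of the height by `e^r`;
* `HInv φ` : `φ` depends on the height only;
* `kopH_translate` : on such functions the kernel attached to `g(u+a)+g(u-a)` acts as the kernel of
  `g` after the normalised scalings by `e^a` and `e^{-a}`;
* `integral_translate` : the same in one coordinate of `XI A = A.I → H3`.
-/

open MeasureTheory Set
open Fermat.LT Fermat.Agent.LT.CArch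

namespace Fermat.Agent.LT.CTree

noncomputable section

/-- scale the height by `e^r` -/
def scl (r : ℝ) (P : H3) : H3 := H3.mk P.z (Real.exp r * P.t) (mul_pos (Real.exp_pos _) P.t_pos)

@[simp] theorem scl_z (r : ℝ) (P : H3) : (scl r P).z = P.z := rfl
@[simp] theorem scl_t (r : ℝ) (P : H3) : (scl r P).t = Real.exp r * P.t := rfl

theorem scl_zero (P : H3) : scl 0 P = P := by
  refine H3.ext rfl ?_
  rw [scl_t, Real.exp_zero, one_mul]

theorem scl_add (r s : ℝ) (P : H3) : scl (r + s) P = scl r (scl s P) := by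
  refine H3.ext rfl ?_
  rw [scl_t, scl_t, scl_t, Real.exp_add, mul_assoc]

theorem continuous_scl (r : ℝ) : Continuous (scl r) :=
  H3.continuous_iff.mpr ⟨H3.continuous_z, continuous_const.mul H3.continuous_t⟩

/-- `φ` depends on the height only -/
def HInv (φ : H3 → ℂ) : Prop := ∀ P P' : H3, P.t = P'.t → φ P = φ P'

theorem HInv.scl {φ : H3 → ℂ} (h : HInv φ) (r : ℝ) : HInv (fun P ↦ φ (scl r P)) :=
  fun P P' hP ↦ h _ _ (by rw [scl_t, scl_t, hP])

theorem kopH_hInv {g : ℝ → ℂ} (hg : IsTest g) {φ : H3 → ℂ} (hφ : Continuous φ) (h : HInv φ)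
    (P : H3) : kopH g φ P = P.t * ∫ v : ℝ, g (Real.log P.t - v) *
      (Real.exp (-v) * φ (H3.mk 0 (Real.exp v) (Real.exp_pos v))) := by
  have hcont : Continuous fun v : ℝ ↦
      ((Real.exp (-v) : ℝ) : ℂ) * φ (H3.mk 0 (Real.exp v) (Real.exp_pos v)) := by
    refine (Complex.continuous_ofReal.comp (Real.continuous_exp.comp continuous_neg)).mul
      (hφ.comp (H3.continuous_iff.mpr ⟨continuous_const, Real.continuous_exp⟩))
  have h1 := kop_height_log hg (p := (P.z, P.t)) P.t_pos hcont
  rw [kopH_eq, ← h1]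
  unfold kop
  refine setIntegral_congr_fun measurableSet_hs fun q hq ↦ ?_
  have hq' : 0 < q.2 := hq
  congr 2
  rw [ext0_of_mem φ hq]
  have e1 : φ (H3.mk q.1 q.2 hq') = φ (H3.mk 0 (Real.exp (Real.log q.2)) (Real.exp_pos _)) :=
    h _ _ (by rw [H3.t_mk, H3.t_mk, Real.exp_log hq'])
  have e2 : (q.2 : ℂ) * (Real.exp (-Real.log q.2) : ℝ) = 1 := by
    rw [← Complex.ofReal_mul, Real.exp_neg, Real.exp_log hq', mul_inv_cancel₀ hq'.ne',
      Complex.ofReal_one]
  refine e1.trans ?_
  rw [← mul_assoc, e2, one_mul]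

theorem kopH_translate {g : ℝ → ℂ} (hg : IsTest g) (a : ℝ) {φ : H3 → ℂ} (hφ : Continuous φ)
    (h : HInv φ) (P : H3) : kopH (fun u ↦ g (u + a) + g (u - a)) φ P =
      kopH g (fun Q ↦ (Real.exp (-a) : ℂ) * φ (scl a Q) + (Real.exp a : ℂ) * φ (scl (-a) Q)) P := by
  have hc : ∀ r, Continuous fun Q ↦ φ (scl r Q) := fun r ↦ hφ.comp (continuous_scl r)
  have h2 : HInv (fun Q ↦ (Real.exp (-a) : ℂ) * φ (scl a Q) +
      (Real.exp a : ℂ) * φ (scl (-a) Q)) := by
    intro Q Q' hQ
    have e1 := h.scl a Q Q' hQ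
    have e2 := h.scl (-a) Q Q' hQ
    simp only at e1 e2 ⊢
    rw [e1, e2]
  rw [kopH_hInv (hg.translate a) hφ h, kopH_hInv hg
    (φ := fun Q ↦ (Real.exp (-a) : ℂ) * φ (scl a Q) + (Real.exp a : ℂ) * φ (scl (-a) Q))
    ((continuous_const.mul (hc a)).add (continuous_const.mul (hc (-a)))) h2]
  congr 1
  set Ψ : ℝ → ℂ := fun v ↦ Real.exp (-v) * φ (H3.mk 0 (Real.exp v) (Real.exp_pos v)) with hΨ
  have hΨc : Continuous Ψ := by
    refine (Complex.continuous_ofReal.comp (Real.continuous_exp.comp continuous_neg)).mul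
      (hφ.comp (H3.continuous_iff.mpr ⟨continuous_const, Real.continuous_exp⟩))
  have hint : ∀ (b : ℝ) (f : ℝ → ℂ), Continuous f →
      Integrable (fun v : ℝ ↦ g (b - v) * f v) := by
    intro b f hf
    refine ((hg.evenSmooth.continuous.comp (continuous_const.sub continuous_id)).mul
      hf).integrable_of_hasCompactSupport ?_
    refine HasCompactSupport.mul_right ?_
    exact hg.compact.comp_homeomorph (Homeomorph.subLeft b)
  set L := Real.log P.t with hL
  have hl : ∫ v : ℝ, (g (L - v + a) + g (L - v - a)) * Ψ v =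
      (∫ v : ℝ, g (L + a - v) * Ψ v) + ∫ v : ℝ, g (L - a - v) * Ψ v := by
    rw [← integral_add (hint _ _ hΨc) (hint _ _ hΨc)]
    refine integral_congr_ae (Filter.Eventually.of_forall fun v ↦ ?_)
    simp only
    rw [add_mul]
    congr 3 <;> ring
  rw [hl]
  have s1 : ∫ v : ℝ, g (L + a - v) * Ψ v = ∫ v : ℝ, g (L - v) * Ψ (v + a) := by
    rw [← integral_add_right_eq_self (fun v : ℝ ↦ g (L + a - v) * Ψ v) a]
    refine integral_congr_ae (Filter.Eventually.of_forall fun v ↦ ?_)
    simp only
    congr 2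
    ring
  have s2 : ∫ v : ℝ, g (L - a - v) * Ψ v = ∫ v : ℝ, g (L - v) * Ψ (v - a) := by
    rw [← integral_sub_right_eq_self (fun v : ℝ ↦ g (L - a - v) * Ψ v) a]
    refine integral_congr_ae (Filter.Eventually.of_forall fun v ↦ ?_)
    simp only
    congr 2
    ring
  rw [s1, s2, ← integral_add (hint L (fun v ↦ Ψ (v + a))
      (hΨc.comp (continuous_id.add continuous_const)))
    (hint L (fun v ↦ Ψ (v - a)) (hΨc.comp (continuous_id.sub continuous_const)))]
  refine integral_congr_ae (Filter.Eventually.of_forall fun v ↦ ?_)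
  simp only [hΨ]
  rw [← mul_add]
  congr 1
  have e3 : φ (H3.mk 0 (Real.exp (v + a)) (Real.exp_pos _)) =
      φ (scl a (H3.mk 0 (Real.exp v) (Real.exp_pos v))) := by
    apply h
    rw [scl_t, H3.t_mk, H3.t_mk, Real.exp_add, mul_comm]
  have e4 : φ (H3.mk 0 (Real.exp (v - a)) (Real.exp_pos _)) =
      φ (scl (-a) (H3.mk 0 (Real.exp v) (Real.exp_pos v))) := by
    apply h
    rw [scl_t, H3.t_mk, H3.t_mk, sub_eq_add_neg, Real.exp_add, mul_comm]
  rw [e3, e4, mul_add, ← mul_assoc, ← mul_assoc, ← Complex.ofReal_mul, ← Complex.ofReal_mul,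
    ← Real.exp_add, ← Real.exp_add]
  congr 4 <;> ring

/-! ### one coordinate at a time -/

theorem integral_eq_of_update_aux {ι : Type*} [Fintype ι] [DecidableEq ι] {α : ι → Type*}
    [∀ i, MeasurableSpace (α i)] (μ : ∀ i, Measure (α i)) [∀ i, SigmaFinite (μ i)]
    {f f' : (∀ i, α i) → ℂ} (hf : Integrable f (Measure.pi μ)) (hf' : Integrable f' (Measure.pi μ))
    (i : ι) (h : ∀ x, ∫ t, f (Function.update x i t) ∂(μ i) =
      ∫ t, f' (Function.update x i t) ∂(μ i)) (p : ι → Prop) [DecidablePred p]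
    (hp : ∀ j, p j ↔ j = i) :
    ∫ x, f x ∂(Measure.pi μ) = ∫ x, f' x ∂(Measure.pi μ) := by
  let e := MeasurableEquiv.piEquivPiSubtypeProd α p
  have he : MeasurePreserving e.symm _ (Measure.pi μ) :=
    (measurePreserving_piEquivPiSubtypeProd μ p).symm e
  have key : ∀ f : (∀ i, α i) → ℂ, Integrable f (Measure.pi μ) →
      ∫ x, f x ∂(Measure.pi μ) = ∫ y, ∫ s, f (e.symm (s, y))
        ∂(Measure.pi fun j : Subtype p ↦ μ j) ∂(Measure.pi fun j : {j // ¬ p j} ↦ μ j) := by
    intro f hf
    rw [← he.integral_comp e.symm.measurableEmbedding f]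
    exact integral_prod_symm _ ((he.integrable_comp_emb e.symm.measurableEmbedding).mpr hf)
  rw [key f hf, key f' hf']
  congr 1
  funext y
  -- the inner integral
  let u : Unique (Subtype p) := ⟨⟨⟨i, (hp i).mpr rfl⟩⟩, fun j ↦ Subtype.ext ((hp j).mp j.2)⟩
  have hu := measurePreserving_piUnique (X := fun j : Subtype p ↦ α j) (fun j : Subtype p ↦ μ j)
  have inner : ∀ f : (∀ i, α i) → ℂ, ∀ x0 : ∀ j : Subtype p, α j,
      ∫ s, f (e.symm (s, y)) ∂(Measure.pi fun j : Subtype p ↦ μ j) =
        ∫ t, f (Function.update (e.symm (x0, y)) i t) ∂(μ i) := by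
    intro f x0
    have h1 : ∀ s : (∀ j : Subtype p, α j), f (e.symm (s, y)) =
        (fun t ↦ f (Function.update (e.symm (x0, y)) i t))
          (MeasurableEquiv.piUnique (fun j : Subtype p ↦ α j) s) := by
      intro s
      simp only
      congr 1
      funext j
      by_cases hj : j = i
      · subst hj
        have hpj : p j := (hp j).mpr rfl
        rw [Function.update_self]
        simp only [e, MeasurableEquiv.piEquivPiSubtypeProd, MeasurableEquiv.piUnique]
        change (Equiv.piEquivPiSubtypeProd p α).symm (s, y) j = s default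
        rw [Equiv.piEquivPiSubtypeProd_symm_apply, dif_pos hpj]
        rfl
      · have hpj : ¬ p j := fun h ↦ hj ((hp j).mp h)
        rw [Function.update_of_ne hj]
        change (Equiv.piEquivPiSubtypeProd p α).symm (s, y) j =
          (Equiv.piEquivPiSubtypeProd p α).symm (x0, y) j
        rw [Equiv.piEquivPiSubtypeProd_symm_apply, Equiv.piEquivPiSubtypeProd_symm_apply,
          dif_neg hpj, dif_neg hpj]
    rw [integral_congr_ae (Filter.Eventually.of_forall h1)]
    exact hu.integral_comp (MeasurableEquiv.piUnique _).measurableEmbedding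
      (fun t ↦ f (Function.update (e.symm (x0, y)) i t))
  rcases isEmpty_or_nonempty (∀ j : Subtype p, α j) with hE | ⟨⟨x0⟩⟩
  · rw [Measure.eq_zero_of_isEmpty (Measure.pi fun j : Subtype p ↦ μ j)]
    simp
  · rw [inner f x0, inner f' x0, h]

/-- Two integrals over a product agree if the integrals over one coordinate agree. -/
theorem integral_eq_of_update {ι : Type*} [Fintype ι] [DecidableEq ι] {α : ι → Type*}
    [∀ i, MeasurableSpace (α i)] (μ : ∀ i, Measure (α i)) [∀ i, SigmaFinite (μ i)]
    {f f' : (∀ i, α i) → ℂ} (hf : Integrable f (Measure.pi μ)) (hf' : Integrable f' (Measure.pi μ))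
    (i : ι) (h : ∀ x, ∫ t, f (Function.update x i t) ∂(μ i) =
      ∫ t, f' (Function.update x i t) ∂(μ i)) :
    ∫ x, f x ∂(Measure.pi μ) = ∫ x, f' x ∂(Measure.pi μ) := by
  classical
  exact integral_eq_of_update_aux μ hf hf' i h (fun j ↦ j = i) fun _ ↦ Iff.rfl

/-! ### product kernels -/

variable {ι : Type*} [Fintype ι] [DecidableEq ι]

/-- product kernel -/
def kI (g : ι → ℝ → ℂ) (P R : ι → H3) : ℂ := ∏ i, kfun (g i) (H3.ch (P i) (R i))

omit [DecidableEq ι] in
theorem continuous_kfun_ch {g : ℝ → ℂ} (hg : IsTest g) (P : H3) :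
    Continuous fun R : H3 ↦ kfun g (H3.ch P R) :=
  (kfun_continuousOn hg.evenSmooth).comp_continuous (H3.continuous_ch.comp (Continuous.prodMk_right P))
    fun R ↦ H3.one_le_ch P R

omit [DecidableEq ι] in
theorem continuous_kI {g : ι → ℝ → ℂ} (hg : ∀ i, IsTest (g i)) (P : ι → H3) :
    Continuous fun R : ι → H3 ↦ kI g P R :=
  continuous_finsetProd _ fun i _ ↦ (continuous_kfun_ch (hg i) (P i)).comp (continuous_apply i)

omit [DecidableEq ι] in
theorem hasCompactSupport_kI {g : ι → ℝ → ℂ} (hg : ∀ i, IsTest (g i)) (P : ι → H3) :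
    HasCompactSupport fun R : ι → H3 ↦ kI g P R := by
  choose V hV1 hV using fun i ↦ (hg i).exists_kfun_eq_zero
  refine HasCompactSupport.intro (K := Set.pi Set.univ fun i ↦ H3.ball (P i) (V i))
    (isCompact_univ_pi fun i ↦ H3.isCompact_ball (P i) (V i)) fun R hR ↦ ?_
  rw [Set.mem_univ_pi] at hR
  push Not at hR
  obtain ⟨i, hi⟩ := hR
  rw [H3.mem_ball, not_le] at hi
  exact Finset.prod_eq_zero (Finset.mem_univ i) (hV i _ hi.le)

omit [DecidableEq ι] in
theorem integrable_kI {g : ι → ℝ → ℂ} (hg : ∀ i, IsTest (g i)) (P : ι → H3) {Φ : (ι → H3) → ℂ}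
    (hΦ : Continuous Φ) : Integrable (fun R ↦ kI g P R * Φ R)
      (Measure.pi fun _ : ι ↦ (volume : Measure H3)) :=
  ((continuous_kI hg P).mul hΦ).integrable_of_hasCompactSupport
    (hasCompactSupport_kI hg P).mul_right

/-- the operator -/
def RI (g : ι → ℝ → ℂ) (Φ : (ι → H3) → ℂ) (P : ι → H3) : ℂ :=
  ∫ R, kI g P R * Φ R ∂(Measure.pi fun _ : ι ↦ (volume : Measure H3))

/-- `Φ` depends on the heights only -/
def HInvI (Φ : (ι → H3) → ℂ) : Prop := ∀ P P' : ι → H3, (∀ i, (P i).t = (P' i).t) → Φ P = Φ P'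

/-- scaling -/
def sclI (r : ι → ℝ) (P : ι → H3) : ι → H3 := fun i ↦ scl (r i) (P i)

omit [Fintype ι] [DecidableEq ι] in
theorem continuous_sclI (r : ι → ℝ) : Continuous (sclI r) :=
  continuous_pi fun i ↦ (continuous_scl (r i)).comp (continuous_apply i)

omit [Fintype ι] in
theorem sclI_single_update (i : ι) (a : ℝ) (x : ι → H3) (t : H3) :
    sclI (Pi.single i a) (Function.update x i t) = Function.update x i (scl a t) := by
  funext j
  by_cases hj : j = i
  · subst hj
    rw [sclI, Pi.single_eq_same, Function.update_self, Function.update_self]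
  · rw [sclI, Pi.single_eq_of_ne hj, Function.update_of_ne hj, Function.update_of_ne hj, scl_zero]

theorem kI_update (g : ι → ℝ → ℂ) (P x : ι → H3) (i : ι) (f : ℝ → ℂ) (t : H3) :
    kI (Function.update g i f) P (Function.update x i t) =
      (∏ j ∈ Finset.univ.erase i, kfun (g j) (H3.ch (P j) (x j))) *
        kfun f (H3.ch (P i) t) := by
  unfold kI
  rw [← Finset.prod_erase_mul _ _ (Finset.mem_univ i), Function.update_self, Function.update_self]
  congr 1
  refine Finset.prod_congr rfl fun j hj ↦ ?_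
  rw [Function.update_of_ne (Finset.ne_of_mem_erase hj), Function.update_of_ne
    (Finset.ne_of_mem_erase hj)]

/-- Translating the test function in one coordinate. -/
theorem RI_translate {g : ι → ℝ → ℂ} (hg : ∀ i, IsTest (g i)) (i : ι) (a : ℝ)
    {Φ : (ι → H3) → ℂ} (hΦ : Continuous Φ) (h : HInvI Φ) (P : ι → H3) :
    RI (Function.update g i fun u ↦ g i (u + a) + g i (u - a)) Φ P =
      RI g (fun Q ↦ (Real.exp (-a) : ℂ) * Φ (sclI (Pi.single i a) Q) +
        (Real.exp a : ℂ) * Φ (sclI (Pi.single i (-a)) Q)) P := by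
  have hg' : ∀ j, IsTest (Function.update g i (fun u ↦ g i (u + a) + g i (u - a)) j) := by
    intro j
    by_cases hj : j = i
    · subst hj; rw [Function.update_self]; exact (hg j).translate a
    · rw [Function.update_of_ne hj]; exact hg j
  have hΦ' : Continuous fun Q ↦ (Real.exp (-a) : ℂ) * Φ (sclI (Pi.single i a) Q) +
        (Real.exp a : ℂ) * Φ (sclI (Pi.single i (-a)) Q) :=
    (continuous_const.mul (hΦ.comp (continuous_sclI _))).add
      (continuous_const.mul (hΦ.comp (continuous_sclI _)))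
  unfold RI
  refine integral_eq_of_update _ (integrable_kI hg' P hΦ) (integrable_kI hg P hΦ') i fun x ↦ ?_
  have e : kI g P = kI (Function.update g i (g i)) P := by rw [Function.update_eq_self]
  set C := ∏ j ∈ Finset.univ.erase i, kfun (g j) (H3.ch (P j) (x j)) with hC
  have l1 : ∀ t, kI (Function.update g i fun u ↦ g i (u + a) + g i (u - a)) P
      (Function.update x i t) * Φ (Function.update x i t) =
      C * (kfun (fun u ↦ g i (u + a) + g i (u - a)) (H3.ch (P i) t) *
        Φ (Function.update x i t)) := by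
    intro t
    rw [kI_update, mul_assoc]
  have l2 : ∀ t, kI g P (Function.update x i t) *
      ((Real.exp (-a) : ℂ) * Φ (sclI (Pi.single i a) (Function.update x i t)) +
        (Real.exp a : ℂ) * Φ (sclI (Pi.single i (-a)) (Function.update x i t))) =
      C * (kfun (g i) (H3.ch (P i) t) *
        ((Real.exp (-a) : ℂ) * Φ (Function.update x i (scl a t)) +
        (Real.exp a : ℂ) * Φ (Function.update x i (scl (-a) t)))) := by
    intro t
    rw [e, kI_update, sclI_single_update, sclI_single_update, mul_assoc]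
  rw [integral_congr_ae (Filter.Eventually.of_forall l1),
    integral_congr_ae (Filter.Eventually.of_forall l2), integral_const_mul, integral_const_mul]
  congr 1
  have hφc : Continuous fun t : H3 ↦ Φ (Function.update x i t) :=
    hΦ.comp (continuous_const.update i continuous_id)
  have hφh : HInv fun t : H3 ↦ Φ (Function.update x i t) := by
    intro t t' htt'
    apply h
    intro j
    by_cases hj : j = i
    · subst hj; rw [Function.update_self, Function.update_self, htt']
    · rw [Function.update_of_ne hj, Function.update_of_ne hj]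
  exact kopH_translate (hg i) a hφc hφh (P i)

end

end Fermat.Agent.LT.CTree
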