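import Fermat.Agent.LT.CTree.KillPure
import Fermat.Agent.LT.B.FinKer

/-!
# LT, piece C: the killed operators on joint eigenfunctions

* `KillData.val lam s` : the values of the variables of the killing polynomial;
* `KillData.kval lam s` : the value of the killing polynomial;
* `KillData.appK_AB`, `KillData.appK_A` : the eigenvalue of the killed operators.
-/

set_option autoImplicit false

open NumberField IsDedekindDomain Matrix MeasureTheory
open Polynomial hiding X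
open Fermat.LT Fermat.Agent.LT.CArch
open Fermat.Agent.LT.B (IsNB Killed appK TX TY RX updI IsEig)
open scoped IsMulCommutative

namespace Fermat.Agent.LT.CTree

variable {F : Type} [Field F] [NumberField F] {D : Datum F}

theorem B_upd_eq (y : Y D.toLevel) (w : Pl F) (z : Yl D.toLevel w) :
    B.upd y w z = upd y w z := by
  refine Y.ext' fun v ↦ ?_
  by_cases hv : v = w
  · subst hv
    rw [upd_same, B.upd_same]
  · rw [upd_ne _ hv, B.upd_ne _ hv]

theorem actX_mul (T T' : Module.End ℂ (Y D.toLevel →₀ ℂ)) (ψ : X D → ℂ) :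
    actX (T * T') ψ = actX T' (actX T ψ) := by
  funext x
  unfold actX
  rw [act_mul]

theorem actX_one (ψ : X D → ℂ) : actX 1 ψ = ψ := by
  funext x
  unfold actX
  rw [act_one]

theorem actX_add (T T' : Module.End ℂ (Y D.toLevel →₀ ℂ)) (ψ : X D → ℂ) :
    actX (T + T') ψ = actX T ψ + actX T' ψ := by
  funext x
  unfold actX
  rw [act_add]
  rfl

theorem actX_smul (c : ℂ) (T : Module.End ℂ (Y D.toLevel →₀ ℂ)) (ψ : X D → ℂ) :
    actX (c • T) ψ = c • actX T ψ := by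
  funext x
  unfold actX
  rw [act_smul]
  rfl

theorem actX_fun_smul (c : ℂ) (T : Module.End ℂ (Y D.toLevel →₀ ℂ)) (ψ : X D → ℂ) :
    actX T (c • ψ) = c • actX T ψ := by
  funext x
  have h := congrFun (act_fun_smul T c (fun y ↦ ψ (x.1, y))) x.2
  exact h

theorem actX_pow {T : Module.End ℂ (Y D.toLevel →₀ ℂ)} {ψ : X D → ℂ} {c : ℂ}
    (h : actX T ψ = c • ψ) (n : ℕ) : actX (T ^ n) ψ = (c ^ n) • ψ := by
  induction n with
  | zero => rw [pow_zero, pow_zero, actX_one, one_smul]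
  | succ n ih => rw [pow_succ, actX_mul, ih, actX_fun_smul, h, smul_smul, pow_succ]

theorem actX_aeval {T : Module.End ℂ (Y D.toLevel →₀ ℂ)} {ψ : X D → ℂ} {c : ℂ}
    (h : actX T ψ = c • ψ) (P : ℂ[X]) : actX (aeval T P) ψ = (P.eval c) • ψ := by
  induction P using Polynomial.induction_on' with
  | add P Q hP hQ => rw [map_add, actX_add, hP, hQ, eval_add, add_smul]
  | monomial n a =>
    rw [aeval_monomial, Algebra.algebraMap_eq_smul_one, smul_mul_assoc, one_mul, actX_smul,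
      actX_pow h, eval_monomial, smul_smul]

theorem TX_eq_actX {w : Pl F} (hw : D.n w = 0) (φ : X D → ℂ) : TX w φ = actX (TE w δ₁) φ := by
  funext x
  unfold TX TY actX
  rw [act_TE hw δ₁_support]
  have e : (fun z ↦ φ (x.1, B.upd x.2 w z)) = fun t ↦ φ (x.1, upd x.2 w t) := by
    funext z
    rw [B_upd_eq]
  rw [e]

theorem actX_TE_one {w : Pl F} (hw : D.n w = 0) {φ : X D → ℂ} {lam : ℂ}
    (h : ∀ x, TX w φ x = (sq w : ℂ) * lam * φ x) : actX (TE w (fh w 1)) φ = lam • φ := by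
  have hs : (sq w : ℂ) ≠ 0 := sq_ne_zero w
  rw [fh_one, TE_smul hw _ δ₁_support, actX_smul, ← TX_eq_actX hw]
  funext x
  rw [Pi.smul_apply, Pi.smul_apply, h x, smul_eq_mul, smul_eq_mul, mul_assoc,
    inv_mul_cancel_left₀ hs]

theorem actX_sf {w : Pl F} (hw : D.n w = 0) {φ : X D → ℂ} {lam : ℂ}
    (h : ∀ x, TX w φ x = (sq w : ℂ) * lam * φ x) (P : ℂ[X]) :
    actX (TE w (sf w P)) φ = (P.eval lam) • φ := by
  rw [TE_sf hw]
  exact actX_aeval (actX_TE_one hw h) P

/-- the operator of a spherical function on eigenfunctions -/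
theorem opX_sf {w : Pl F} (hw : D.n w = 0) {φ : X D → ℂ} {lam : ℂ}
    (h : ∀ x, TX w φ x = (sq w : ℂ) * lam * φ x) (P : ℂ[X]) :
    opX w (sphF w (sf w P)) φ = (P.eval lam) • φ := by
  rw [← actX_sf hw h P]
  funext x
  rw [opX_sphF]
  unfold actX
  rw [act_TE hw (sf_support w P)]
  have e : (fun z ↦ φ (x.1, B.upd x.2 w z)) = fun t ↦ φ (x.1, upd x.2 w t) := by
    funext z
    rw [B_upd_eq]
  rw [e]

theorem actX_TH {w : Pl F} (hw : D.n w = 0) {φ : X D → ℂ} {lam : ℂ}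
    (h : ∀ x, TX w φ x = (sq w : ℂ) * lam * φ x) (m : ℕ) :
    actX (TH (U := D.toLevel) hw m : Module.End ℂ (Y D.toLevel →₀ ℂ)) φ =
      ((Chebyshev.C ℂ m).eval lam) • φ := by
  change actX (TE w (fh w m)) φ = _
  rw [← sf_cheb]
  exact actX_sf hw h _

variable (D) in
/-- Hecke operators with their eigenvalues -/
def ES (φ : X D → ℂ) : Submonoid (HA D.toLevel × ℂ) where
  carrier := {t | actX (t.1 : Module.End ℂ (Y D.toLevel →₀ ℂ)) φ = t.2 • φ}
  one_mem' := by
    change actX (1 : Module.End ℂ (Y D.toLevel →₀ ℂ)) φ = (1 : ℂ) • φ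
    rw [actX_one, one_smul]
  mul_mem' := by
    rintro ⟨T, c⟩ ⟨T', c'⟩ h h'
    change actX (T : Module.End ℂ (Y D.toLevel →₀ ℂ)) φ = c • φ at h
    change actX (T' : Module.End ℂ (Y D.toLevel →₀ ℂ)) φ = c' • φ at h'
    change actX ((T * T' : HA D.toLevel) : Module.End ℂ (Y D.toLevel →₀ ℂ)) φ = (c * c') • φ
    rw [MulMemClass.coe_mul, actX_mul, h, actX_fun_smul, h', smul_smul]

theorem mem_ES {φ : X D → ℂ} {T : HA D.toLevel} {c : ℂ} : (T, c) ∈ ES D φ ↔
    actX (T : Module.End ℂ (Y D.toLevel →₀ ℂ)) φ = c • φ := Iff.rfl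

variable (D) in
/-- translations with their eigenvalues -/
def BS (s : D.I → ℂ) : Submonoid (TB D × (D.I → ℂ)) where
  carrier := {t | ∀ g, IsTest g → ∀ i, IsTest (trn (t.1 i) g) ∧
    hat (trn (t.1 i) g) (s i) = t.2 i * hat g (s i)}
  one_mem' := by
    intro g hg i
    change IsTest (trn (1 : AddMonoidAlgebra ℂ ℝ) g) ∧
      hat (trn (1 : AddMonoidAlgebra ℂ ℝ) g) (s i) = 1 * hat g (s i)
    rw [map_one, Module.End.one_apply, one_mul]
    exact ⟨hg, rfl⟩
  mul_mem' := by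
    rintro ⟨b, c⟩ ⟨b', c'⟩ h h' g hg i
    change IsTest (trn (b i * b' i) g) ∧ hat (trn (b i * b' i) g) (s i) =
      c i * c' i * hat g (s i)
    rw [map_mul, Module.End.mul_apply]
    obtain ⟨h1, h2⟩ := h' g hg i
    obtain ⟨h3, h4⟩ := h _ h1 i
    refine ⟨h3, ?_⟩
    change hat (trn (b i) (trn (b' i) g)) (s i) = c i * hat (trn (b' i) g) (s i) at h4
    change hat (trn (b' i) g) (s i) = c' i * hat g (s i) at h2
    rw [h4, h2, mul_assoc]

theorem single_mem_BS (s : D.I → ℂ) (i : D.I) (a : ℝ) :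
    ((Pi.mulSingle i (tt a), Pi.mulSingle i (2 * Complex.cosh (s i * a))) : TB D × (D.I → ℂ)) ∈
      BS D s := by
  intro g hg j
  change IsTest (trn ((Pi.mulSingle i (tt a) : TB D) j) g) ∧
    hat (trn ((Pi.mulSingle i (tt a) : TB D) j) g) (s j) =
      (Pi.mulSingle i (2 * Complex.cosh (s i * a)) : D.I → ℂ) j * hat g (s j)
  by_cases hj : j = i
  · subst hj
    rw [Pi.mulSingle_eq_same, Pi.mulSingle_eq_same, trn_tt]
    exact ⟨hg.translate a, hat_translate hg a (s j)⟩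
  · rw [Pi.mulSingle_eq_of_ne hj, Pi.mulSingle_eq_of_ne hj, map_one, Module.End.one_apply, one_mul]
    exact ⟨hg, rfl⟩

/-- product kernels act on joint eigenfunctions by the product of the eigenvalues -/
theorem RXI_eig {g : D.I → ℝ → ℂ} (hg : ∀ i, IsTest (g i)) {φ : X D → ℂ} (hφ : CX φ)
    {s : D.I → ℂ} (h : ∀ i x, RX i (g i) φ x = hat (g i) (s i) * φ x) (P : XI D.toArch)
    (y : Y D.toLevel) :
    RXI g (fun Q ↦ φ (Q, y)) P = (∏ i, hat (g i) (s i)) * φ (P, y) := by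
  choose V hV1 hV using fun i ↦ (hg i).exists_kfun_eq_zero
  refine B.integral_pi_eigen (fun i R ↦ kfun (g i) (H3.ch (P i) R))
    (fun i ↦ continuous_kfun_ch (hg i) (P i)) (fun i ↦ H3.ball (P i) (V i))
    (fun i ↦ H3.isCompact_ball (P i) (V i)) ?_ (fun Q ↦ φ (Q, y)) (hφ y) P
    (fun i ↦ hat (g i) (s i)) ?_
  · intro i R hR
    apply hV
    rw [H3.ball, Set.mem_ofPred_eq, not_le] at hR
    exact hR.le
  · intro i Q hQ
    have h1 := h i (Q, y)
    have e : RX i (g i) φ (Q, y) = ∫ R, kfun (g i) (H3.ch (P i) R) *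
        φ (Function.update Q i R, y) := by
      unfold RX kopH updI
      change ∫ R, kfun (g i) (H3.ch (Q i) R) * φ (Function.update Q i R, y) = _
      rw [hQ]
    rw [← e, h1]

namespace KillData

attribute [local instance] KillData.fJf KillData.fJa

variable (K : KillData D) (lam : Pl F → ℂ) (s : D.I → ℂ)

/-- the values of the variables -/
noncomputable def val : K.J → ℂ :=
  Sum.elim (fun j ↦ (Chebyshev.C ℂ (K.en j)).eval (lam (K.pl j)))
    (fun j ↦ 2 * Complex.cosh (s (K.ar j) * K.sh j))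

/-- the value of the killing polynomial -/
noncomputable def kval : ℂ := MvPolynomial.aeval (K.val lam s) (killPoly K.J)

theorem kval_eq : K.kval lam s =
    ∑ d ∈ (killPoly K.J).support, K.co d * ∏ j, K.val lam s j ^ d j := by
  rw [kval, MvPolynomial.aeval_def, MvPolynomial.eval₂_eq']
  refine Finset.sum_congr rfl fun d _ ↦ ?_
  rw [co, eq_intCast]

variable {lam s}

theorem actX_moT {φ : X D → ℂ}
    (h : ∀ j x, TX (K.pl j) φ x = (sq (K.pl j) : ℂ) * lam (K.pl j) * φ x) (d : K.J →₀ ℕ) :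
    actX (K.moT d : Module.End ℂ (Y D.toLevel →₀ ℂ)) φ =
      (∏ j : K.Jf, K.val lam s (Sum.inl j) ^ d (Sum.inl j)) • φ := by
  have key : ((K.moT d, ∏ j : K.Jf, K.val lam s (Sum.inl j) ^ d (Sum.inl j)) :
      HA D.toLevel × ℂ) ∈ ES D φ := by
    have e : ((K.moT d, ∏ j : K.Jf, K.val lam s (Sum.inl j) ^ d (Sum.inl j)) :
        HA D.toLevel × ℂ) = ∏ j : K.Jf, ((TH (U := D.toLevel) (K.good j) (K.en j),
          K.val lam s (Sum.inl j)) : HA D.toLevel × ℂ) ^ d (Sum.inl j) := by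
      refine Prod.ext ?_ ?_
      · rw [Prod.fst_prod, moT_eq]
        exact Finset.prod_congr rfl fun j _ ↦ by rw [Prod.pow_fst]
      · rw [Prod.snd_prod]
        exact Finset.prod_congr rfl fun j _ ↦ by rw [Prod.pow_snd]
    rw [e]
    refine (ES D φ).prod_mem fun j _ ↦ (ES D φ).pow_mem ?_ _
    rw [mem_ES]
    exact actX_TH (K.good j) (h j) (K.en j)
  exact mem_ES.mp key

theorem moB_eq (d : K.J →₀ ℕ) :
    K.moB d = ∏ j : K.Ja, (Pi.mulSingle (K.ar j) (tt (K.sh j)) : TB D) ^ d (Sum.inr j) := by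
  unfold moB mo
  rw [Prod.snd_prod, Prod.snd_prod, Fintype.prod_sum_type]
  have h : ∀ j : K.Jf, (K.mon (Sum.inl j) ^ d (Sum.inl j)).2.2 = 1 := fun j ↦ by
    rw [Prod.pow_snd, Prod.pow_snd]
    exact one_pow _
  rw [Finset.prod_congr (s₁ := (Finset.univ : Finset K.Jf)) rfl fun j _ ↦ h j,
    Finset.prod_const_one, one_mul]
  rfl

theorem prod_hat_moB {g : D.I → ℝ → ℂ} (hg : ∀ i, IsTest (g i)) (d : K.J →₀ ℕ) :
    ∏ i, hat (bact (K.moB d) g i) (s i) =
      (∏ j : K.Ja, K.val lam s (Sum.inr j) ^ d (Sum.inr j)) * ∏ i, hat (g i) (s i) := by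
  set c : D.I → ℂ := ∏ j : K.Ja,
    (Pi.mulSingle (K.ar j) (2 * Complex.cosh (s (K.ar j) * K.sh j)) : D.I → ℂ) ^ d (Sum.inr j)
    with hc
  have key : ((K.moB d, c) : TB D × (D.I → ℂ)) ∈ BS D s := by
    have e : ((K.moB d, c) : TB D × (D.I → ℂ)) = ∏ j : K.Ja,
        ((Pi.mulSingle (K.ar j) (tt (K.sh j)),
          Pi.mulSingle (K.ar j) (2 * Complex.cosh (s (K.ar j) * K.sh j))) :
            TB D × (D.I → ℂ)) ^ d (Sum.inr j) := by
      refine Prod.ext ?_ ?_
      · rw [Prod.fst_prod, moB_eq]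
        exact Finset.prod_congr rfl fun j _ ↦ by rw [Prod.pow_fst]
      · rw [Prod.snd_prod]
        exact Finset.prod_congr rfl fun j _ ↦ by rw [Prod.pow_snd]
    rw [e]
    exact (BS D s).prod_mem fun j _ ↦ (BS D s).pow_mem (single_mem_BS s (K.ar j) (K.sh j)) _
  have h1 : ∀ i, hat (bact (K.moB d) g i) (s i) = c i * hat (g i) (s i) := fun i ↦
    (key (g i) (hg i) i).2
  rw [Finset.prod_congr rfl fun i _ ↦ h1 i, Finset.prod_mul_distrib]
  congr 1
  have h2 : ∀ i, c i = ∏ j : K.Ja, (Pi.mulSingle (K.ar j)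
      (2 * Complex.cosh (s (K.ar j) * K.sh j)) : D.I → ℂ) i ^ d (Sum.inr j) := fun i ↦ by
    rw [hc, Finset.prod_apply]
    exact Finset.prod_congr rfl fun j _ ↦ by rw [Pi.pow_apply]
  rw [Finset.prod_congr rfl fun i _ ↦ h2 i, Finset.prod_comm]
  refine Finset.prod_congr rfl fun j _ ↦ ?_
  rw [Finset.prod_eq_single (K.ar j)]
  · rw [Pi.mulSingle_eq_same]
    rfl
  · intro i _ hi
    rw [Pi.mulSingle_eq_of_ne hi, one_pow]
  · exact fun h ↦ absurd (Finset.mem_univ _) h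

/-- the operators of the family on joint eigenfunctions -/
theorem appK_km {g : D.I → ℝ → ℂ} (hg : ∀ i, IsTest (g i)) {κ : Y D.toLevel → Y D.toLevel → ℂ}
    (hκ : RowFin κ) {φ : X D → ℂ} (hφ : CX φ)
    (h : ∀ j x, TX (K.pl j) φ x = (sq (K.pl j) : ℂ) * lam (K.pl j) * φ x)
    (h' : ∀ i g, IsTest g → ∀ x, RX i g φ x = hat g (s i) * φ x) (d : K.J →₀ ℕ) (x : X D) :
    appK volume (K.km g κ d) φ x = (∏ j, K.val lam s j ^ d j) *
      ((∏ i, hat (g i) (s i)) * ∑ᶠ y, κ x.2 y * φ (x.1, y)) := by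
  unfold km
  rw [appK_kX_kcomp (K.test_moB d hg) hκ _ hφ, K.actX_moT (s := s) h, appK_smul,
    appK_kX (K.test_moB d hg) hκ hφ]
  have e : ∀ y, κ x.2 y * RXI (bact (K.moB d) g) (fun P ↦ φ (P, y)) x.1 =
      ((∏ j : K.Ja, K.val lam s (Sum.inr j) ^ d (Sum.inr j)) * ∏ i, hat (g i) (s i)) *
        (κ x.2 y * φ (x.1, y)) := by
    intro y
    rw [RXI_eig (K.test_moB d hg) hφ (s := s) (fun i ↦ h' i _ (K.test_moB d hg i)),
      K.prod_hat_moB (lam := lam) hg]
    ring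
  rw [finsum_congr e, ← mul_finsum, Fintype.prod_sum_type]
  ring

theorem appK_kk {g : D.I → ℝ → ℂ} (hg : ∀ i, IsTest (g i)) {κ : Y D.toLevel → Y D.toLevel → ℂ}
    (hκ : RowFin κ) {φ : X D → ℂ} (hφ : CX φ)
    (h : ∀ j x, TX (K.pl j) φ x = (sq (K.pl j) : ℂ) * lam (K.pl j) * φ x)
    (h' : ∀ i g, IsTest g → ∀ x, RX i g φ x = hat g (s i) * φ x) (x : X D) :
    appK volume (K.kk g κ) φ x = K.kval lam s *
      ((∏ i, hat (g i) (s i)) * ∑ᶠ y, κ x.2 y * φ (x.1, y)) := by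
  have h1 : appK volume (K.kk g κ) φ x =
      ∑ d ∈ (killPoly K.J).support, K.co d * appK volume (K.km g κ d) φ x := by
    have hint : ∀ d, Integrable (fun z : X D ↦ K.km g κ d x z * φ z) := fun d ↦
      integrable_kX (K.test_moB d hg) (hκ.kcomp (rowFin_ker _)) hφ x
    have e : ∀ z, K.kk g κ x z * φ z =
        ∑ d ∈ (killPoly K.J).support, K.co d * (K.km g κ d x z * φ z) := by
      intro z
      rw [kk, Finset.sum_mul]
      exact Finset.sum_congr rfl fun d _ ↦ mul_assoc _ _ _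
    unfold appK
    rw [integral_congr_ae (Filter.Eventually.of_forall e),
      integral_finsetSum _ fun d _ ↦ (hint d).const_mul _]
    exact Finset.sum_congr rfl fun d _ ↦ integral_const_mul _ _
  rw [h1, K.kval_eq, Finset.sum_mul]
  refine Finset.sum_congr rfl fun d _ ↦ ?_
  rw [K.appK_km hg hκ hφ h h' d x, mul_assoc]

/-- **Eigenvalue of the killed operator** (general finite components). -/
theorem appK_AB (k₀ : Pure D) {g : D.I → ℝ → ℂ} (hg : ∀ i, IsTest (g i)) {φ : X D → ℂ}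
    (hφ : CX φ) (h : ∀ j x, TX (K.pl j) φ x = (sq (K.pl j) : ℂ) * lam (K.pl j) * φ x)
    (h' : ∀ i g, IsTest g → ∀ x, RX i g φ x = hat g (s i) * φ x) (x : X D) :
    appK volume (fun x y ↦ ∑ d ∈ (killPoly K.J).support, K.co d * (K.AB k₀ g hg d).ker x y) φ x =
      K.kval lam s * ((∏ i, hat (g i) (s i)) * ∑ᶠ y, k₀.kerY x.2 y * φ (x.1, y)) := by
  rw [← K.appK_kk hg (rowFin_kerY k₀) hφ h h']
  congr 1
  funext x y
  refine Finset.sum_congr rfl fun d _ ↦ ?_
  rw [AB_ker]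

/-- **Eigenvalue of the killed operator.** -/
theorem appK_A {g : D.I → ℝ → ℂ} (hg : ∀ i, IsTest (g i)) {φ : X D → ℂ} (hφ : CX φ)
    (h : ∀ j x, TX (K.pl j) φ x = (sq (K.pl j) : ℂ) * lam (K.pl j) * φ x)
    (h' : ∀ i g, IsTest g → ∀ x, RX i g φ x = hat g (s i) * φ x) (x : X D) :
    appK volume (fun x y ↦ ∑ d ∈ (killPoly K.J).support, K.co d * (K.A g hg d).ker x y) φ x =
      K.kval lam s * (∏ i, hat (g i) (s i)) * φ x := by
  have h2 : ∑ᶠ y, unitK x.2 y * φ (x.1, y) = φ x := by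
    rw [finsum_eq_single _ x.2, unitK_self, one_mul]
    intro y hy
    rw [unitK_ne (Ne.symm hy), zero_mul]
  rw [mul_assoc]
  conv_rhs => rw [← h2]
  rw [← K.appK_kk hg rowFin_unitK hφ h h']
  congr 1
  funext x y
  refine Finset.sum_congr rfl fun d _ ↦ ?_
  rw [A_ker]

end KillData

end Fermat.Agent.LT.CTree
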