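import Fermat.Agent.LT.CTree.KillEig
import Fermat.Agent.LT.Geo.BMul
import Fermat.Agent.LT.G.PSum

/-!
# LT, piece C: the matching killer on `K`

`G : GeoDatum C`, `k : KillData G.DL.toDatum` with all places split over `K`:
* `KillData.normK` : the killer data on `K` (same index sets, same polynomial);
* `aPure_A` : `aPure (k.A g d) = (k.normK).A g' d`, `g' = g_ι * g_{σι} * g_{σ²ι}` (convolution).
-/

set_option autoImplicit false

open NumberField IsDedekindDomain Matrix MeasureTheory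
open Polynomial hiding X
open Fermat.LT Fermat.Agent.LT.CArch
open Fermat.Agent.LT.B (IsNB Killed appK TX TY RX updI IsEig)
open scoped IsMulCommutative

namespace Fermat.Agent.LT.CTree

/-! ### convolution and translations -/

theorem integrable_shift_mul {g g' : ℝ → ℂ} (hg : IsTest g) (hg' : IsTest g') (a u : ℝ) :
    Integrable fun v : ℝ ↦ g (v + a) * g' (u - v) := by
  have h : Integrable fun v : ℝ ↦ g v * g' (u - (v - a)) :=
    hg.integrable_mul (f := fun v : ℝ ↦ g' (u - (v - a)))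
      (hg'.smooth.continuous.comp (by fun_prop))
  have h2 := h.comp_add_right a
  refine h2.congr (Filter.Eventually.of_forall fun v ↦ ?_)
  simp only [add_sub_cancel_right]

theorem integral_shift_mul (g g' : ℝ → ℂ) (a u : ℝ) :
    ∫ v : ℝ, g (v + a) * g' (u - v) = cv g g' (u + a) := by
  unfold cv
  rw [← integral_add_right_eq_self (fun v : ℝ ↦ g v * g' (u + a - v)) a]
  refine integral_congr_ae (Filter.Eventually.of_forall fun v ↦ ?_)
  simp only
  congr 2
  ring

/-- even translation elements commute with convolution -/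
def BC : Submonoid (AddMonoidAlgebra ℂ ℝ) where
  carrier := {b | ∀ g, IsTest g → IsTest (trn b g) ∧ ∀ g', IsTest g' →
    cv (trn b g) g' = trn b (cv g g')}
  one_mem' := by
    intro g hg
    rw [map_one, Module.End.one_apply]
    exact ⟨hg, fun g' _ ↦ by rw [Module.End.one_apply]⟩
  mul_mem' := by
    intro b b' h h' g hg
    obtain ⟨h1, h2⟩ := h' g hg
    obtain ⟨h3, h4⟩ := h _ h1
    rw [map_mul, Module.End.mul_apply]
    refine ⟨h3, fun g' hg' ↦ ?_⟩
    rw [h4 g' hg', h2 g' hg', Module.End.mul_apply]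

theorem tt_mem_BC (a : ℝ) : tt a ∈ BC := by
  intro g hg
  rw [trn_tt]
  refine ⟨hg.translate a, fun g' hg' ↦ ?_⟩
  rw [trn_tt]
  funext u
  have e1 : cv (fun u ↦ g (u + a) + g (u - a)) g' u =
      ∫ v : ℝ, (g (v + a) * g' (u - v) + g (v + -a) * g' (u - v)) := by
    unfold cv
    refine integral_congr_ae (Filter.Eventually.of_forall fun v ↦ ?_)
    simp only
    rw [add_mul, sub_eq_add_neg v a]
  rw [e1, integral_add (integrable_shift_mul hg hg' a u) (integrable_shift_mul hg hg' (-a) u),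
    integral_shift_mul, integral_shift_mul, sub_eq_add_neg]

theorem cv_trn_right {b : AddMonoidAlgebra ℂ ℝ} (hb : b ∈ BC) {g g' : ℝ → ℂ} (hg : IsTest g)
    (hg' : IsTest g') : cv g (trn b g') = trn b (cv g g') := by
  rw [cv_comm, (hb g' hg').2 g hg, cv_comm]

theorem cv_trn3 {b₀ b₁ b₂ : AddMonoidAlgebra ℂ ℝ} (h₀ : b₀ ∈ BC) (h₁ : b₁ ∈ BC) (h₂ : b₂ ∈ BC)
    {g₀ g₁ g₂ : ℝ → ℂ} (hg₀ : IsTest g₀) (hg₁ : IsTest g₁) (hg₂ : IsTest g₂) :
    cv (cv (trn b₀ g₀) (trn b₁ g₁)) (trn b₂ g₂) = trn (b₀ * b₁ * b₂) (cv (cv g₀ g₁) g₂) := by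
  have hT₁ := (h₁ g₁ hg₁).1
  have h01 := hg₀.cv hg₁
  rw [(h₀ g₀ hg₀).2 _ hT₁, cv_trn_right h₁ hg₀ hg₁, cv_trn_right h₂ ((h₀ _ ((h₁ _ h01).1)).1) hg₂,
    (h₀ _ (h₁ _ h01).1).2 _ hg₂, (h₁ _ h01).2 _ hg₂]
  rw [mul_comm (b₀ * b₁) b₂, map_mul, map_mul]
  rfl

/-! ### norms of elements at the places of `K` -/

section norm

open Fermat.LT.GeoDatum Fermat.Agent.LT.D

variable {K L : Type} [Field K] [NumberField K] [Field L] [NumberField L] [Algebra K L]
  {C : Cub K L} {G : GeoDatum C}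

omit [NumberField K] [NumberField L] in
theorem exists_norm (C : Cub K L) (x : Lˣ) : ∃ m : Kˣ, algebraMap K L (m : K) = C.nL (x : L) := by
  obtain ⟨y, hy⟩ := C.fixed _ (C.σ_nL (x : L))
  have h0 : y ≠ 0 := by
    rintro rfl
    rw [map_zero] at hy
    exact C.nL_ne_zero x.ne_zero hy.symm
  exact ⟨Units.mk0 y h0, hy⟩

theorem lv_zero_iff {F : Type} [Field F] [NumberField F] {w : Pl F} {x : F} (hx : x ≠ 0) :
    lv w x = 0 ↔ av w x = 1 := by
  rw [av_eq_zpow w hx]
  constructor
  · intro h; rw [h, zpow_zero]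
  · intro h
    exact zpow_inj w (h.trans (zpow_zero _).symm)

theorem lv_split {v : Pl K} (hv : Split C v (G.up v)) {x : Lˣ} {m : Kˣ}
    (h : algebraMap K L (m : K) = C.nL (x : L)) :
    lv v (m : K) = lv (G.wj v 0) (x : L) + lv (G.wj v 1) (x : L) + lv (G.wj v 2) (x : L) := by
  have hq : ∀ j, qv (G.wj v j) = qv v := fun j ↦ (G.qv_wj v j).trans hv.q_eq
  have h1 : av (G.wj v 0) (C.σ (x : L)) = av (G.wj v 1) (x : L) := by
    have := av_pl C (G.wj v 1) (x : L)
    rwa [G.pl_wj_succ v 0] at this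
  have h2 : av (G.wj v 0) (C.σ (C.σ (x : L))) = av (G.wj v 2) (x : L) := by
    have e1 := av_pl C (G.wj v 1) (C.σ (x : L))
    have e2 := av_pl C (G.wj v 2) (x : L)
    rw [G.pl_wj_succ v 0] at e1
    rw [G.pl_wj_succ v 1] at e2
    rw [e1, e2]
  have h3 : av v (m : K) = av (G.wj v 0) (x : L) * av (G.wj v 1) (x : L) * av (G.wj v 2) (x : L) := by
    rw [← hv.av_eq, h, Cub.nL, map_mul, map_mul]
    change av (G.wj v 0) _ * av (G.wj v 0) _ * av (G.wj v 0) _ = _
    rw [h1, h2]
  rw [av_eq_zpow v m.ne_zero, av_eq_zpow _ x.ne_zero, av_eq_zpow _ x.ne_zero,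
    av_eq_zpow _ x.ne_zero, hq, hq, hq, ← zpow_add₀ (qv_pos v).ne', ← zpow_add₀ (qv_pos v).ne'] at h3
  exact zpow_inj v h3

theorem av_fixed {w : Pl L} (hw : pl C w = w) (x : L) : av w (C.nL x) = av w x ^ 3 := by
  have h1 : ∀ y, av w (C.σ y) = av w y := fun y ↦ av_σ_of_fix C hw y
  rw [Cub.nL, map_mul, map_mul, h1, h1, h1]
  ring

theorem av_eq3 {v : Pl K} (hv : ¬ Split C v (G.up v)) (x : K) :
    av (G.up v) (algebraMap K L x) = av v x ^ 3 := by
  rcases G.typ v with h | h | h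
  · exact absurd h hv
  · exact h.av_eq x
  · exact h.av_eq x

theorem fix_of_not_split {v : Pl K} (hv : ¬ Split C v (G.up v)) : pl C (G.up v) = G.up v := by
  rcases G.typ v with h | h | h
  · exact absurd h hv
  · exact h.fix
  · exact h.fix

theorem av_eq_one_of_not_split {v : Pl K} (hv : ¬ Split C v (G.up v)) {x : Lˣ} {m : Kˣ}
    (h : algebraMap K L (m : K) = C.nL (x : L)) (hx : av (G.up v) (x : L) = 1) :
    av v (m : K) = 1 := by
  have h1 := av_eq3 hv (m : K)
  rw [h, av_fixed (fix_of_not_split hv), hx, one_pow] at h1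
  have h2 : (0 : ℝ) ≤ av v (m : K) := (av v).nonneg _
  exact (pow_eq_one_iff_of_nonneg h2 (by norm_num)).mp h1.symm

/-- every place of `L` which is not fixed lies above a split place -/
theorem split_down {w : Pl L} (hw : pl C w ≠ w) : Split C (G.down w) (G.up (G.down w)) := by
  by_contra h
  have hf := fix_of_not_split h
  rcases G.up_down w with h1 | h1 | h1
  · rw [← h1] at hf; exact hw hf
  · rw [hf] at h1; rw [← h1] at hf; exact hw hf
  · rw [hf, hf] at h1; rw [← h1] at hf; exact hw hf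

theorem wj_ne {v : Pl K} (hv : Split C v (G.up v)) :
    G.wj v 0 ≠ G.wj v 1 ∧ G.wj v 0 ≠ G.wj v 2 ∧ G.wj v 1 ≠ G.wj v 2 := by
  obtain ⟨h1, h2, h3⟩ := aj_ne hv
  exact ⟨fun h ↦ h1 (Subtype.ext h), fun h ↦ h2 (Subtype.ext h), fun h ↦ h3 (Subtype.ext h)⟩

theorem down_eq_iff {v : Pl K} (w : Pl L) :
    G.down w = v ↔ w = G.wj v 0 ∨ w = G.wj v 1 ∨ w = G.wj v 2 := by
  constructor
  · intro h
    rcases G.aj_cases v ⟨w, h⟩ with h1 | h1 | h1
    · exact Or.inl (congrArg Subtype.val h1)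
    · exact Or.inr (Or.inl (congrArg Subtype.val h1))
    · exact Or.inr (Or.inr (congrArg Subtype.val h1))
  · rintro (h | h | h) <;> rw [h] <;> exact G.down_wj v _

open Classical in
/-- splitting a sum over the places above `v` -/
theorem ite_down {M : Type*} [AddCommMonoid M] {v : Pl K} (hv : Split C v (G.up v)) (w : Pl L)
    (a : M) : (if G.down w = v then a else 0) = (if w = G.wj v 0 then a else 0) +
      (if w = G.wj v 1 then a else 0) + (if w = G.wj v 2 then a else 0) := by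
  obtain ⟨h1, h2, h3⟩ := wj_ne hv
  by_cases h : G.down w = v
  · rw [if_pos h]
    rcases (down_eq_iff w).mp h with e | e | e
    · rw [if_pos e, if_neg (by rw [e]; exact h1), if_neg (by rw [e]; exact h2), add_zero, add_zero]
    · rw [if_neg (by rw [e]; exact h1.symm), if_pos e, if_neg (by rw [e]; exact h3), zero_add,
        add_zero]
    · rw [if_neg (by rw [e]; exact h2.symm), if_neg (by rw [e]; exact h3.symm), if_pos e, zero_add,
        zero_add]
  · have h' : ¬ (w = G.wj v 0 ∨ w = G.wj v 1 ∨ w = G.wj v 2) := fun e ↦ h ((down_eq_iff w).mpr e)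
    push Not at h'
    rw [if_neg h, if_neg h'.1, if_neg h'.2.1, if_neg h'.2.2, add_zero, add_zero]

open Classical in
/-- splitting a product over the places above `v` -/
theorem ite_down_mul {M : Type*} [CommMonoid M] {v : Pl K} (hv : Split C v (G.up v)) (w : Pl L)
    (a : M) : (if G.down w = v then a else 1) = (if w = G.wj v 0 then a else 1) *
      (if w = G.wj v 1 then a else 1) * (if w = G.wj v 2 then a else 1) := by
  obtain ⟨h1, h2, h3⟩ := wj_ne hv
  by_cases h : G.down w = v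
  · rw [if_pos h]
    rcases (down_eq_iff w).mp h with e | e | e
    · rw [if_pos e, if_neg (by rw [e]; exact h1), if_neg (by rw [e]; exact h2), mul_one, mul_one]
    · rw [if_neg (by rw [e]; exact h1.symm), if_pos e, if_neg (by rw [e]; exact h3), one_mul,
        mul_one]
    · rw [if_neg (by rw [e]; exact h2.symm), if_neg (by rw [e]; exact h3.symm), if_pos e, one_mul,
        one_mul]
  · have h' : ¬ (w = G.wj v 0 ∨ w = G.wj v 1 ∨ w = G.wj v 2) := fun e ↦ h ((down_eq_iff w).mpr e)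
    push Not at h'
    rw [if_neg h, if_neg h'.1, if_neg h'.2.1, if_neg h'.2.2, mul_one, mul_one]

/-- three-term ultrametric inequality for products -/
theorem av_mul3_sub_one (w : Pl L) {a b c : L} {r : ℝ} (ha : av w (a - 1) ≤ r)
    (hb : av w (b - 1) ≤ r) (hc : av w (c - 1) ≤ r) (hb1 : av w b ≤ 1)
    (hc1 : av w c ≤ 1) : av w (a * b * c - 1) ≤ r := by
  have h0 : 0 ≤ r := ((av w).nonneg _).trans ha
  have e : a * b * c - 1 = (a - 1) * (b * c) + ((b - 1) * c + (c - 1)) := by ring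
  rw [e]
  refine (av_add_le w _ _).trans (max_le ?_ ((av_add_le w _ _).trans (max_le ?_ hc)))
  · rw [map_mul, map_mul]
    exact (mul_le_mul ha (mul_le_one₀ hb1 ((av w).nonneg _) hc1)
      (mul_nonneg ((av w).nonneg _) ((av w).nonneg _)) h0).trans (mul_one r).le
  · rw [map_mul]
    exact (mul_le_mul hb hc1 ((av w).nonneg _) h0).trans (mul_one r).le

theorem av_le_one_of_sub {w : Pl L} {a : L} (h : av w (a - 1) ≤ 1) : av w a ≤ 1 := by
  have e : a = (a - 1) + 1 := by ring
  rw [e]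
  exact (av_add_le w _ _).trans (max_le h (by rw [map_one]))

/-- the norm is close to one -/
theorem av_norm_sub_one {x : Lˣ} {m : Kˣ} (h : algebraMap K L (m : K) = C.nL (x : L)) {v : Pl K}
    {n : ℕ} (hx : ∀ w, G.down w = v → av w ((x : L) - 1) ≤ (qv w)⁻¹ ^ (3 * n)) :
    av v ((m : K) - 1) ≤ (qv v)⁻¹ ^ n := by
  set w := G.up v with hw
  have hdw : G.down w = v := G.down_up v
  have e : algebraMap K L ((m : K) - 1) = (x : L) * C.σ (x : L) * C.σ (C.σ (x : L)) - 1 := by
    rw [map_sub, map_one, h, Cub.nL]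
  have hq1 : (qv w)⁻¹ ^ (3 * n) ≤ 1 :=
    pow_le_one₀ (inv_nonneg.mpr (qv_pos w).le) (inv_le_one_of_one_le₀ (one_lt_qv w).le)
  -- the three factors
  have key : av w ((x : L) * C.σ (x : L) * C.σ (C.σ (x : L)) - 1) ≤ (qv w)⁻¹ ^ (3 * n) := by
    have hwj0 : w = G.wj v 0 := rfl
    have hq : ∀ j, qv (G.wj v j) = qv w := fun j ↦ G.qv_wj v j
    have hj : ∀ j, av (G.wj v j) ((x : L) - 1) ≤ (qv w)⁻¹ ^ (3 * n) := fun j ↦ by
      have := hx (G.wj v j) (G.down_wj v j)
      rwa [hq] at this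
    have h1 : av w (C.σ (x : L) - 1) = av (G.wj v 1) ((x : L) - 1) := by
      have := av_pl C (G.wj v 1) ((x : L) - 1)
      rw [G.pl_wj_succ v 0, map_sub, map_one] at this
      exact this
    have h2 : av w (C.σ (C.σ (x : L)) - 1) = av (G.wj v 2) ((x : L) - 1) := by
      have e1 := av_pl C (G.wj v 1) (C.σ (x : L) - 1)
      have e2 := av_pl C (G.wj v 2) ((x : L) - 1)
      rw [G.pl_wj_succ v 0, map_sub, map_one] at e1
      rw [G.pl_wj_succ v 1, map_sub, map_one] at e2
      exact e1.trans e2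
    have g0 : av w ((x : L) - 1) ≤ (qv w)⁻¹ ^ (3 * n) := hj 0
    have g1 : av w (C.σ (x : L) - 1) ≤ (qv w)⁻¹ ^ (3 * n) := h1.trans_le (hj 1)
    have g2 : av w (C.σ (C.σ (x : L)) - 1) ≤ (qv w)⁻¹ ^ (3 * n) := h2.trans_le (hj 2)
    exact av_mul3_sub_one w g0 g1 g2 (av_le_one_of_sub (g1.trans hq1))
      (av_le_one_of_sub (g2.trans hq1))
  rw [← e] at key
  by_cases hv : Split C v (G.up v)
  · rw [hv.av_eq, hv.q_eq] at key
    refine key.trans ?_
    exact pow_le_pow_of_le_one (inv_nonneg.mpr (qv_pos v).le)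
      (inv_le_one_of_one_le₀ (one_lt_qv v).le) (by omega)
  · rw [av_eq3 hv] at key
    have hle : (qv w)⁻¹ ≤ (qv v)⁻¹ := by
      refine inv_anti₀ (qv_pos v) ?_
      rcases G.typ v with h | h | h
      · exact absurd h hv
      · rw [hw, h.q_eq]
        calc qv v = qv v ^ 1 := (pow_one _).symm
          _ ≤ qv v ^ 3 := pow_le_pow_right₀ (one_lt_qv v).le (by norm_num)
      · rw [hw, h.q_eq]
    have h3 : av v ((m : K) - 1) ^ 3 ≤ ((qv v)⁻¹ ^ n) ^ 3 := by
      refine key.trans ?_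
      rw [← pow_mul, mul_comm n 3]
      exact pow_le_pow_left₀ (inv_nonneg.mpr (qv_pos w).le) hle _
    exact (pow_le_pow_iff_left₀ ((av v).nonneg _)
      (pow_nonneg (inv_nonneg.mpr (qv_pos v).le) _) (by norm_num)).mp h3

end norm

/-! ### the killer data on `K` -/

section normK

open Fermat.LT.GeoDatum Fermat.Agent.LT.D

attribute [local instance] KillData.fJf KillData.fJa

theorem KillData.tot_all {F : Type} [Field F] [NumberField F] {D : Datum F} (k : KillData D)
    (w : Pl F) : k.tot.2 w = -lv w (k.ϖ : F) := by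
  by_cases hw : D.n w = 0
  · exact k.tot_good hw
  · rw [k.tot_bad hw, (lv_zero_iff k.ϖ.ne_zero).mpr (k.av_bad hw), neg_zero]

open Classical in
theorem KillData.tot_apply {F : Type} [Field F] [NumberField F] {D : Datum F} (k : KillData D)
    (w : Pl F) : k.tot.2 w = ∑ j, if k.pl j = w then k.e j else 0 := by
  rw [k.tot_snd, Finsupp.finsetSum_apply]
  refine Finset.sum_congr rfl fun j _ ↦ ?_
  rw [Finsupp.single_apply]

variable {K L : Type} [Field K] [NumberField K] [Field L] [NumberField L] [Algebra K L]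
  {C : Cub K L} {G : GeoDatum C}

/-- hypotheses for the transfer to `K` -/
structure KillOK (k : KillData G.DL.toDatum) : Prop where
  ne : ∀ j, LT.pl C (k.pl j) ≠ k.pl j
  good : ∀ j, G.U.n (G.down (k.pl j)) = 0
  deep : ∀ w, G.U.n (G.down w) ≠ 0 →
    av w ((k.ϖ : L) - 1) ≤ (qv w)⁻¹ ^ (3 * G.U.n (G.down w))

theorem sum_DLI (f : G.DL.I → ℝ) :
    ∑ i, f i = f G.ι + f (G.DL.perm G.ι) + f (G.DL.perm (G.DL.perm G.ι)) := by
  rw [← Equiv.sum_comp (G.enum G.ι) f, Fin.sum_univ_three]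
  rfl

theorem prod_DLI {M : Type*} [CommMonoid M] (f : G.DL.I → M) :
    ∏ i, f i = f G.ι * f (G.DL.perm G.ι) * f (G.DL.perm (G.DL.perm G.ι)) := by
  rw [← Equiv.prod_comp (G.enum G.ι) f, Fin.prod_univ_three]
  rfl

/-- **The killer data on `K`.** -/
noncomputable def KillData.normK (k : KillData G.DL.toDatum) (h : KillOK k) : KillData G.DK where
  Jf := k.Jf
  Ja := k.Ja
  fJf := k.fJf
  fJa := k.fJa
  pl j := G.down (k.pl j)
  e := k.e
  good := h.good
  ar _ := G.uK.default
  sh := k.sh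
  ϖ := (exists_norm C k.ϖ).choose
  ord := by
    classical
    intro v _
    have hm := (exists_norm C k.ϖ).choose_spec
    set m := (exists_norm C k.ϖ).choose with hmdef
    rw [Finsupp.finsetSum_apply]
    have e1 : ∀ j, (Finsupp.single (G.down (k.pl j)) (k.e j)) v =
        if G.down (k.pl j) = v then k.e j else 0 := fun j ↦ Finsupp.single_apply
    rw [Finset.sum_congr rfl fun j _ ↦ e1 j]
    by_cases hv : Split C v (G.up v)
    · rw [Finset.sum_congr rfl fun j _ ↦ ite_down hv (k.pl j) (k.e j), Finset.sum_add_distrib,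
        Finset.sum_add_distrib, ← k.tot_apply, ← k.tot_apply, ← k.tot_apply, k.tot_all, k.tot_all,
        k.tot_all, lv_split hv hm]
      ring
    · have h1 : ∀ j, G.down (k.pl j) ≠ v := by
        rintro j rfl
        exact hv (split_down (h.ne j))
      rw [Finset.sum_eq_zero fun j _ ↦ if_neg (h1 j)]
      have h2 : k.tot.2 (G.up v) = 0 := by
        rw [k.tot_apply]
        refine Finset.sum_eq_zero fun j _ ↦ if_neg ?_
        intro h3
        exact h1 j (by rw [h3, G.down_up])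
      rw [k.tot_all, neg_eq_zero, lv_zero_iff k.ϖ.ne_zero] at h2
      have h3 := av_eq_one_of_not_split hv hm h2
      rw [(lv_zero_iff m.ne_zero).mpr h3, neg_zero]
  bad := by
    intro v hv
    have hm := (exists_norm C k.ϖ).choose_spec
    refine av_norm_sub_one (G := G) hm fun w hw ↦ ?_
    have := h.deep w (by rw [hw]; exact hv)
    rwa [hw] at this
  arch := by
    intro i
    obtain rfl : i = G.uK.default := G.uK.uniq i
    have hm := (exists_norm C k.ϖ).choose_spec
    set m := (exists_norm C k.ϖ).choose with hmdef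
    have hne : ∀ i, ‖G.DL.emb i (k.ϖ : L)‖ ≠ 0 := fun i ↦
      norm_ne_zero_iff.mpr ((_root_.map_ne_zero _).mpr k.ϖ.ne_zero)
    have e1 : (∑ j, Pi.single G.uK.default (k.sh j) : G.DK.I → ℝ) G.uK.default = ∑ j, k.sh j := by
      rw [Finset.sum_apply]
      exact Finset.sum_congr rfl fun j _ ↦ Pi.single_eq_same _ _
    have e2 : ∑ j, k.sh j = ∑ i, (∑ j, Pi.single (k.ar j) (k.sh j) : G.DL.I → ℝ) i := by
      simp_rw [Finset.sum_apply]
      rw [Finset.sum_comm]
      refine Finset.sum_congr rfl fun j _ ↦ ?_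
      rw [Finset.sum_pi_single', if_pos (Finset.mem_univ _)]
    rw [e1, e2, Finset.sum_congr rfl fun i _ ↦ k.arch i, sum_DLI,
      ← Real.log_mul (hne _) (hne _), ← Real.log_mul (mul_ne_zero (hne _) (hne _)) (hne _),
      ← norm_mul, ← norm_mul, G.DL.emb_perm, G.DL.emb_perm, G.DL.emb_perm, ← map_mul, ← map_mul]
    congr 2
    change G.DL.emb G.ι (C.nL (k.ϖ : L)) = G.AK.emb G.uK.default (m : K)
    rw [← hm, G.emb_ι]

theorem KillData.normK_pl (k : KillData G.DL.toDatum) (h : KillOK k) (j : k.Jf) :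
    (k.normK h).pl j = G.down (k.pl j) := rfl

theorem KillData.normK_killPoly (k : KillData G.DL.toDatum) (h : KillOK k) :
    (k.normK h).co = k.co := rfl

theorem trn_moB_mem {F : Type} [Field F] [NumberField F] {D : Datum F} (k : KillData D)
    (d : k.J →₀ ℕ) (i : D.I) : k.moB d i ∈ BC := by
  rw [k.moB_eq, Finset.prod_apply]
  refine BC.prod_mem fun j _ ↦ ?_
  rw [Pi.pow_apply]
  refine BC.pow_mem ?_ _
  by_cases hi : i = k.ar j
  · subst hi
    rw [Pi.mulSingle_eq_same]
    exact tt_mem_BC _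
  · rw [Pi.mulSingle_eq_of_ne hi]
    exact BC.one_mem

theorem moB_apply {F : Type} [Field F] [NumberField F] {D : Datum F} (k : KillData D)
    (d : k.J →₀ ℕ) (i : D.I) :
    k.moB d i = ∏ j : k.Ja, if k.ar j = i then (tt (k.sh j)) ^ d (Sum.inr j) else 1 := by
  rw [k.moB_eq, Finset.prod_apply]
  refine Finset.prod_congr rfl fun j _ ↦ ?_
  rw [Pi.pow_apply]
  by_cases hi : k.ar j = i
  · subst hi
    rw [Pi.mulSingle_eq_same, if_pos rfl]
  · rw [Pi.mulSingle_eq_of_ne (Ne.symm hi), if_neg hi, one_pow]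

/-- the archimedean test functions on `K` -/
noncomputable def gK (g : G.DL.I → ℝ → ℂ) : G.DK.I → ℝ → ℂ := fun _ ↦
  cv (cv (g G.ι) (g (G.DL.perm G.ι))) (g (G.DL.perm (G.DL.perm G.ι)))

theorem isTest_gK {g : G.DL.I → ℝ → ℂ} (hg : ∀ i, IsTest (g i)) (i : G.DK.I) :
    IsTest (gK (G := G) g i) := ((hg _).cv (hg _)).cv (hg _)

variable (k : KillData G.DL.toDatum) (h : KillOK k)

theorem normK_moB (d : k.J →₀ ℕ) (i : G.DK.I) : (k.normK h).moB d i =
    k.moB d G.ι * k.moB d (G.DL.perm G.ι) * k.moB d (G.DL.perm (G.DL.perm G.ι)) := by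
  obtain rfl : i = G.uK.default := G.uK.uniq i
  rw [← prod_DLI (fun i ↦ k.moB d i), moB_apply (k.normK h) d G.uK.default,
    Finset.prod_congr rfl fun i _ ↦ moB_apply k d i, Finset.prod_comm]
  refine Finset.prod_congr rfl fun j _ ↦ ?_
  rw [Finset.prod_ite_eq Finset.univ (k.ar j), if_pos (Finset.mem_univ _)]
  exact if_pos rfl

theorem ba_A {g : G.DL.I → ℝ → ℂ} (hg : ∀ i, IsTest (g i)) (d : k.J →₀ ℕ) (i : G.DK.I) :
    ba (k.A g hg d) = radK (bact ((k.normK h).moB d) (gK (G := G) g) i) := by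
  unfold ba
  rw [k.A_a, k.A_a, k.A_a, acomp_radK (k.test_moB d hg _) (k.test_moB d hg _),
    acomp_radK ((k.test_moB d hg _).cv (k.test_moB d hg _)) (k.test_moB d hg _)]
  congr 1
  unfold bact
  rw [cv_trn3 (trn_moB_mem k d _) (trn_moB_mem k d _) (trn_moB_mem k d _) (hg _) (hg _) (hg _)]
  rw [normK_moB]
  rfl

open Classical in
theorem normK_P (d : k.J →₀ ℕ) {v : Pl K} (hv : Split C v (G.up v)) :
    (k.normK h).P d v = k.P d (G.wj v 0) * k.P d (G.wj v 1) * k.P d (G.wj v 2) := by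
  refine ((k.normK h).P_apply d v).trans ?_
  rw [k.P_apply, k.P_apply, k.P_apply, ← Finset.prod_mul_distrib, ← Finset.prod_mul_distrib]
  exact Finset.prod_congr rfl fun j _ ↦ ite_down_mul hv (k.pl j) _

include h in
/-- the components of the family at a place above a split place -/
theorem fs_A {g : G.DL.I → ℝ → ℂ} (hg : ∀ i, IsTest (g i)) (d : k.J →₀ ℕ) {v : Pl K}
    (hv : Split C v (G.up v)) (j : Fin 3) :
    fs (k.A g hg d) v j = tF G.U v (k.P d (G.wj v j)) := by
  by_cases h1 : ∃ j', k.pl j' = G.wj v j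
  · obtain ⟨j', hj'⟩ := h1
    have e1 : G.DL.n (G.wj v j) = 0 := by
      rw [← hj']
      exact k.good j'
    have e2 : G.U.n v = 0 := by
      have := h.good j'
      rwa [hj', G.down_wj] at this
    rw [tF_good e2]
    funext x
    change (k.A g hg d).f (G.wj v j) (Cub.Inc x) = _
    rw [k.A_f, tF_good (U := G.DL.toLevel) e1, sphF_wj_Inc hv,
      sf_congr ((G.qv_wj v j).trans hv.q_eq)]
  · push Not at h1
    have e3 : k.P d (G.wj v j) = 1 := k.P_eq_one d h1
    have e4 : (k.A g hg d).f (G.wj v j) = unitF (G.DL.H (G.wj v j)) :=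
      k.A_f_eq_unit g hg d h1
    rw [fs_eq_unitF _ hv j e4, e3, tF_one, G.U_eq v fun h' ↦ h'.not_split hv]

theorem af_A {g : G.DL.I → ℝ → ℂ} (hg : ∀ i, IsTest (g i)) (d : k.J →₀ ℕ) (v : Pl K) :
    af (k.A g hg d) v = tF G.U v ((k.normK h).P d v) := by
  by_cases hv : Split C v (G.up v)
  · have hU : G.U0.H v = G.U.H v := (G.U_eq v fun h' ↦ h'.not_split hv).symm
    rw [af_split _ hv, tH_f, fs_A k h hg d hv 0, fs_A k h hg d hv 1, fs_A k h hg d hv 2,
      normK_P k h d hv, hU, convF_tF, convF_tF]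
    rfl
  · rw [af_not_split _ hv]
    have h1 : ∀ j, (k.normK h).pl j ≠ v := by
      intro j hj
      change G.down (k.pl j) = v at hj
      subst hj
      exact hv (split_down (h.ne j))
    rw [(k.normK h).P_eq_one d h1, tF_one]

/-- **The matching of the killed families.** -/
theorem aPure_A {g : G.DL.I → ℝ → ℂ} (hg : ∀ i, IsTest (g i)) (d : k.J →₀ ℕ) :
    aPure (k.A g hg d) = (k.normK h).A (gK g) (isTest_gK hg) d := by
  refine Pure.ext' (?_ : _ = _) (?_ : _ = _)
  · funext i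
    exact ba_A k h hg d i
  · funext v
    exact af_A k h hg d v

end normK

end Fermat.Agent.LT.CTree
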