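import Fermat.Agent.LT.CTree.KillTor
import Fermat.Agent.LT.Geo.ConvF

/-!
# LT, piece C: operators with product kernels on `X D`, and matching with the torus action

* `kX g κ` : the kernel `∏ kfun (g i) (ch ..) * κ`;
* `appK_kX` : the operator with this kernel;
* `trn`, `TB`, `bact` : translations acting on the archimedean test functions;
* `MatS D` : the submonoid of triples `(r, T, b)` such that on `N(𝔸)`-invariant functions the
  operator with kernel `kX (b • g) (κ ∘ T)` is the composition of the one with kernel `kX g κ` with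
  the action of `r`.
-/

set_option autoImplicit false

open NumberField IsDedekindDomain Matrix MeasureTheory
open Fermat.LT Fermat.Agent.LT.CArch
open Fermat.Agent.LT.B (IsNB Killed appK)
open scoped IsMulCommutative

namespace Fermat.Agent.LT.CTree

variable {F : Type} [Field F] [NumberField F] {D : Datum F}

/-! ### the operator with kernel `kX g κ` -/

/-- the archimedean kernel -/
noncomputable def kXI (g : D.I → ℝ → ℂ) (P Q : XI D.toArch) : ℂ :=
  ∏ i, kfun (g i) (H3.ch (P i) (Q i))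

theorem kXI_eq (g : D.I → ℝ → ℂ) (P Q : XI D.toArch) : kXI g P Q = kI g P Q := rfl

/-- product kernels -/
noncomputable def kX (g : D.I → ℝ → ℂ) (κ : Y D.toLevel → Y D.toLevel → ℂ) (x z : X D) : ℂ :=
  kXI g x.1 z.1 * κ x.2 z.2

theorem integrable_kXI {g : D.I → ℝ → ℂ} (hg : ∀ i, IsTest (g i)) (P : XI D.toArch)
    {Φ : XI D.toArch → ℂ} (hΦ : Continuous Φ) : Integrable (fun Q ↦ kXI g P Q * Φ Q) :=
  integrable_kI hg P hΦ

theorem kX_mul_eq (g : D.I → ℝ → ℂ) {κ : Y D.toLevel → Y D.toLevel → ℂ} (hκ : RowFin κ)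
    (ψ : X D → ℂ) (x z : X D) : kX g κ x z * ψ z = ∑ y' ∈ (hκ x.2).toFinset,
      κ x.2 y' * ((kXI g x.1 z.1 * ψ (z.1, y')) * Set.indicator {y'} 1 z.2) := by
  classical
  by_cases hz : z.2 ∈ (hκ x.2).toFinset
  · rw [Finset.sum_eq_single_of_mem z.2 hz]
    · rw [Set.indicator_of_mem (Set.mem_singleton _), Pi.one_apply, kX]
      ring
    · intro y' _ hne
      rw [Set.indicator_of_notMem (fun h ↦ hne (Set.mem_singleton_iff.mp h).symm), mul_zero,
        mul_zero]
  · have h0 : κ x.2 z.2 = 0 := by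
      by_contra h
      exact hz ((hκ x.2).mem_toFinset.mpr h)
    rw [kX, h0, mul_zero, zero_mul]
    symm
    refine Finset.sum_eq_zero fun y' hy' ↦ ?_
    rw [Set.indicator_of_notMem, mul_zero, mul_zero]
    intro h
    rw [Set.mem_singleton_iff] at h
    exact hz (h ▸ hy')

theorem integrable_ind (y : Y D.toLevel) :
    Integrable (Set.indicator {y} 1 : Y D.toLevel → ℂ) volume := by
  have h : IntegrableOn (1 : Y D.toLevel → ℂ) {y} volume := by
    rw [Pi.one_def, integrableOn_const_iff]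
    right
    rw [Y_volume_singleton]
    exact ENNReal.one_lt_top
  exact h.integrable_indicator (measurableSet_singleton y)

theorem integral_ind (y : Y D.toLevel) :
    ∫ z, (Set.indicator {y} 1 : Y D.toLevel → ℂ) z = 1 := by
  rw [integral_indicator (measurableSet_singleton y), Pi.one_def, setIntegral_const,
    measureReal_def, Y_volume_singleton]
  simp

/-- the archimedean operator -/
noncomputable def RXI (g : D.I → ℝ → ℂ) (Φ : XI D.toArch → ℂ) (P : XI D.toArch) : ℂ :=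
  ∫ R : XI D.toArch, kXI g P R * Φ R

theorem RXI_eq_RI (g : D.I → ℝ → ℂ) (Φ : XI D.toArch → ℂ) (P : XI D.toArch) :
    RXI g Φ P = RI g Φ P := rfl

/-- continuity in the archimedean variables -/
def CX (ψ : X D → ℂ) : Prop := ∀ y : Y D.toLevel, Continuous fun P : XI D.toArch ↦ ψ (P, y)

theorem NA.cx {ψ : X D → ℂ} (h : NA ψ) : CX ψ := h.cont_left

theorem integrable_term {g : D.I → ℝ → ℂ} (hg : ∀ i, IsTest (g i)) {ψ : X D → ℂ} (hψ : CX ψ)
    (x : X D) (y' : Y D.toLevel) : Integrable (fun z : X D ↦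
      (kXI g x.1 z.1 * ψ (z.1, y')) * Set.indicator {y'} 1 z.2) volume :=
  Integrable.mul_prod (f := fun P : XI D.toArch ↦ kXI g x.1 P * ψ (P, y'))
    (integrable_kXI hg x.1 (hψ y')) (integrable_ind y')

theorem integrable_kX {g : D.I → ℝ → ℂ} (hg : ∀ i, IsTest (g i))
    {κ : Y D.toLevel → Y D.toLevel → ℂ} (hκ : RowFin κ) {ψ : X D → ℂ} (hψ : CX ψ) (x : X D) :
    Integrable (fun z : X D ↦ kX g κ x z * ψ z) volume := by
  have e : (fun z : X D ↦ kX g κ x z * ψ z) = fun z ↦ ∑ y' ∈ (hκ x.2).toFinset,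
      κ x.2 y' * ((kXI g x.1 z.1 * ψ (z.1, y')) * Set.indicator {y'} 1 z.2) :=
    funext fun z ↦ kX_mul_eq g hκ ψ x z
  rw [e]
  exact integrable_finsetSum _ fun y' _ ↦ (integrable_term hg hψ x y').const_mul _

theorem appK_kX {g : D.I → ℝ → ℂ} (hg : ∀ i, IsTest (g i))
    {κ : Y D.toLevel → Y D.toLevel → ℂ} (hκ : RowFin κ) {ψ : X D → ℂ} (hψ : CX ψ) (x : X D) :
    appK volume (kX g κ) ψ x =
      ∑ᶠ y', κ x.2 y' * RXI g (fun P : XI D.toArch ↦ ψ (P, y')) x.1 := by
  have e : (fun z : X D ↦ kX g κ x z * ψ z) = fun z ↦ ∑ y' ∈ (hκ x.2).toFinset,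
      κ x.2 y' * ((kXI g x.1 z.1 * ψ (z.1, y')) * Set.indicator {y'} 1 z.2) :=
    funext fun z ↦ kX_mul_eq g hκ ψ x z
  rw [finsum_eq_sum_of_support_subset (s := (hκ x.2).toFinset)]
  · unfold appK
    rw [e, integral_finsetSum _ fun y' _ ↦ (integrable_term hg hψ x y').const_mul _]
    refine Finset.sum_congr rfl fun y' _ ↦ ?_
    rw [integral_const_mul]
    congr 1
    have h := integral_prod_mul (μ := (volume : Measure (XI D.toArch)))
      (ν := (volume : Measure (Y D.toLevel))) (fun P : XI D.toArch ↦ kXI g x.1 P * ψ (P, y'))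
      (Set.indicator {y'} 1)
    rw [integral_ind, mul_one] at h
    exact h
  · intro y' hy'
    rw [Finset.mem_coe, Set.Finite.mem_toFinset]
    exact left_ne_zero_of_mul hy'

theorem appK_kX_congr {g : D.I → ℝ → ℂ} (hg : ∀ i, IsTest (g i)) {g' : D.I → ℝ → ℂ}
    (hg' : ∀ i, IsTest (g' i)) {κ : Y D.toLevel → Y D.toLevel → ℂ} (hκ : RowFin κ)
    {ψ ψ' : X D → ℂ} (hψ : CX ψ) (hψ' : CX ψ')
    (h : ∀ y P, RXI g (fun Q ↦ ψ (Q, y)) P = RXI g' (fun Q ↦ ψ' (Q, y)) P)
    (x : X D) : appK volume (kX g κ) ψ x = appK volume (kX g' κ) ψ' x := by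
  rw [appK_kX hg hκ hψ, appK_kX hg' hκ hψ']
  exact finsum_congr fun y' ↦ by rw [h]

theorem CX.add {ψ ψ' : X D → ℂ} (h : CX ψ) (h' : CX ψ') : CX (ψ + ψ') := fun y ↦ (h y).add (h' y)

theorem CX.smul {ψ : X D → ℂ} (h : CX ψ) (c : ℂ) : CX (c • ψ) := fun y ↦ (h y).const_smul c

theorem appK_kX_add {g : D.I → ℝ → ℂ} (hg : ∀ i, IsTest (g i))
    {κ : Y D.toLevel → Y D.toLevel → ℂ} (hκ : RowFin κ) {ψ ψ' : X D → ℂ} (hψ : CX ψ) (hψ' : CX ψ')
    (x : X D) : appK volume (kX g κ) (ψ + ψ') x =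
      appK volume (kX g κ) ψ x + appK volume (kX g κ) ψ' x := by
  unfold appK
  rw [← integral_add (integrable_kX hg hκ hψ x) (integrable_kX hg hκ hψ' x)]
  congr 1
  funext z
  rw [Pi.add_apply, mul_add]

theorem appK_smul (k : X D → X D → ℂ) (c : ℂ) (ψ : X D → ℂ) (x : X D) :
    appK volume k (c • ψ) x = c * appK volume k ψ x := by
  unfold appK
  rw [← integral_const_mul]
  congr 1
  funext z
  rw [Pi.smul_apply, smul_eq_mul, mul_left_comm]

theorem appK_zero (k : X D → X D → ℂ) (x : X D) : appK volume k (0 : X D → ℂ) x = 0 := by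
  unfold appK
  simp

/-! ### composition with a Hecke operator -/

theorem rowFin_ker (T : Module.End ℂ (Y D.toLevel →₀ ℂ)) : RowFin (ker T) := support_ker T

theorem act_eq_finsum' (T : Module.End ℂ (Y D.toLevel →₀ ℂ)) (φ : Y D.toLevel → ℂ)
    (y : Y D.toLevel) : act T φ y = ∑ᶠ z, ker T y z * φ z := act_eq_finsum T φ y

theorem finsum_kcomp {A : Type} {κ κ' : A → A → ℂ} (h : RowFin κ) (h' : RowFin κ') (φ : A → ℂ)
    (a : A) : ∑ᶠ b, kcomp κ κ' a b * φ b = ∑ᶠ x, κ a x * ∑ᶠ b, κ' x b * φ b := by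
  classical
  set S := (h a).toFinset with hS
  have hS' : ∀ x, κ a x ≠ 0 → x ∈ S := fun x hx ↦ (h a).mem_toFinset.mpr hx
  set T := S.biUnion fun x ↦ (h' x).toFinset with hT
  have hT' : ∀ x ∈ S, ∀ b, κ' x b ≠ 0 → b ∈ T := fun x hx b hb ↦
    Finset.mem_biUnion.mpr ⟨x, hx, (h' x).mem_toFinset.mpr hb⟩
  rw [finsum_eq_sum_of_support_subset (s := T)]
  · rw [finsum_eq_sum_of_support_subset (s := S)]
    · have e1 : ∀ b, kcomp κ κ' a b * φ b = ∑ x ∈ S, κ a x * (κ' x b * φ b) := by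
        intro b
        rw [kcomp_eq_sum hS', Finset.sum_mul]
        exact Finset.sum_congr rfl fun x _ ↦ mul_assoc _ _ _
      rw [Finset.sum_congr rfl fun b _ ↦ e1 b, Finset.sum_comm]
      refine Finset.sum_congr rfl fun x hx ↦ ?_
      rw [← Finset.mul_sum]
      congr 1
      symm
      exact finsum_eq_sum_of_support_subset _ fun b hb ↦ hT' x hx b (left_ne_zero_of_mul hb)
    · exact fun x hx ↦ hS' x (left_ne_zero_of_mul hx)
  · intro b hb
    have hb' : kcomp κ κ' a b ≠ 0 := left_ne_zero_of_mul hb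
    rw [kcomp_eq_sum hS'] at hb'
    obtain ⟨x, hx, hne⟩ := Finset.exists_ne_zero_of_sum_ne_zero hb'
    exact hT' x hx b (right_ne_zero_of_mul hne)

theorem CX.actX {ψ : X D → ℂ} (h : CX ψ) (T : Module.End ℂ (Y D.toLevel →₀ ℂ)) :
    CX (actX T ψ) := by
  intro y
  have e : (fun P : XI D.toArch ↦ CTree.actX T ψ (P, y)) = fun P ↦
      ∑ z ∈ (T (Finsupp.single y 1)).support, ker T y z * ψ (P, z) := by
    funext P
    exact act_eq_sum T _ y subset_rfl
  rw [e]
  exact continuous_finsetSum _ fun z _ ↦ continuous_const.mul (h z)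

theorem RXI_sum {g : D.I → ℝ → ℂ} (hg : ∀ i, IsTest (g i)) {A : Type}
    (s : Finset A) (c : A → ℂ) (Φ : A → XI D.toArch → ℂ) (hΦ : ∀ a, Continuous (Φ a))
    (P : XI D.toArch) :
    RXI g (fun Q ↦ ∑ a ∈ s, c a * Φ a Q) P = ∑ a ∈ s, c a * RXI g (Φ a) P := by
  unfold RXI
  have e : ∀ Q : XI D.toArch, kXI g P Q * ∑ a ∈ s, c a * Φ a Q = ∑ a ∈ s, c a * (kXI g P Q * Φ a Q) := by
    intro Q
    rw [Finset.mul_sum]
    exact Finset.sum_congr rfl fun a _ ↦ by ring
  rw [integral_congr_ae (Filter.Eventually.of_forall e)]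
  rw [integral_finsetSum _ fun a _ ↦ (integrable_kXI hg P (hΦ a)).const_mul (c a)]
  exact Finset.sum_congr rfl fun a _ ↦ integral_const_mul _ _

/-- composition of the kernel with a Hecke operator -/
theorem appK_kX_kcomp {g : D.I → ℝ → ℂ} (hg : ∀ i, IsTest (g i))
    {κ : Y D.toLevel → Y D.toLevel → ℂ} (hκ : RowFin κ) (T : Module.End ℂ (Y D.toLevel →₀ ℂ))
    {ψ : X D → ℂ} (hψ : CX ψ) (x : X D) :
    appK volume (kX g (kcomp κ (ker T))) ψ x = appK volume (kX g κ) (actX T ψ) x := by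
  rw [appK_kX hg (hκ.kcomp (rowFin_ker T)) hψ, appK_kX hg hκ (hψ.actX T),
    finsum_kcomp hκ (rowFin_ker T)]
  refine finsum_congr fun y ↦ ?_
  congr 1
  have h := RXI_sum hg (T (Finsupp.single y 1)).support (ker T y) (fun z (P : XI D.toArch) ↦ ψ (P, z))
    hψ x.1
  have e : (fun P : XI D.toArch ↦ CTree.actX T ψ (P, y)) = fun P ↦
      ∑ z ∈ (T (Finsupp.single y 1)).support, ker T y z * ψ (P, z) := by
    funext P
    exact act_eq_sum T _ y subset_rfl
  rw [e, h]
  refine finsum_eq_sum_of_support_subset _ fun z hz ↦ ?_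
  rw [Finset.mem_coe, Finsupp.mem_support_iff]
  exact left_ne_zero_of_mul hz

/-! ### translations of the archimedean test functions -/

/-- translations -/
noncomputable def trn : AddMonoidAlgebra ℂ ℝ →ₐ[ℂ] Module.End ℂ (ℝ → ℂ) :=
  AddMonoidAlgebra.lift ℂ _ _
    { toFun := fun a ↦
        { toFun := fun g u ↦ g (u + a.toAdd)
          map_add' := fun _ _ ↦ rfl
          map_smul' := fun _ _ ↦ rfl }
      map_one' := by
        apply LinearMap.ext
        intro g
        funext u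
        change g (u + 0) = g u
        rw [add_zero]
      map_mul' := fun a b ↦ by
        apply LinearMap.ext
        intro g
        funext u
        change g (u + (a.toAdd + b.toAdd)) = g (u + a.toAdd + b.toAdd)
        rw [add_assoc] }

theorem trn_single (a : ℝ) (c : ℂ) (g : ℝ → ℂ) (u : ℝ) :
    trn (AddMonoidAlgebra.single a c) g u = c * g (u + a) := by
  rw [trn, AddMonoidAlgebra.lift_single, LinearMap.smul_apply, Pi.smul_apply, smul_eq_mul]
  rfl

/-- the symmetric two-term element -/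
noncomputable def tt (a : ℝ) : AddMonoidAlgebra ℂ ℝ :=
  AddMonoidAlgebra.single a 1 + AddMonoidAlgebra.single (-a) 1

theorem trn_tt (a : ℝ) (g : ℝ → ℂ) : trn (tt a) g = fun u ↦ g (u + a) + g (u - a) := by
  funext u
  rw [tt, map_add, LinearMap.add_apply, Pi.add_apply, trn_single, trn_single, one_mul, one_mul,
    sub_eq_add_neg]

variable (D) in
/-- translation data -/
abbrev TB : Type := D.I → AddMonoidAlgebra ℂ ℝ

/-- the action of translation data on families of test functions -/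
noncomputable def bact (b : TB D) (g : D.I → ℝ → ℂ) : D.I → ℝ → ℂ := fun i ↦ trn (b i) (g i)

theorem bact_one (g : D.I → ℝ → ℂ) : bact (1 : TB D) g = g := by
  funext i
  rw [bact, Pi.one_apply, map_one]
  rfl

theorem bact_mul (b b' : TB D) (g : D.I → ℝ → ℂ) : bact (b * b') g = bact b (bact b' g) := by
  funext i
  rw [bact, Pi.mul_apply, map_mul]
  rfl

theorem bact_mulSingle (i : D.I) (a : ℝ) (g : D.I → ℝ → ℂ) :
    bact (Pi.mulSingle i (tt a) : TB D) g =
      Function.update g i fun u ↦ g i (u + a) + g i (u - a) := by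
  funext j
  unfold bact
  by_cases hj : j = i
  · subst hj
    rw [Pi.mulSingle_eq_same, Function.update_self, trn_tt]
  · rw [Pi.mulSingle_eq_of_ne hj, Function.update_of_ne hj, map_one]
    rfl

/-! ### matching -/

/-- `(r, T, b)` match: on `N(𝔸)`-invariant functions, the operator with kernel
`kX (b • g) (κ ∘ T)` is the composition of the one with kernel `kX g κ` with the action of `r`. -/
structure Mat (r : AddMonoidAlgebra ℂ (TG D)) (T : HA D.toLevel) (b : TB D) : Prop where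
  test : ∀ g : ℝ → ℂ, IsTest g → ∀ i, IsTest (trn (b i) g)
  eq : ∀ (g : D.I → ℝ → ℂ) (κ : Y D.toLevel → Y D.toLevel → ℂ) (ψ : X D → ℂ),
    (∀ i, IsTest (g i)) → RowFin κ → NA ψ → ∀ x,
      appK volume (kX (bact b g) (kcomp κ (ker (T : Module.End ℂ (Y D.toLevel →₀ ℂ))))) ψ x =
        appK volume (kX g κ) (rho D r ψ) x

theorem Mat.test' {r : AddMonoidAlgebra ℂ (TG D)} {T : HA D.toLevel} {b : TB D} (h : Mat r T b)
    {g : D.I → ℝ → ℂ} (hg : ∀ i, IsTest (g i)) (i : D.I) : IsTest (bact b g i) :=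
  h.test _ (hg i) i

theorem ker_one_eq : ker (1 : Module.End ℂ (Y D.toLevel →₀ ℂ)) = unitK := by
  classical
  funext y z
  unfold ker
  rw [Module.End.one_apply, Finsupp.single_apply]
  by_cases h : y = z
  · rw [if_pos h, h, unitK_self]
  · rw [if_neg h, unitK_ne h]

theorem kcomp_ker_mul (κ : Y D.toLevel → Y D.toLevel → ℂ) (hκ : RowFin κ)
    (T T' : Module.End ℂ (Y D.toLevel →₀ ℂ)) :
    kcomp κ (ker (T * T')) = kcomp (kcomp κ (ker T')) (ker T) := by
  have e : ker (T * T') = kcomp (ker T') (ker T) := by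
    funext y z
    exact ker_mul_finsum T T' y z
  rw [e, kcomp_assoc hκ (rowFin_ker T')]

theorem Mat.one : Mat (1 : AddMonoidAlgebra ℂ (TG D)) 1 1 := by
  refine ⟨fun g hg i ↦ ?_, fun g κ ψ hg hκ hψ x ↦ ?_⟩
  · rw [Pi.one_apply, map_one]
    exact hg
  · rw [bact_one, map_one, OneMemClass.coe_one, ker_one_eq, kcomp_unitK_right]
    rfl

theorem Mat.mul {r r' : AddMonoidAlgebra ℂ (TG D)} {T T' : HA D.toLevel} {b b' : TB D}
    (h : Mat r T b) (h' : Mat r' T' b') : Mat (r * r') (T * T') (b * b') := by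
  refine ⟨fun g hg i ↦ ?_, fun g κ ψ hg hκ hψ x ↦ ?_⟩
  · rw [Pi.mul_apply, map_mul]
    exact h.test _ (h'.test _ hg i) i
  · rw [mul_comm b b', bact_mul, mul_comm T T', MulMemClass.coe_mul, kcomp_ker_mul κ hκ,
      h'.eq (bact b g) _ ψ (h.test' hg) (hκ.kcomp (rowFin_ker _)) hψ x,
      h.eq g κ _ hg hκ (hψ.rho r') x, map_mul]
    rfl

variable (D) in
/-- the submonoid of matching triples -/
def MatS : Submonoid (AddMonoidAlgebra ℂ (TG D) × HA D.toLevel × TB D) where
  carrier := {t | Mat t.1 t.2.1 t.2.2}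
  one_mem' := Mat.one
  mul_mem' := fun h h' ↦ h.mul h'

theorem mem_MatS {t : AddMonoidAlgebra ℂ (TG D) × HA D.toLevel × TB D} :
    t ∈ MatS D ↔ Mat t.1 t.2.1 t.2.2 := Iff.rfl

/-- the Hecke operator `z ^ m + z ^ (-m)` -/
noncomputable def TH {U : Level F} {w : Pl F} (hw : U.n w = 0) (m : ℕ) : HA U :=
  ⟨TE w (fh w m), TE_mem hw (fh_support w m)⟩

theorem mat_fin {w : Pl F} (hw : D.n w = 0) (m : ℕ) :
    Mat (yy (gf D w m)) (TH (U := D.toLevel) hw m) 1 := by
  refine ⟨fun g hg i ↦ ?_, fun g κ ψ hg hκ hψ x ↦ ?_⟩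
  · rw [Pi.one_apply, map_one]
    exact hg
  · rw [bact_one, appK_kX_kcomp hg hκ _ hψ.cx]
    change appK volume (kX g κ) (actX (TE w (fh w m)) ψ) x = _
    rw [hψ.actX_TE hw]

theorem mat_arch (i : D.I) (a : ℝ) : Mat (yy (ga D i a)) 1 (Pi.mulSingle i (tt a)) := by
  have htest : ∀ g : ℝ → ℂ, IsTest g → ∀ j, IsTest (trn ((Pi.mulSingle i (tt a) : TB D) j) g) := by
    intro g hg j
    by_cases hj : j = i
    · subst hj
      rw [Pi.mulSingle_eq_same, trn_tt]
      exact hg.translate a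
    · rw [Pi.mulSingle_eq_of_ne hj, map_one]
      exact hg
  refine ⟨htest, fun g κ ψ hg hκ hψ x ↦ ?_⟩
  rw [OneMemClass.coe_one, ker_one_eq, kcomp_unitK_right]
  refine appK_kX_congr (fun j ↦ htest _ (hg j) j) hg hκ hψ.cx (hψ.rho _).cx (fun y P ↦ ?_) x
  change RXI (bact (Pi.mulSingle i (tt a)) g) _ P = _
  rw [bact_mulSingle]
  exact hψ.RI_translate hg i a P y

end Fermat.Agent.LT.CTree
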