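import Fermat.Agent.LT.CTree.KillNorm
import Fermat.Agent.LT.G.Family

/-!
# LT, piece C: the killed families as formal sums of pure tensors

* `KillData.ps` : the killed family; `killed_ps`, `killed_ps_aPure`;
* `rad_ps`, `unitIR_A`, `A_f_sph` : the shape of its members;
* `appK_ps`, `appK_ps_aPure` : eigenvalues.
-/

set_option autoImplicit false

open NumberField IsDedekindDomain Matrix MeasureTheory
open Polynomial hiding X
open Fermat.LT Fermat.Agent.LT.CArch
open Fermat.Agent.LT.B (IsNB Killed appK TX TY RX updI IsEig IsTestKer)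

namespace Fermat.Agent.LT.CTree

attribute [local instance] KillData.fJf KillData.fJa

section general

variable {F : Type} [Field F] [NumberField F] {D : Datum F}

/-- The killed family, as a formal sum of pure tensors. -/
noncomputable def KillData.ps (k : KillData D) (g : D.I → ℝ → ℂ) (hg : ∀ i, IsTest (g i)) : PS D :=
  ⟨{d // d ∈ (killPoly k.J).support}, inferInstance, fun d ↦ k.co d.1, fun d ↦ k.A g hg d.1⟩

theorem ps_ker (k : KillData D) (g : D.I → ℝ → ℂ) (hg : ∀ i, IsTest (g i)) :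
    (k.ps g hg).ker = fun x y ↦ ∑ d ∈ (killPoly k.J).support, k.co d * (k.A g hg d).ker x y := by
  funext x y
  rw [PS.ker_def]
  exact Finset.sum_coe_sort (killPoly k.J).support fun d ↦ k.co d * (k.A g hg d).ker x y

/-- **The killed family is killed.** -/
theorem killed_ps (k : KillData D) {g : D.I → ℝ → ℂ} (hg : ∀ i, IsTest (g i)) :
    Killed (k.ps g hg).ker := by
  rw [ps_ker]
  exact k.killed_A hg

theorem rad_ps (k : KillData D) {g : D.I → ℝ → ℂ} (hg : ∀ i, IsTest (g i)) : (k.ps g hg).Rad :=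
  fun d i ↦ k.A_rad g hg d.1 i

theorem ps_k (k : KillData D) {g : D.I → ℝ → ℂ} (hg : ∀ i, IsTest (g i)) (d : (k.ps g hg).J) :
    (k.ps g hg).k d = k.A g hg d.1 := rfl

/-- shape of the finite components: spherical at the places of the family, unit elsewhere -/
theorem A_f_sph (k : KillData D) {g : D.I → ℝ → ℂ} (hg : ∀ i, IsTest (g i)) (d : k.J →₀ ℕ)
    (w : Pl F) : (k.A g hg d).f w = unitF (D.H w) ∨ ((∃ j, k.pl j = w) ∧
      (k.A g hg d).f w = sphF w (sf w (k.P d w))) := by
  by_cases h : ∃ j, k.pl j = w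
  · right
    obtain ⟨j, rfl⟩ := h
    exact ⟨⟨j, rfl⟩, tF_good (U := D.toLevel) (k.good j) _⟩
  · push Not at h
    exact Or.inl (k.A_f_eq_unit g hg d h)

theorem cx_of_continuous {φ : X D → ℂ} (h : Continuous φ) : CX φ := fun y ↦
  h.comp (Continuous.prodMk_left y)

/-- **The eigenvalue of the killed family.** -/
theorem appK_ps (k : KillData D) {g : D.I → ℝ → ℂ} (hg : ∀ i, IsTest (g i)) {φ : X D → ℂ}
    (hφ : Continuous φ) {Q : Set (Pl F)} {lam : Pl F → ℂ} {s : D.I → ℂ} (h : IsEig Q lam s φ)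
    (hQ : ∀ j, k.pl j ∈ Q) :
    appK volume (k.ps g hg).ker φ = (k.kval lam s * ∏ i, hat (g i) (s i)) • φ := by
  funext x
  rw [ps_ker, k.appK_A hg (cx_of_continuous hφ) (fun j x ↦ h.hecke _ (hQ j) x) h.arch]
  rfl

end general

section transfer

open Fermat.LT.GeoDatum Fermat.Agent.LT.D

variable {K L : Type} [Field K] [NumberField K] [Field L] [NumberField L] [Algebra K L]
  {C : Cub K L} {G : GeoDatum C} (k : KillData G.DL.toDatum) (h : KillOK k)

theorem ps_aPure {g : G.DL.I → ℝ → ℂ} (hg : ∀ i, IsTest (g i)) :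
    (k.ps g hg).map aPure = (k.normK h).ps (gK g) (isTest_gK hg) := by
  have e : (fun d : {d // d ∈ (killPoly k.J).support} ↦ aPure (k.A g hg d.1)) =
      fun d ↦ (k.normK h).A (gK g) (isTest_gK hg) d.1 := funext fun d ↦ aPure_A k h hg d.1
  change (⟨_, _, _, fun d : {d // d ∈ (killPoly k.J).support} ↦ aPure (k.A g hg d.1)⟩ : PS G.DK) = _
  rw [e]
  rfl

include h in
/-- **The matching family is killed.** -/
theorem killed_ps_aPure {g : G.DL.I → ℝ → ℂ} (hg : ∀ i, IsTest (g i)) :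
    Killed ((k.ps g hg).map aPure).ker := by
  rw [ps_aPure k h hg]
  exact killed_ps _ _

theorem rad_ps_aPure {g : G.DL.I → ℝ → ℂ} (hg : ∀ i, IsTest (g i)) :
    ((k.ps g hg).map aPure).Rad := fun d i ↦ rad_aPure (fun i ↦ k.A_rad g hg d.1 i) i

/-- the eigenvalue of the matching family -/
theorem appK_ps_aPure {g : G.DL.I → ℝ → ℂ} (hg : ∀ i, IsTest (g i)) {φ : X G.DK → ℂ}
    (hφ : Continuous φ) {Q : Set (Pl K)} {lam : Pl K → ℂ} {s : G.DK.I → ℂ} (he : IsEig Q lam s φ)
    (hQ : ∀ j, G.down (k.pl j) ∈ Q) :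
    appK volume ((k.ps g hg).map aPure).ker φ =
      ((k.normK h).kval lam s * ∏ i, hat (gK g i) (s i)) • φ := by
  rw [ps_aPure k h hg]
  exact appK_ps (k.normK h) _ hφ he hQ

include h in
theorem unitIR_A {g : G.DL.I → ℝ → ℂ} (hg : ∀ i, IsTest (g i)) (d : k.J →₀ ℕ) :
    UnitIR (k.A g hg d) where
  inert v hv := k.A_f_eq_unit g hg d fun j hj ↦ h.ne j (by rw [hj]; exact hv.fix)
  ram v hv := k.A_f_eq_unit g hg d fun j hj ↦ h.ne j (by rw [hj]; exact hv.fix)

include h in
theorem unitIR_ps {g : G.DL.I → ℝ → ℂ} (hg : ∀ i, IsTest (g i)) (d : (k.ps g hg).J) :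
    UnitIR ((k.ps g hg).k d) := unitIR_A k h hg d.1

end transfer

end Fermat.Agent.LT.CTree
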