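import Mathlib

/-!
# The killer polynomial (team LT, piece C)

For a commutative ring `R` and a list `l` of elements of `R` we define a polynomial
`killList l ∈ R[X]` such that, for `s s' = 1` and `yᵢ yᵢ' = 1`,
`(killList [y₁ + y₁', …, yₙ + yₙ']).eval (s + s')` is the product over all choices of signs of
`s z + s' z' - 2` with `z = ∏ yᵢ^{±1}`.  In particular it is divisible by `s ∏ yᵢ - 1`.

The universal polynomial in the variables `Y_j`, `j ∈ J`, is `killPoly J : MvPolynomial J ℤ`; it
vanishes at `Y_j = y_j + y_j⁻¹` whenever `∏ y_j = 1`.  Applied to translation operators this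
"kills" all functions invariant under the total translation.
-/

namespace Fermat.Agent.LT.CTree

open Polynomial

noncomputable section

section Norm

variable {R : Type*} [CommRing R]

/-- companion matrix of `α² - X Y α + (X² + Y² - 4)` -/
def compMat (Y : R) : Matrix (Fin 2) (Fin 2) R[X] :=
  !![0, -(X ^ 2 + C Y ^ 2 - 4); 1, X * C Y]

/-- the norm of `p(α)`, where `α² - X Y α + (X² + Y² - 4) = 0` -/
def nrm (Y : R) (p : R[X]) : R[X] := (aeval (compMat Y) p).det

theorem aeval_triangular {A : Type*} [CommRing A] [Algebra R A] (a b : A) (p : R[X]) :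
    ∃ c : A, aeval (!![b, 1; 0, a] : Matrix (Fin 2) (Fin 2) A) p =
      !![aeval b p, c; 0, aeval a p] := by
  induction p using Polynomial.induction_on' with
  | add p q hp hq =>
    obtain ⟨c, hc⟩ := hp
    obtain ⟨d, hd⟩ := hq
    refine ⟨c + d, ?_⟩
    rw [map_add, hc, hd, map_add, map_add]
    ext i j
    fin_cases i <;> fin_cases j <;> simp
  | monomial n r =>
    induction n with
    | zero =>
      refine ⟨0, ?_⟩
      rw [aeval_monomial, pow_zero, mul_one, aeval_monomial, pow_zero, mul_one, aeval_monomial,
        pow_zero, mul_one]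
      ext i j
      fin_cases i <;> fin_cases j <;> simp [Matrix.algebraMap_matrix_apply]
    | succ n ih =>
      obtain ⟨c, hc⟩ := ih
      refine ⟨aeval b (monomial n r) + c * a, ?_⟩
      rw [aeval_monomial] at hc
      rw [aeval_monomial, pow_succ, ← mul_assoc, hc]
      ext i j
      fin_cases i <;> fin_cases j <;>
        simp [Matrix.mul_apply, Fin.sum_univ_two, aeval_monomial, pow_succ, mul_assoc]

theorem det_aeval_companion {A : Type*} [CommRing A] [Algebra R A] (a b : A) (p : R[X]) :
    (aeval (!![0, -(a * b); 1, a + b] : Matrix (Fin 2) (Fin 2) A) p).det =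
      aeval a p * aeval b p := by
  set M : Matrix (Fin 2) (Fin 2) A := !![0, -(a * b); 1, a + b] with hM
  set P : Matrix (Fin 2) (Fin 2) A := !![-a, 1; 1, 0] with hP
  set Q : Matrix (Fin 2) (Fin 2) A := !![0, 1; 1, a] with hQ
  set T : Matrix (Fin 2) (Fin 2) A := !![b, 1; 0, a] with hT
  have hPQ : P * Q = 1 := by
    rw [hP, hQ, Matrix.mul_fin_two, Matrix.one_fin_two]
    congr 1
    simp
  have hMP : M * P = P * T := by
    rw [hM, hP, hT, Matrix.mul_fin_two, Matrix.mul_fin_two]
    congr 1
    simp only [zero_mul, one_mul, mul_one, mul_zero, zero_add, add_zero]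
    ext i j
    fin_cases i <;> fin_cases j <;> simp
  have hconj : ∀ q : R[X], aeval M q * P = P * aeval T q := by
    intro q
    induction q using Polynomial.induction_on' with
    | add p q hp hq => rw [map_add, map_add, add_mul, mul_add, hp, hq]
    | monomial n r =>
      have h1 : ∀ n : ℕ, M ^ n * P = P * T ^ n := by
        intro n
        induction n with
        | zero => rw [pow_zero, pow_zero, one_mul, mul_one]
        | succ n ih => rw [pow_succ, mul_assoc, hMP, ← mul_assoc, ih, mul_assoc, ← pow_succ]
      rw [aeval_monomial, aeval_monomial, mul_assoc, h1, ← mul_assoc, ← mul_assoc]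
      congr 1
      exact Algebra.commutes r P
  obtain ⟨c, hc⟩ := aeval_triangular a b p
  have h2 : aeval M p = P * aeval T p * Q := by
    rw [← hconj, mul_assoc, hPQ, mul_one]
  rw [h2, Matrix.det_mul, Matrix.det_mul, mul_right_comm, ← Matrix.det_mul, hPQ, Matrix.det_one,
    one_mul, hT, hc, Matrix.det_fin_two_of]
  ring

theorem eval_nrm {s s' y y' : R} (hs : s * s' = 1) (hy : y * y' = 1) (p : R[X]) :
    (nrm (y + y') p).eval (s + s') = p.eval (s * y + s' * y') * p.eval (s * y' + s' * y) := by
  have h1 : (nrm (y + y') p).eval (s + s') =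
      ((evalRingHom (s + s')).mapMatrix (aeval (compMat (y + y')) p)).det := by
    rw [← RingHom.map_det]; rfl
  have h2 : (evalRingHom (s + s')).mapMatrix (aeval (compMat (y + y')) p) =
      aeval ((evalRingHom (s + s')).mapMatrix (compMat (y + y'))) p := by
    rw [aeval_def, aeval_def, hom_eval₂]
    congr 1
    ext r i j
    simp only [RingHom.coe_comp, Function.comp_apply, RingHom.mapMatrix_apply, Matrix.map_apply,
      Matrix.algebraMap_matrix_apply]
    split_ifs
    · simp
    · simp
  have h3 : (evalRingHom (s + s')).mapMatrix (compMat (y + y')) =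
      !![0, -((s * y + s' * y') * (s * y' + s' * y)); 1,
        (s * y + s' * y') + (s * y' + s' * y)] := by
    unfold compMat
    ext i j
    fin_cases i <;> fin_cases j
    · simp
    · simp only [coe_evalRingHom, RingHom.mapMatrix_apply, Matrix.map_apply]
      simp
      linear_combination (y ^ 2 + y' ^ 2 - 2) * hs + (s ^ 2 + s' ^ 2 + 0) * hy -
        2 * (hy) + 0 * hs
    · simp
    · simp
      ring
  rw [h1, h2, h3, det_aeval_companion]
  simp only [coe_aeval_eq_eval]

end Norm

section KillList

variable {R : Type*} [CommRing R]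

/-- the killer polynomial of a list -/
def killList : List R → R[X]
  | [] => X - 2
  | Y :: l => nrm Y (killList l)

@[simp] theorem killList_nil : killList ([] : List R) = X - 2 := rfl

theorem killList_cons (Y : R) (l : List R) : killList (Y :: l) = nrm Y (killList l) := rfl

/-- product over all sign choices -/
def prodE : List (R × R) → R → R → R
  | [], s, s' => s + s' - 2
  | p :: l, s, s' => prodE l (s * p.1) (s' * p.2) * prodE l (s * p.2) (s' * p.1)

theorem eval_killList (l : List (R × R)) (hl : ∀ p ∈ l, p.1 * p.2 = 1) {s s' : R}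
    (hs : s * s' = 1) :
    (killList (l.map fun p ↦ p.1 + p.2)).eval (s + s') = prodE l s s' := by
  induction l generalizing s s' with
  | nil => simp [prodE]
  | cons p l ih =>
    have hp := hl p (List.mem_cons_self ..)
    have hl' : ∀ q ∈ l, q.1 * q.2 = 1 := fun q hq ↦ hl q (List.mem_cons_of_mem _ hq)
    rw [List.map_cons, killList_cons, eval_nrm hs hp, prodE,
      ih hl' (s := s * p.1) (s' := s' * p.2) (by linear_combination hp * s * s' + hs),
      ih hl' (s := s * p.2) (s' := s' * p.1) (by linear_combination hp * s * s' + hs)]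

theorem prodE_dvd (l : List (R × R)) (hl : ∀ p ∈ l, p.1 * p.2 = 1) {s s' : R}
    (hs : s * s' = 1) : s * (l.map Prod.fst).prod - 1 ∣ prodE l s s' := by
  induction l generalizing s s' with
  | nil =>
    refine ⟨s' * (s - 1), ?_⟩
    simp only [List.map_nil, List.prod_nil, mul_one, prodE]
    linear_combination (2 - s) * hs
  | cons p l ih =>
    have hp := hl p (List.mem_cons_self ..)
    have hl' : ∀ q ∈ l, q.1 * q.2 = 1 := fun q hq ↦ hl q (List.mem_cons_of_mem _ hq)
    have h1 := ih hl' (s := s * p.1) (s' := s' * p.2) (by linear_combination hp * s * s' + hs)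
    rw [prodE, List.map_cons, List.prod_cons, ← mul_assoc]
    exact Dvd.dvd.mul_right h1 _

/-- nonvanishing at the given system: all the signs `p.1 = ± p.2` squared are equal. -/
theorem prodE_ne_zero {K : Type*} [Field K] (l : List (K × K)) (hl : ∀ p ∈ l, p.1 * p.2 = 1)
    (hsq : ∀ p ∈ l, p.1 ^ 2 = p.2 ^ 2) {s s' : K} (hs : s * s' = 1)
    (hne : (s * (l.map Prod.fst).prod) ^ 2 ≠ 1) : prodE l s s' ≠ 0 := by
  induction l generalizing s s' with
  | nil =>
    simp only [List.map_nil, List.prod_nil, mul_one] at hne
    simp only [prodE]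
    intro h
    apply hne
    have h1 : (s - 1) ^ 2 = 0 := by linear_combination s * h - hs
    have h2 : s = 1 := by linear_combination pow_eq_zero_iff (two_ne_zero) |>.mp h1
    rw [h2, one_pow]
  | cons p l ih =>
    have hp := hl p (List.mem_cons_self ..)
    have hp2 := hsq p (List.mem_cons_self ..)
    have hl' : ∀ q ∈ l, q.1 * q.2 = 1 := fun q hq ↦ hl q (List.mem_cons_of_mem _ hq)
    have hsq' : ∀ q ∈ l, q.1 ^ 2 = q.2 ^ 2 := fun q hq ↦ hsq q (List.mem_cons_of_mem _ hq)
    rw [List.map_cons, List.prod_cons] at hne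
    rw [prodE]
    refine mul_ne_zero (ih hl' hsq' (by linear_combination hp * s * s' + hs) ?_)
      (ih hl' hsq' (by linear_combination hp * s * s' + hs) ?_)
    · rw [mul_assoc]; exact hne
    · intro h
      apply hne
      rw [← h]
      linear_combination (s ^ 2 * ((l.map Prod.fst).prod) ^ 2) * hp2

end KillList

section Naturality

variable {R S : Type*} [CommRing R] [CommRing S]

theorem nrm_map (φ : R →+* S) (Y : R) (p : R[X]) : (nrm Y p).map φ = nrm (φ Y) (p.map φ) := by
  have h1 : (nrm Y p).map φ = ((mapRingHom φ).mapMatrix (aeval (compMat Y) p)).det := by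
    rw [← RingHom.map_det]; rfl
  have h2 : (mapRingHom φ).mapMatrix (aeval (compMat Y) p) =
      aeval ((mapRingHom φ).mapMatrix (compMat Y)) (p.map φ) := by
    rw [aeval_def, aeval_def, hom_eval₂, eval₂_map]
    congr 1
    ext r i j
    simp only [RingHom.coe_comp, Function.comp_apply, RingHom.mapMatrix_apply, Matrix.map_apply,
      Matrix.algebraMap_matrix_apply]
    split_ifs
    · simp
    · simp
  have h3 : (mapRingHom φ).mapMatrix (compMat Y) = compMat (φ Y) := by
    unfold compMat
    ext i j : 2
    fin_cases i <;> fin_cases j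
    · simp
    · simp
    · simp
    · simp
  rw [h1, h2, h3]
  rfl

theorem killList_map (φ : R →+* S) (l : List R) :
    (killList l).map φ = killList (l.map φ) := by
  induction l with
  | nil => simp
  | cons Y l ih => rw [killList_cons, nrm_map, ih, List.map_cons, killList_cons]

end Naturality

section MvPoly

variable (J : Type*) [Fintype J]

/-- the universal killer polynomial in the variables `Y_j`, `j ∈ J`. -/
def killPoly : MvPolynomial J ℤ :=
  (killList ((Finset.univ : Finset J).toList.map MvPolynomial.X)).eval 2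

variable {J}

theorem aeval_killPoly {R : Type*} [CommRing R] (Y : J → R) :
    MvPolynomial.aeval Y (killPoly J) =
      (killList ((Finset.univ : Finset J).toList.map Y)).eval 2 := by
  unfold killPoly
  have h := Polynomial.eval_map (MvPolynomial.aeval Y).toRingHom (2 : R)
    (p := killList ((Finset.univ : Finset J).toList.map (MvPolynomial.X : J → MvPolynomial J ℤ)))
  rw [killList_map, List.map_map] at h
  have h2 : ((MvPolynomial.aeval Y).toRingHom ∘ (MvPolynomial.X : J → MvPolynomial J ℤ) :
      J → R) = Y := by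
    ext j
    exact MvPolynomial.aeval_X Y j
  rw [h2] at h
  rw [h]
  have h3 : (2 : R) = (MvPolynomial.aeval Y).toRingHom (2 : MvPolynomial J ℤ) := by
    rw [map_ofNat]
  rw [h3, Polynomial.eval₂_at_apply]
  rfl

theorem aeval_killPoly_eq {R : Type*} [CommRing R] (y y' : J → R) (h : ∀ j, y j * y' j = 1) :
    MvPolynomial.aeval (fun j ↦ y j + y' j) (killPoly J) =
      prodE ((Finset.univ : Finset J).toList.map fun j ↦ (y j, y' j)) 1 1 := by
  rw [aeval_killPoly]
  have h1 := eval_killList (((Finset.univ : Finset J).toList.map fun j ↦ (y j, y' j)))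
    (by
      intro p hp
      obtain ⟨j, -, rfl⟩ := List.mem_map.mp hp
      exact h j) (s := (1 : R)) (s' := 1) (by ring)
  rw [List.map_map, one_add_one_eq_two] at h1
  exact h1

/-- The killer polynomial is divisible by `∏ y_j - 1`. -/
theorem dvd_aeval_killPoly {R : Type*} [CommRing R] (y y' : J → R) (h : ∀ j, y j * y' j = 1) :
    ∏ j, y j - 1 ∣ MvPolynomial.aeval (fun j ↦ y j + y' j) (killPoly J) := by
  rw [aeval_killPoly_eq y y' h]
  have h1 := prodE_dvd (((Finset.univ : Finset J).toList.map fun j ↦ (y j, y' j)))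
    (by
      intro p hp
      obtain ⟨j, -, rfl⟩ := List.mem_map.mp hp
      exact h j) (s := (1 : R)) (s' := 1) (by ring)
  rw [List.map_map, one_mul] at h1
  have h2 : ((Finset.univ : Finset J).toList.map (Prod.fst ∘ fun j ↦ (y j, y' j))).prod =
      ∏ j, y j := by
    rw [← Finset.prod_map_toList]
    rfl
  rwa [h2] at h1

/-- Nonvanishing of the killer polynomial at a system with `y_j = ±y_j⁻¹` and
`∏ y_j² ≠ 1`. -/
theorem aeval_killPoly_ne_zero {K : Type*} [Field K] (y y' : J → K) (h : ∀ j, y j * y' j = 1)
    (hsq : ∀ j, y j ^ 2 = y' j ^ 2) (hne : (∏ j, y j) ^ 2 ≠ 1) :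
    MvPolynomial.aeval (fun j ↦ y j + y' j) (killPoly J) ≠ 0 := by
  rw [aeval_killPoly_eq y y' h]
  have h2 : (((Finset.univ : Finset J).toList.map fun j ↦ (y j, y' j)).map Prod.fst).prod =
      ∏ j, y j := by
    rw [List.map_map, ← Finset.prod_map_toList]
    rfl
  refine prodE_ne_zero _ ?_ ?_ (by ring) ?_
  · intro p hp
    obtain ⟨j, -, rfl⟩ := List.mem_map.mp hp
    exact h j
  · intro p hp
    obtain ⟨j, -, rfl⟩ := List.mem_map.mp hp
    exact hsq j
  · rw [one_mul, h2]
    exact hne

end MvPoly

end

end Fermat.Agent.LT.CTree
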