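import Fermat.Agent.LT.CTree.RayLip
import Fermat.Agent.Density.EulerIdeal
import Fermat.Agent.Density.Extension

/-!
# LT / C-TREE: existence of the killer element

Let `A`, `B` be disjoint sets of primes of a number field `K`, coprime to `𝔪`, such that the
remaining primes have bounded prime zeta sum and `A` has Dirichlet density `α ∈ (1/2, 1)`. Then
there are `a, b ≡ 1 mod 𝔪`, totally positive, with `(a / b)` supported on `A ∪ B` and
`∑_{w ∈ A} v_w(a / b)` odd.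

Proof (helper22): otherwise `w ↦ -1` (`w ∈ A`), `w ↦ 1` (`w ∈ B`) extends to a ray class
character `ψ` and `|L(s, ψ)| = (s - 1) ^ (2 α - 1 + o(1))`, but `L(s, ψ)` is Lipschitz at `1`.
-/

set_option autoImplicit false
set_option linter.unusedSectionVars false

open NumberField IsDedekindDomain Filter Topology Asymptotics
open Fermat.Agent.Density Fermat.Agent.Density.EulerIdeal Fermat.Agent.Density.RayClassL
open Fermat.Agent.LT.CTree.RayLip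

namespace Fermat.Agent.LT.CTree.KillPrime

noncomputable section

/-! ### extension of characters -/

theorem exists_extension {D T : Type*} [AddCommGroup D] [AddCommGroup T] [DivisibleBy T ℤ]
    (H N : AddSubgroup D) (f : D →+ T) (hf : ∀ d ∈ H, d ∈ N → f d = 0) :
    ∃ χ : D →+ T, (∀ d ∈ H, χ d = f d) ∧ ∀ d ∈ N, χ d = 0 := by
  let φ : H →+ D ⧸ N := (QuotientAddGroup.mk' N).comp H.subtype
  have hker : φ.ker ≤ (f.comp H.subtype).ker := by
    intro h hh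
    rw [AddMonoidHom.mem_ker] at hh ⊢
    exact hf h h.2 ((QuotientAddGroup.eq_zero_iff _).mp hh)
  obtain ⟨h, hh⟩ := (Module.Baer.of_divisible T).extension_property_addMonoidHom
    (QuotientAddGroup.kerLift φ) (QuotientAddGroup.kerLift_injective φ)
    (QuotientAddGroup.lift φ.ker (f.comp H.subtype) hker)
  refine ⟨h.comp (QuotientAddGroup.mk' N), fun d hd ↦ ?_, fun d hd ↦ ?_⟩
  · have h1 := DFunLike.congr_fun hh (QuotientAddGroup.mk (⟨d, hd⟩ : H))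
    exact h1
  · have h1 : (QuotientAddGroup.mk' N) d = 0 := (QuotientAddGroup.eq_zero_iff _).mpr hd
    rw [AddMonoidHom.comp_apply, h1, map_zero]

variable {K : Type*} [Field K] [NumberField K]

/-! ### divisors of ideals -/

/-- the exponent of `w` in `I` -/
def ex (w : HeightOneSpectrum (𝓞 K)) (I : Ideal (𝓞 K)) : ℕ :=
  (Associates.mk w.asIdeal).count (Associates.mk I).factors

theorem ex_mul {I J : Ideal (𝓞 K)} (hI : I ≠ ⊥) (hJ : J ≠ ⊥) (w : HeightOneSpectrum (𝓞 K)) :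
    ex w (I * J) = ex w I + ex w J := by
  unfold ex
  rw [← Associates.mk_mul_mk, Associates.count_mul (Associates.mk_ne_zero.mpr hI)
    (Associates.mk_ne_zero.mpr hJ) w.associates_irreducible]

theorem finite_ex {I : Ideal (𝓞 K)} (hI : I ≠ ⊥) :
    (Function.support fun w : HeightOneSpectrum (𝓞 K) ↦ (ex w I : ℤ)).Finite :=
  Filter.eventually_cofinite.mp (Associates.finite_factors hI)

open Classical in
/-- the divisor of an ideal -/
def dv (I : Ideal (𝓞 K)) : HeightOneSpectrum (𝓞 K) →₀ ℤ :=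
  if h : I = ⊥ then 0 else Finsupp.ofSupportFinite (fun w ↦ (ex w I : ℤ)) (finite_ex h)

theorem dv_apply {I : Ideal (𝓞 K)} (hI : I ≠ ⊥) (w : HeightOneSpectrum (𝓞 K)) :
    dv I w = ex w I := by
  unfold dv
  rw [dif_neg hI]
  rfl

theorem dv_mul {I J : Ideal (𝓞 K)} (hI : I ≠ ⊥) (hJ : J ≠ ⊥) : dv (I * J) = dv I + dv J := by
  ext w
  rw [Finsupp.add_apply, dv_apply hI, dv_apply hJ, dv_apply (mul_ne_zero hI hJ), ex_mul hI hJ]
  push_cast
  rfl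

theorem dv_prime (P : HeightOneSpectrum (𝓞 K)) : dv P.asIdeal = Finsupp.single P 1 := by
  classical
  ext w
  rw [dv_apply P.ne_bot, Finsupp.single_apply]
  unfold ex
  by_cases h : P = w
  · subst h
    rw [if_pos rfl, Associates.count_self P.associates_irreducible, Nat.cast_one]
  · rw [if_neg h, Associates.count_eq_zero_of_ne w.associates_irreducible
      P.associates_irreducible, Nat.cast_zero]
    intro h1
    apply h
    apply HeightOneSpectrum.ext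
    exact (associated_iff_eq.mp (Associates.mk_eq_mk_iff_associated.mp h1)).symm

/-! ### good elements and the subgroups -/

/-- totally positive elements `≡ 1 mod 𝔪` -/
def Good (𝔪 : Ideal (𝓞 K)) (a : 𝓞 K) : Prop :=
  a ≠ 0 ∧ a - 1 ∈ 𝔪 ∧ ∀ φ : K →+* ℝ, 0 < φ (a : K)

theorem Good.mul {𝔪 : Ideal (𝓞 K)} {a b : 𝓞 K} (ha : Good 𝔪 a) (hb : Good 𝔪 b) :
    Good 𝔪 (a * b) := by
  refine ⟨mul_ne_zero ha.1 hb.1, ?_, fun φ ↦ ?_⟩
  · have : a * b - 1 = a * (b - 1) + (a - 1) := by ring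
    rw [this]
    exact 𝔪.add_mem (𝔪.mul_mem_left _ hb.2.1) ha.2.1
  · have h : φ ((a * b : 𝓞 K) : K) = φ (a : K) * φ (b : K) := by simp
    rw [h]
    exact mul_pos (ha.2.2 φ) (hb.2.2 φ)

theorem good_one (𝔪 : Ideal (𝓞 K)) : Good 𝔪 (1 : 𝓞 K) := by
  refine ⟨one_ne_zero, by rw [sub_self]; exact 𝔪.zero_mem, fun φ ↦ ?_⟩
  have h : φ ((1 : 𝓞 K) : K) = 1 := by simp
  rw [h]
  exact zero_lt_one

theorem Good.span_ne_bot {𝔪 : Ideal (𝓞 K)} {a : 𝓞 K} (ha : Good 𝔪 a) :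
    Ideal.span {a} ≠ ⊥ := by
  rw [Ne, Ideal.span_singleton_eq_bot]
  exact ha.1

theorem Good.sup_eq_top {𝔪 : Ideal (𝓞 K)} {a : 𝓞 K} (ha : Good 𝔪 a) :
    Ideal.span {a} ⊔ 𝔪 = ⊤ := by
  rw [Ideal.eq_top_iff_one]
  have h : a + -(a - 1) ∈ Ideal.span {a} ⊔ 𝔪 :=
    Submodule.add_mem_sup (Ideal.mem_span_singleton_self a) (𝔪.neg_mem ha.2.1)
  rwa [show a + -(a - 1) = 1 by ring] at h

theorem dv_span_mul {a b : 𝓞 K} (ha : a ≠ 0) (hb : b ≠ 0) :
    dv (Ideal.span {a * b}) = dv (Ideal.span {a}) + dv (Ideal.span {b}) := by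
  rw [← Ideal.span_singleton_mul_span_singleton, dv_mul]
  · rwa [Ne, Ideal.span_singleton_eq_bot]
  · rwa [Ne, Ideal.span_singleton_eq_bot]

/-- the ray principal divisors -/
def rayP (𝔪 : Ideal (𝓞 K)) : AddSubgroup (HeightOneSpectrum (𝓞 K) →₀ ℤ) where
  carrier := {d | ∃ a b : 𝓞 K, Good 𝔪 a ∧ Good 𝔪 b ∧
    d = dv (Ideal.span {a}) - dv (Ideal.span {b})}
  zero_mem' := ⟨1, 1, good_one 𝔪, good_one 𝔪, (sub_self _).symm⟩
  add_mem' := by
    rintro _ _ ⟨a, b, ha, hb, rfl⟩ ⟨a', b', ha', hb', rfl⟩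
    refine ⟨a * a', b * b', ha.mul ha', hb.mul hb', ?_⟩
    rw [dv_span_mul ha.1 ha'.1, dv_span_mul hb.1 hb'.1]
    abel
  neg_mem' := by
    rintro _ ⟨a, b, ha, hb, rfl⟩
    exact ⟨b, a, hb, ha, (neg_sub _ _)⟩

theorem dv_mem_rayP {𝔪 : Ideal (𝓞 K)} {a : 𝓞 K} (ha : Good 𝔪 a) :
    dv (Ideal.span {a}) ∈ rayP 𝔪 := by
  have h1 : dv (Ideal.span {(1 : 𝓞 K)}) = 0 := by
    have := dv_span_mul (one_ne_zero (α := 𝓞 K)) (one_ne_zero (α := 𝓞 K))
    rw [mul_one] at this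
    exact left_eq_add.mp this
  exact ⟨a, 1, ha, good_one 𝔪, by rw [h1, sub_zero]⟩

/-- divisors supported on `W` -/
def suppOn (W : Set (HeightOneSpectrum (𝓞 K))) :
    AddSubgroup (HeightOneSpectrum (𝓞 K) →₀ ℤ) where
  carrier := {d | ∀ w ∉ W, d w = 0}
  zero_mem' := fun w _ ↦ rfl
  add_mem' := fun {d e} hd he w hw ↦ by rw [Finsupp.add_apply, hd w hw, he w hw, add_zero]
  neg_mem' := fun {d} hd w hw ↦ by rw [Finsupp.neg_apply, hd w hw, neg_zero]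

open Classical in
/-- the total multiplicity over `A` -/
def par (A : Set (HeightOneSpectrum (𝓞 K))) : (HeightOneSpectrum (𝓞 K) →₀ ℤ) →+ ℤ :=
  Finsupp.liftAddHom fun w ↦ if w ∈ A then AddMonoidHom.id ℤ else 0

open Classical in
theorem par_apply (A : Set (HeightOneSpectrum (𝓞 K))) (d : HeightOneSpectrum (𝓞 K) →₀ ℤ) :
    par A d = ∑ w ∈ d.support with w ∈ A, d w := by
  unfold par
  rw [Finsupp.liftAddHom_apply, Finsupp.sum, Finset.sum_filter]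
  refine Finset.sum_congr rfl fun w _ ↦ ?_
  split_ifs <;> rfl

theorem par_single_of_mem {A : Set (HeightOneSpectrum (𝓞 K))} {w : HeightOneSpectrum (𝓞 K)}
    (h : w ∈ A) (n : ℤ) : par A (Finsupp.single w n) = n := by
  unfold par
  rw [Finsupp.liftAddHom_apply_single, if_pos h]
  rfl

theorem par_single_of_notMem {A : Set (HeightOneSpectrum (𝓞 K))} {w : HeightOneSpectrum (𝓞 K)}
    (h : w ∉ A) (n : ℤ) : par A (Finsupp.single w n) = 0 := by
  unfold par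
  rw [Finsupp.liftAddHom_apply_single, if_neg h]
  rfl

/-- the point of order two -/
def half : AddCircle (1 : ℝ) := ((1 / 2 : ℝ) : AddCircle (1 : ℝ))

theorem toCircle_half : ((AddCircle.toCircle half : Circle) : ℂ) = -1 := by
  unfold half
  rw [AddCircle.toCircle_apply_mk, Circle.coe_exp]
  rw [show ((2 * Real.pi / 1 * (1 / 2) : ℝ) : ℂ) * Complex.I = Real.pi * Complex.I by
    push_cast; ring]
  exact Complex.exp_pi_mul_I

theorem two_nsmul_half : (2 : ℤ) • half = 0 := by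
  unfold half
  rw [← AddCircle.coe_zsmul]
  rw [show (2 : ℤ) • (1 / 2 : ℝ) = 1 by simp]
  exact AddCircle.coe_period 1

theorem zsmul_half_of_even {n : ℤ} (h : Even n) : n • half = 0 := by
  obtain ⟨k, rfl⟩ := h
  rw [← two_mul, mul_comm, mul_smul, two_nsmul_half, smul_zero]

/-! ### the ideal character -/

open Classical in
/-- the ideal character attached to a character of the divisor group -/
def psi (𝔪 : Ideal (𝓞 K)) (χ : (HeightOneSpectrum (𝓞 K) →₀ ℤ) →+ AddCircle (1 : ℝ))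
    (I : Ideal (𝓞 K)) : ℂ :=
  if I ≠ ⊥ ∧ I ⊔ 𝔪 = ⊤ then ((AddCircle.toCircle (χ (dv I)) : Circle) : ℂ) else 0

theorem psi_of_coprime {𝔪 : Ideal (𝓞 K)} (χ : (HeightOneSpectrum (𝓞 K) →₀ ℤ) →+ AddCircle (1 : ℝ))
    {I : Ideal (𝓞 K)} (h0 : I ≠ ⊥) (h : I ⊔ 𝔪 = ⊤) :
    psi 𝔪 χ I = ((AddCircle.toCircle (χ (dv I)) : Circle) : ℂ) := by
  unfold psi
  rw [if_pos ⟨h0, h⟩]

theorem mul_sup_eq_top_iff {I J 𝔪 : Ideal (𝓞 K)} :
    I * J ⊔ 𝔪 = ⊤ ↔ I ⊔ 𝔪 = ⊤ ∧ J ⊔ 𝔪 = ⊤ := by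
  rw [← Ideal.isCoprime_iff_sup_eq, ← Ideal.isCoprime_iff_sup_eq, ← Ideal.isCoprime_iff_sup_eq,
    IsCoprime.mul_left_iff]

theorem psi_mul (𝔪 : Ideal (𝓞 K)) (χ : (HeightOneSpectrum (𝓞 K) →₀ ℤ) →+ AddCircle (1 : ℝ))
    (I J : Ideal (𝓞 K)) : psi 𝔪 χ (I * J) = psi 𝔪 χ I * psi 𝔪 χ J := by
  by_cases hI : I ≠ ⊥ ∧ I ⊔ 𝔪 = ⊤
  · by_cases hJ : J ≠ ⊥ ∧ J ⊔ 𝔪 = ⊤
    · rw [psi_of_coprime χ hI.1 hI.2, psi_of_coprime χ hJ.1 hJ.2,
        psi_of_coprime χ (mul_ne_zero hI.1 hJ.1) (mul_sup_eq_top_iff.mpr ⟨hI.2, hJ.2⟩),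
        dv_mul hI.1 hJ.1, map_add, AddCircle.toCircle_add, Circle.coe_mul]
    · have h1 : ¬ (I * J ≠ ⊥ ∧ I * J ⊔ 𝔪 = ⊤) := fun h ↦ hJ
        ⟨right_ne_zero_of_mul h.1, (mul_sup_eq_top_iff.mp h.2).2⟩
      unfold psi
      rw [if_neg h1, if_neg hJ, mul_zero]
  · have h1 : ¬ (I * J ≠ ⊥ ∧ I * J ⊔ 𝔪 = ⊤) := fun h ↦ hI
        ⟨left_ne_zero_of_mul h.1, (mul_sup_eq_top_iff.mp h.2).1⟩
    unfold psi
    rw [if_neg h1, if_neg hI, zero_mul]

theorem norm_psi_le (𝔪 : Ideal (𝓞 K)) (χ : (HeightOneSpectrum (𝓞 K) →₀ ℤ) →+ AddCircle (1 : ℝ))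
    (I : Ideal (𝓞 K)) : ‖psi 𝔪 χ I‖ ≤ 1 := by
  unfold psi
  split_ifs
  · exact (Circle.norm_coe _).le
  · rw [norm_zero]; exact zero_le_one

theorem isRayChar_psi {𝔪 : Ideal (𝓞 K)}
    {χ : (HeightOneSpectrum (𝓞 K) →₀ ℤ) →+ AddCircle (1 : ℝ)} (hχ : ∀ d ∈ rayP 𝔪, χ d = 0) :
    IsRayChar 𝔪 (psi 𝔪 χ) where
  mul := psi_mul 𝔪 χ
  norm_le := norm_psi_le 𝔪 χ
  bad I hI := by
    unfold psi
    rw [if_neg fun h ↦ hI h.2]
  prin a ha0 ha1 hpos := by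
    have hg : Good 𝔪 a := ⟨ha0, ha1, hpos⟩
    rw [psi_of_coprime χ hg.span_ne_bot hg.sup_eq_top, hχ _ (dv_mem_rayP hg),
      AddCircle.toCircle_zero, Circle.coe_one]

/-- `psi` as a monoid with zero homomorphism -/
def psiHom {𝔪 : Ideal (𝓞 K)}
    {χ : (HeightOneSpectrum (𝓞 K) →₀ ℤ) →+ AddCircle (1 : ℝ)} (hχ : ∀ d ∈ rayP 𝔪, χ d = 0) :
    Ideal (𝓞 K) →*₀ ℂ where
  toFun := psi 𝔪 χ
  map_zero' := by
    unfold psi
    rw [if_neg fun h ↦ h.1 rfl]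
  map_one' := by
    have h := (isRayChar_psi hχ).prin 1 one_ne_zero (good_one 𝔪).2.1 (good_one 𝔪).2.2
    rwa [Ideal.span_singleton_one, ← Ideal.one_eq_top] at h
  map_mul' := psi_mul 𝔪 χ

/-! ### the analytic contradiction -/

theorem abs_re_Zψ_sub_le {ψ : Ideal (𝓞 K) →*₀ ℂ} (hψ : ∀ I, ‖ψ I‖ ≤ 1)
    {A B : Set (HeightOneSpectrum (𝓞 K))}
    (hA : ∀ w ∈ A, ψ w.asIdeal = -1) (hB : ∀ w ∈ B, ψ w.asIdeal = 1) {s : ℝ} (hs : 1 < s) :
    |(Zψ ψ s).re - (pzeta K s - 2 * pzetaOn A s)| ≤ 2 * pzetaOn (A ∪ B)ᶜ s := by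
  rw [re_Zψ hψ hs]
  unfold pzeta pzetaOn
  have h1 : Summable fun P : HeightOneSpectrum (𝓞 K) ↦ (ψ P.asIdeal).re * nrm P.asIdeal s := by
    refine Summable.of_norm_bounded (summable_nrm_primes K hs) fun P ↦ ?_
    rw [norm_mul, Real.norm_of_nonneg (nrm_nonneg _ _)]
    exact mul_le_of_le_one_left (nrm_nonneg _ _)
      ((Complex.abs_re_le_norm _).trans (hψ _))
  have h2 := summable_pzetaOn A hs
  have h3 := summable_nrm_primes K hs
  rw [← tsum_mul_left, ← tsum_mul_left, ← h3.tsum_sub (h2.mul_left 2),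
    ← h1.tsum_sub (h3.sub (h2.mul_left 2)), ← Real.norm_eq_abs]
  refine tsum_of_norm_bounded ((summable_pzetaOn (A ∪ B)ᶜ hs).mul_left 2).hasSum fun P ↦ ?_
  have hn := nrm_nonneg P.asIdeal s
  rw [Real.norm_eq_abs]
  by_cases hPA : P ∈ A
  · rw [hA P hPA, Set.indicator_of_mem hPA, Set.indicator_of_notMem (by simp [hPA])]
    simp only [Complex.neg_re, Complex.one_re, mul_zero]
    rw [show -1 * nrm P.asIdeal s - (nrm P.asIdeal s - 2 * nrm P.asIdeal s) = 0 by ring, abs_zero]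
  · rw [Set.indicator_of_notMem hPA]
    by_cases hPB : P ∈ B
    · rw [hB P hPB, Set.indicator_of_notMem (by simp [hPB])]
      simp only [Complex.one_re, mul_zero, sub_zero, one_mul, sub_self, abs_zero, le_refl]
    · rw [Set.indicator_of_mem (by simp [hPA, hPB])]
      have h4 := abs_le.mp ((Complex.abs_re_le_norm _).trans (hψ P.asIdeal))
      rw [mul_zero, sub_zero, ← sub_one_mul, abs_mul, abs_of_nonneg hn]
      refine mul_le_mul_of_nonneg_right ?_ hn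
      rw [abs_le]
      constructor <;> linarith

theorem tendsto_log_inv' : Tendsto (fun s : ℝ ↦ Real.log (1 / (s - 1))) (𝓝[>] 1) atTop := by
  have h1 : Tendsto (fun s : ℝ ↦ s - 1) (𝓝[>] 1) (𝓝[>] 0) := by
    refine tendsto_nhdsWithin_iff.mpr ⟨tendsto_sub_one, ?_⟩
    filter_upwards [self_mem_nhdsWithin] with s hs
    exact sub_pos.mpr (show (1 : ℝ) < s from hs)
  have h2 := (Real.tendsto_log_atTop.comp tendsto_inv_nhdsGT_zero).comp h1
  refine h2.congr fun s ↦ ?_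
  simp only [Function.comp_apply, one_div]

theorem false_of_rayChar {𝔪 : Ideal (𝓞 K)} {ψ : Ideal (𝓞 K) →*₀ ℂ}
    (hψ : IsRayChar 𝔪 (ψ : Ideal (𝓞 K) → ℂ))
    {A B : Set (HeightOneSpectrum (𝓞 K))}
    (hcop : ∀ w ∈ A, w.asIdeal ⊔ 𝔪 = ⊤)
    (hA : ∀ w ∈ A, ψ w.asIdeal = -1) (hB : ∀ w ∈ B, ψ w.asIdeal = 1)
    (hrest : ∃ C : ℝ, ∀ s : ℝ, 1 < s → s ≤ 2 → pzetaOn (A ∪ B)ᶜ s ≤ C)
    {α : ℝ} (hα : 1 / 2 < α) (hα1 : α < 1)
    (hlim : Tendsto (fun s : ℝ ↦ pzetaOn A s / Real.log (1 / (s - 1))) (𝓝[>] 1) (𝓝 α)) :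
    False := by
  -- `A` is nonempty
  obtain ⟨w, hw⟩ : A.Nonempty := by
    by_contra h
    rw [Set.not_nonempty_iff_eq_empty] at h
    have h1 : (fun s : ℝ ↦ pzetaOn A s / Real.log (1 / (s - 1))) = fun _ ↦ 0 := by
      funext s
      unfold pzetaOn
      rw [h]
      simp
    rw [h1] at hlim
    have := tendsto_nhds_unique hlim tendsto_const_nhds
    linarith
  have hne : ψ w.asIdeal ≠ 1 := by
    rw [hA w hw]
    norm_num
  obtain ⟨c, hc⟩ := exists_lip_term hψ w.ne_bot (hcop w hw) hne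
  have hLL : ∀ s : ℝ, ∑' I : Ideal (𝓞 K), term (ψ : Ideal (𝓞 K) → ℂ) s I = LL ψ s := fun s ↦ rfl
  simp only [hLL] at hc
  set ℓ : ℝ → ℝ := fun s ↦ Real.log (1 / (s - 1)) with hℓ
  have hℓtop : Tendsto ℓ (𝓝[>] 1) atTop := tendsto_log_inv'
  have hψle := hψ.norm_le
  -- asymptotics of the logarithm
  have hO : (fun s : ℝ ↦ Real.log ‖LL ψ s‖ - (ℓ s - 2 * pzetaOn A s)) =O[𝓝[>] 1]
      (fun _ ↦ (1 : ℝ)) := by
    obtain ⟨C, hC⟩ := hrest
    have h1 : (fun s : ℝ ↦ Real.log ‖LL ψ s‖ - (pzeta K s - 2 * pzetaOn A s)) =O[𝓝[>] 1]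
        (fun _ ↦ (1 : ℝ)) := by
      refine IsBigO.of_bound (pzeta K 2 + 2 * C) ?_
      filter_upwards [Ioo_mem_nhdsGT (by norm_num : (1 : ℝ) < 2)] with s hs
      rw [norm_one, mul_one, Real.norm_eq_abs]
      have h2 := abs_log_norm_LL_sub_le hψle hs.1
      have h3 := abs_re_Zψ_sub_le hψle hA hB hs.1
      have h4 := hC s hs.1 hs.2.le
      have h5 := abs_add_le (Real.log ‖LL ψ s‖ - (Zψ ψ s).re)
        ((Zψ ψ s).re - (pzeta K s - 2 * pzetaOn A s))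
      rw [sub_add_sub_cancel] at h5
      linarith
    refine (h1.add (pzeta_isBigO K)).congr_left fun s ↦ ?_
    simp only [hℓ]
    ring
  have h1o : (fun _ : ℝ ↦ (1 : ℝ)) =o[𝓝[>] 1] ℓ :=
    (isLittleO_const_left.mpr (Or.inr (tendsto_norm_atTop_atTop.comp hℓtop)))
  have hlim2 : Tendsto (fun s ↦ Real.log ‖LL ψ s‖ / ℓ s) (𝓝[>] 1) (𝓝 (1 - 2 * α)) := by
    have h2 := (hO.trans_isLittleO h1o).tendsto_div_nhds_zero
    have h3 := h2.add ((hlim.const_mul 2).const_sub 1)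
    rw [zero_add] at h3
    refine h3.congr' ?_
    filter_upwards [hℓtop.eventually_gt_atTop 0] with s hs
    have hs' : ℓ s ≠ 0 := hs.ne'
    change (Real.log ‖LL ψ s‖ - (ℓ s - 2 * pzetaOn A s)) / ℓ s +
      (1 - 2 * (pzetaOn A s / ℓ s)) = _
    field_simp
    ring
  -- the limit is zero
  have hbot : Tendsto (fun s ↦ Real.log ‖LL ψ s‖) (𝓝[>] 1) atBot := by
    have h2 := hlim2.neg_mul_atTop (by linarith : 1 - 2 * α < 0) hℓtop
    refine h2.congr' ?_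
    filter_upwards [hℓtop.eventually_gt_atTop 0] with s hs
    exact div_mul_cancel₀ _ hs.ne'
  have hnorm0 : Tendsto (fun s ↦ ‖LL ψ s‖) (𝓝[>] 1) (𝓝 0) := by
    refine (Real.tendsto_exp_atBot.comp hbot).congr' ?_
    filter_upwards [self_mem_nhdsWithin] with s hs
    exact Real.exp_log (norm_pos_iff.mpr (LL_ne_zero hψle hs))
  have hc0 : c = 0 := by
    have h2 := hc.tendsto.norm
    exact norm_eq_zero.mp (tendsto_nhds_unique h2 hnorm0)
  rw [hc0] at hc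
  obtain ⟨k, hk0, hk⟩ := hc.exists_pos
  have hk := hk.bound
  have hle : ∀ᶠ s : ℝ in 𝓝[>] 1, Real.log ‖LL ψ s‖ / ℓ s ≤ Real.log k / ℓ s - 1 := by
    filter_upwards [hk, self_mem_nhdsWithin, hℓtop.eventually_gt_atTop 0] with s hs hs1 hℓs
    have hs1 : 1 < s := hs1
    rw [sub_zero, Real.norm_of_nonneg (by linarith : 0 ≤ s - 1)] at hs
    have h2 := Real.log_le_log (norm_pos_iff.mpr (LL_ne_zero hψle hs1)) hs
    rw [Real.log_mul hk0.ne' (by linarith)] at h2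
    have h3 : Real.log (s - 1) = -ℓ s := by
      simp only [hℓ, one_div, Real.log_inv, neg_neg]
    rw [h3] at h2
    rw [div_sub_one hℓs.ne']
    exact div_le_div_of_nonneg_right (by linarith) hℓs.le
  have hlim3 : Tendsto (fun s ↦ Real.log k / ℓ s - 1) (𝓝[>] 1) (𝓝 (0 - 1)) :=
    (hℓtop.const_div_atTop _).sub_const 1
  have := le_of_tendsto_of_tendsto hlim2 hlim3 hle
  linarith

/-- **Existence of the killer element** (ideal form). -/
theorem exists_killer_elt {𝔪 : Ideal (𝓞 K)}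
    {A B : Set (HeightOneSpectrum (𝓞 K))} (hdis : Disjoint A B)
    (hcop : ∀ w ∈ A ∪ B, w.asIdeal ⊔ 𝔪 = ⊤)
    (hrest : ∃ C : ℝ, ∀ s : ℝ, 1 < s → s ≤ 2 → pzetaOn (A ∪ B)ᶜ s ≤ C)
    {α : ℝ} (hα : 1 / 2 < α) (hα1 : α < 1)
    (hlim : Tendsto (fun s : ℝ ↦ pzetaOn A s / Real.log (1 / (s - 1))) (𝓝[>] 1) (𝓝 α)) :
    ∃ a b : 𝓞 K, Good 𝔪 a ∧ Good 𝔪 b ∧
      (dv (Ideal.span {a}) - dv (Ideal.span {b})) ∈ suppOn (A ∪ B) ∧
      Odd (par A (dv (Ideal.span {a}) - dv (Ideal.span {b}))) := by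
  classical
  by_contra hcon
  push Not at hcon
  let f : (HeightOneSpectrum (𝓞 K) →₀ ℤ) →+ AddCircle (1 : ℝ) :=
    (zmultiplesHom (AddCircle (1 : ℝ)) half).comp (par A)
  have hfa : ∀ d, f d = par A d • half := fun d ↦ rfl
  obtain ⟨χ, hχ1, hχ2⟩ := exists_extension (suppOn (A ∪ B)) (rayP 𝔪) f (by
    rintro _ hd ⟨a, b, ha, hb, rfl⟩
    rw [hfa]
    exact zsmul_half_of_even (Int.not_odd_iff_even.mp (hcon a b ha hb hd)))
  have hsup : ∀ w ∈ A ∪ B, dv w.asIdeal ∈ suppOn (A ∪ B) := by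
    intro w hw v hv
    rw [dv_prime, Finsupp.single_apply, if_neg]
    rintro rfl
    exact hv hw
  refine false_of_rayChar (ψ := psiHom hχ2) (isRayChar_psi hχ2)
    (fun w hw ↦ hcop w (Or.inl hw)) (fun w hw ↦ ?_) (fun w hw ↦ ?_) hrest hα hα1 hlim
  · change psi 𝔪 χ w.asIdeal = -1
    rw [psi_of_coprime χ w.ne_bot (hcop w (Or.inl hw)), hχ1 _ (hsup w (Or.inl hw)), hfa, dv_prime,
      par_single_of_mem hw, one_smul, toCircle_half]
  · change psi 𝔪 χ w.asIdeal = 1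
    rw [psi_of_coprime χ w.ne_bot (hcop w (Or.inr hw)), hχ1 _ (hsup w (Or.inr hw)), hfa, dv_prime,
      par_single_of_notMem (Set.disjoint_right.mp hdis hw), zero_smul, AddCircle.toCircle_zero,
      Circle.coe_one]

end

end Fermat.Agent.LT.CTree.KillPrime
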