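import Fermat.Agent.LT.CTree.HeckeAlg
import Fermat.Agent.LT.Geo.Ops

/-!
# LT, piece C: spherical functions as polynomials in `T₁/√q`

* `sf w P : ℕ → ℂ`, `P : ℂ[X]` : the function of the distance attached to `P(T₁/√q)`;
* `sf_cheb` : `sf w (C_m) = fh w m`;
* `TE_sf` : `TE w (sf w P) = P(TE w (fh w 1))`;
* `convF_sf` : multiplicativity for convolution;
* `opX_sf` : eigenvalues.
-/

set_option autoImplicit false

open NumberField IsDedekindDomain Matrix
open Polynomial hiding X
open Fermat.LT

local notation "𝕏" => (Polynomial.X : Polynomial ℂ)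

namespace Fermat.Agent.LT.CTree

variable {F : Type} [Field F] [NumberField F] {U : Level F} {w : Pl F}

theorem step_add (q : ℂ) (a b : ℕ → ℂ) : step q (a + b) = step q a + step q b := by
  funext n
  cases n with
  | zero => simp only [step, Pi.add_apply]; ring
  | succ n => simp only [step, Pi.add_apply]; ring

theorem step_smul (q c : ℂ) (a : ℕ → ℂ) : step q (c • a) = c • step q a := by
  funext n
  cases n with
  | zero => simp only [step, Pi.smul_apply, smul_eq_mul]; ring
  | succ n => simp only [step, Pi.smul_apply, smul_eq_mul]; ring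

/-- multiplication by `T₁/√q` on functions of the distance -/
noncomputable def stepE (w : Pl F) : Module.End ℂ (ℕ → ℂ) where
  toFun a := (sq w : ℂ)⁻¹ • step (qn w) a
  map_add' a b := by rw [step_add, smul_add]
  map_smul' c a := by rw [step_smul, smul_comm]; rfl

/-- The function of the distance attached to the polynomial `P` in `T₁/√q`. -/
noncomputable def sf (w : Pl F) (P : ℂ[X]) : ℕ → ℂ := aeval (stepE w) P δ₀

theorem sf_one (w : Pl F) : sf w 1 = δ₀ := by
  rw [sf, map_one, Module.End.one_apply]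

theorem sf_add (w : Pl F) (P Q : ℂ[X]) : sf w (P + Q) = sf w P + sf w Q := by
  rw [sf, map_add, LinearMap.add_apply]; rfl

theorem sf_sub (w : Pl F) (P Q : ℂ[X]) : sf w (P - Q) = sf w P - sf w Q := by
  rw [sf, map_sub, LinearMap.sub_apply]; rfl

theorem sf_C (w : Pl F) (a : ℂ) : sf w (C a) = a • δ₀ := by
  rw [sf, aeval_C, Module.algebraMap_end_apply]

theorem sf_mul_X (w : Pl F) (P : ℂ[X]) :
    sf w (P * 𝕏) = (sq w : ℂ)⁻¹ • step (qn w) (sf w P) := by
  rw [mul_comm, sf, map_mul, aeval_X, Module.End.mul_apply]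
  rfl

theorem sf_support (w : Pl F) (P : ℂ[X]) : (sf w P).support.Finite := by
  induction P using Polynomial.induction_on with
  | C a =>
    rw [sf_C]
    exact δ₀_support.subset (Function.support_const_smul_subset _ _)
  | add P Q hP hQ =>
    rw [sf_add]
    exact (hP.union hQ).subset (Function.support_add _ _)
  | monomial n a h =>
    rw [pow_succ, ← mul_assoc, sf_mul_X]
    exact (step_support h).subset (Function.support_const_smul_subset _ _)

theorem sf_cheb (w : Pl F) (m : ℕ) : sf w (Chebyshev.C ℂ m) = fh w m := by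
  have hs : (sq w : ℂ) ≠ 0 := by exact_mod_cast (sq_pos w).ne'
  induction m using Nat.strong_induction_on with
  | _ m ih =>
    match m with
    | 0 =>
      rw [Nat.cast_zero, Chebyshev.C_zero, fh, if_pos rfl]
      have h : (2 : ℂ[X]) = C 2 := (map_ofNat C 2).symm
      rw [h, sf_C]
    | 1 =>
      rw [Nat.cast_one, Chebyshev.C_one, fh_one, ← one_mul 𝕏, sf_mul_X, sf_one]
      congr 1
      funext n
      match n with
      | 0 => simp [step, δ₀, δ₁]
      | 1 => simp [step, δ₀, δ₁]
      | n + 2 => simp [step, δ₀, δ₁]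
    | m + 2 =>
      have e : ((m + 2 : ℕ) : ℤ) = (m : ℤ) + 2 := by push_cast; ring
      have e1 : ((m : ℤ) + 1) = ((m + 1 : ℕ) : ℤ) := by push_cast; ring
      rw [e, Chebyshev.C_add_two, sf_sub, mul_comm, sf_mul_X, e1, ih (m + 1) (by omega),
        ih m (by omega), step_fh, smul_smul, inv_mul_cancel₀ hs, one_smul, add_sub_cancel_right]

/-- `TE w (sf w P) = P(T)` -/
theorem TE_sf (hw : U.n w = 0) (P : ℂ[X]) :
    (TE w (sf w P) : Module.End ℂ (Y U →₀ ℂ)) = aeval (TE w (fh w 1)) P := by
  induction P using Polynomial.induction_on with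
  | C a =>
    rw [sf_C, TE_smul hw a δ₀_support, TE_zero hw, aeval_C, Algebra.algebraMap_eq_smul_one]
  | add P Q hP hQ =>
    rw [sf_add, TE_add hw (sf_support w P) (sf_support w Q), hP, hQ, map_add]
  | monomial n a h =>
    have e : (TE w (fh w 1) : Module.End ℂ (Y U →₀ ℂ)) = (sq w : ℂ)⁻¹ • TE w δ₁ := by
      rw [fh_one, TE_smul hw _ δ₁_support]
    calc (TE w (sf w (C a * 𝕏 ^ (n + 1))) : Module.End ℂ (Y U →₀ ℂ))
        = (sq w : ℂ)⁻¹ • (aeval (TE w (fh w 1)) (C a * 𝕏 ^ n) * TE w δ₁) := by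
          rw [pow_succ, ← mul_assoc, sf_mul_X, TE_smul hw _ (step_support (sf_support w _)),
            ← TE_mul_one hw (sf_support w _), h]
      _ = aeval (TE w (fh w 1)) (C a * 𝕏 ^ n) * TE w (fh w 1) := by
          rw [← mul_smul_comm, ← e]
      _ = aeval (TE w (fh w 1)) (C a * 𝕏 ^ (n + 1)) := by
          rw [pow_succ, ← mul_assoc, map_mul (aeval (TE w (fh w 1))) (C a * 𝕏 ^ n) 𝕏, aeval_X]

theorem TE_sf_mul (hw : U.n w = 0) (P Q : ℂ[X]) :
    (TE w (sf w (P * Q)) : Module.End ℂ (Y U →₀ ℂ)) = TE w (sf w P) * TE w (sf w Q) := by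
  rw [TE_sf hw, TE_sf hw, TE_sf hw, map_mul]

theorem Tl_sf_mul (hw : U.n w = 0) (P Q : ℂ[X]) (φ : Yl U w → ℂ) :
    Tl w (sf w P) (Tl w (sf w Q) φ) = Tl w (sf w (P * Q)) φ := by
  induction P using Polynomial.induction_on with
  | C a =>
    have h : sf w (C a * Q) = a • sf w Q := by
      rw [← smul_eq_C_mul]
      unfold sf
      rw [map_smul, LinearMap.smul_apply]
    rw [sf_C, Tl_smul, Tl_zero' hw, h, Tl_smul]
  | add P P' hP hP' =>
    rw [sf_add, Tl_add hw (sf_support w P) (sf_support w P'), hP, hP', add_mul, sf_add,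
      Tl_add hw (sf_support w _) (sf_support w _)]
  | monomial n a h =>
    rw [pow_succ, ← mul_assoc, sf_mul_X, Tl_smul, ← Tl_one_Tl hw (sf_support w _), h,
      mul_right_comm (C a * 𝕏 ^ n) 𝕏 Q, sf_mul_X, Tl_smul, ← Tl_one_Tl hw (sf_support w _)]

theorem sf_congr {F' : Type} [Field F'] [NumberField F'] {w' : Pl F'} (h : qv w = qv w')
    (P : ℂ[X]) : sf w P = sf w' P := by
  have h1 : (qn w : ℂ) = qn w' := by
    rw [qv_eq, qv_eq] at h
    exact_mod_cast h
  have h2 : sq w = sq w' := by unfold sq; rw [h]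
  induction P using Polynomial.induction_on with
  | C a => rw [sf_C, sf_C]
  | add P P' hP hP' => rw [sf_add, sf_add, hP, hP']
  | monomial n a h => rw [pow_succ, ← mul_assoc, sf_mul_X, sf_mul_X, h, h1, h2]

/-! ### the local factors -/

open Classical in
/-- the local factor: `sf w P` at the good places, the unit at the bad ones -/
noncomputable def tF (U : Level F) (w : Pl F) (P : ℂ[X]) : G2 F → ℂ :=
  if U.n w = 0 then sphF w (sf w P) else unitF (U.H w)

theorem tF_good (hw : U.n w = 0) (P : ℂ[X]) : tF U w P = sphF w (sf w P) := if_pos hw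

theorem tF_bad (hw : U.n w ≠ 0) (P : ℂ[X]) : tF U w P = unitF (U.H w) := if_neg hw

theorem tF_one (U : Level F) (w : Pl F) : tF U w 1 = unitF (U.H w) := by
  by_cases hw : U.n w = 0
  · rw [tF_good hw, sf_one, U.H_eq hw, unitF_stdH_eq]
  · exact tF_bad hw _

theorem biInv_tF (U : Level F) (w : Pl F) (P : ℂ[X]) : BiInv (U.H w) (tF U w P) := by
  by_cases hw : U.n w = 0
  · rw [tF_good hw]
    exact biInv_sphF (U.le_std w) _
  · rw [tF_bad hw]
    exact biInv_unitF _

theorem finS_tF (U : Level F) (w : Pl F) (P : ℂ[X]) : FinS (U.H w) (tF U w P) := by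
  by_cases hw : U.n w = 0
  · rw [tF_good hw]
    exact finS_sphF U (sf_support w P)
  · rw [tF_bad hw]
    exact finS_unitF

theorem convF_tF (U : Level F) (w : Pl F) (P Q : ℂ[X]) :
    convF (U.H w) (tF U w P) (tF U w Q) = tF U w (P * Q) := by
  by_cases hw : U.n w = 0
  · rw [tF_good hw, tF_good hw, tF_good hw]
    have hb := biInv_convF (biInv_sphF (U.le_std w) (sf w P)) (biInv_sphF (U.le_std w) (sf w Q))
    funext g
    rw [← kw_one_left hb g, kw_convF (biInv_sphF (U.le_std w) _) (biInv_sphF (U.le_std w) _),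
      ← kw_one_left (biInv_sphF (U.le_std w) (sf w (P * Q))) g]
    rw [kw_sphF]
    have h := congrFun (Tl_sf_mul hw P Q
      (fun z : Yl U w ↦ unitK z ((g : G2 F) : Yl U w))) ((1 : G2 F) : Yl U w)
    have e : ∀ (a : ℕ → ℂ) (y : Yl U w),
        Tl w a (fun z : Yl U w ↦ unitK z ((g : G2 F) : Yl U w)) y = a (dY w y ((g : G2 F) : Yl U w)) := by
      intro a y
      unfold Tl
      rw [finsum_eq_single _ ((g : G2 F) : Yl U w)]
      · change _ * unitK ((g : G2 F) : Yl U w) ((g : G2 F) : Yl U w) = _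
        rw [unitK_self, mul_one]
      · intro z hz
        change _ * unitK z ((g : G2 F) : Yl U w) = _
        rw [unitK_ne hz, mul_zero]
    rw [e] at h
    rw [← h]
    unfold kcomp Tl
    refine finsum_congr fun x ↦ ?_
    rw [kw_sphF, kw_sphF]
    congr 1
    exact (e (sf w Q) x).symm
  · rw [tF_bad hw, tF_bad hw, tF_bad hw, convF_unitF_left (biInv_unitF _)]

end Fermat.Agent.LT.CTree
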