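import Fermat.Agent.LT.CTree.Killer
import Fermat.Agent.LT.CTree.SphPoly
import Fermat.Agent.LT.B.PiEigen

/-!
# LT, piece C: the killed family as pure tensors

* `pureP a ha P hP` : the pure tensor with finite components `tF w (P w)`;
* `KillData.A`, `KillData.killed_A` : the killed family;
* `KillData.AB`, `KillData.killed_AB` : the same with arbitrary other finite components.
-/

set_option autoImplicit false

open NumberField IsDedekindDomain Matrix MeasureTheory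
open Polynomial hiding X
open Fermat.LT Fermat.Agent.LT.CArch
open Fermat.Agent.LT.B (IsNB Killed appK)
open scoped IsMulCommutative

namespace Fermat.Agent.LT.CTree

variable {F : Type} [Field F] [NumberField F] {D : Datum F}

/-! ### finite kernels given by polynomials -/

variable (D) in
/-- the finite kernel with local components `tF w (P w)` -/
noncomputable def kYP (P : Pl F → ℂ[X]) (x y : Y D.toLevel) : ℂ :=
  ∏ᶠ w, kw (D.H w) (tF D.toLevel w (P w)) (x w) (y w)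

/-- the pure tensor with finite components `tF w (P w)` -/
noncomputable def pureP (a : D.I → H3 → H3 → ℂ) (ha : ∀ i, PPI (a i)) (P : Pl F → ℂ[X])
    (hP : {w | P w ≠ 1}.Finite) : Pure D :=
  Pure.mk' a ha (fun w ↦ tF D.toLevel w (P w)) (fun w ↦ biInv_tF D.toLevel w (P w))
    (fun w ↦ finS_tF D.toLevel w (P w)) (hP.subset fun w hw h ↦ hw (by rw [h, tF_one]))

theorem pureP_kerY (a : D.I → H3 → H3 → ℂ) (ha : ∀ i, PPI (a i)) (P : Pl F → ℂ[X])
    (hP : {w | P w ≠ 1}.Finite) : (pureP a ha P hP).kerY = kYP D P := rfl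

theorem zero_ppi : PPI fun _ _ : H3 ↦ (0 : ℂ) where
  inv _ _ _ := rfl
  cont := continuous_const
  supp := ⟨0, fun _ _ h ↦ absurd rfl h⟩

theorem kYP_mul {P Q : Pl F → ℂ[X]} (hP : {w | P w ≠ 1}.Finite) (hQ : {w | Q w ≠ 1}.Finite) :
    kYP D (P * Q) = kcomp (kYP D P) (kYP D Q) := by
  funext x y
  have h := Pure.kerY_mul (pureP (D := D) (fun _ ↦ fun _ _ ↦ 0) (fun _ ↦ zero_ppi) P hP)
    (pureP (fun _ ↦ fun _ _ ↦ 0) (fun _ ↦ zero_ppi) Q hQ) x y
  rw [pureP_kerY, pureP_kerY] at h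
  refine Eq.trans ?_ h.symm
  unfold kYP Pure.kerY
  refine finprod_congr fun w ↦ ?_
  rw [Pure.mul_f]
  congr 1
  exact (convF_tF D.toLevel w (P w) (Q w)).symm

theorem kYP_one : kYP D 1 = unitK := by
  classical
  funext x y
  unfold kYP
  have e : ∀ w, kw (D.H w) (tF D.toLevel w ((1 : Pl F → ℂ[X]) w)) (x w) (y w) =
      if x w = y w then 1 else 0 := fun w ↦ by
    rw [Pi.one_apply, tF_one, kw_unitF]
  rw [finprod_congr e]
  by_cases h : x = y
  · subst h
    rw [unitK_self]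
    simp
  · rw [unitK_ne h]
    have h2 : ∃ w, x w ≠ y w := by
      by_contra hc
      push Not at hc
      exact h (Y.ext' hc)
    obtain ⟨w, hw⟩ := h2
    refine finprod_eq_zero _ w (if_neg hw) ?_
    refine (x.fin.union y.fin).subset fun v hv ↦ ?_
    by_contra hc
    simp only [Set.mem_union, Set.mem_ofPred_eq, not_or, not_not] at hc
    exact hv (if_pos (by rw [hc.1, hc.2]))

theorem kYP_single {w : Pl F} (hw : D.n w = 0) (Q : ℂ[X]) {P : Pl F → ℂ[X]} (hPw : P w = Q)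
    (hP : ∀ v, v ≠ w → P v = 1) :
    kYP D P = ker (TE w (sf w Q) : Module.End ℂ (Y D.toLevel →₀ ℂ)) := by
  classical
  funext x y
  rw [ker_TE_eq hw (sf_support w Q)]
  unfold kYP
  have e1 : kw (D.H w) (tF D.toLevel w (P w)) (x w) (y w) = sf w Q (dY w (x w) (y w)) := by
    rw [hPw, tF_good (U := D.toLevel) hw]
    exact kw_sphF D.toLevel _ _ _
  have e2 : ∀ v, v ≠ w → kw (D.H v) (tF D.toLevel v (P v)) (x v) (y v) =
      if x v = y v then 1 else 0 := fun v hv ↦ by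
    rw [hP v hv, tF_one, kw_unitF]
  split_ifs with h
  · rw [finprod_eq_single _ w, e1]
    intro v hv
    rw [e2 v hv, if_pos (h v hv)]
  · push Not at h
    obtain ⟨v, hv, hne⟩ := h
    refine finprod_eq_zero _ v ?_ ?_
    · rw [e2 v hv, if_neg hne]
    · refine ((x.fin.union y.fin).union (Set.finite_singleton w)).subset fun u hu ↦ ?_
      by_contra hc
      simp only [Set.mem_union, Set.mem_ofPred_eq, Set.mem_singleton_iff, not_or, not_not] at hc
      apply hu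
      refine (e2 u hc.2).trans ?_
      rw [if_pos (by rw [hc.1.1, hc.1.2])]

variable (D) in
/-- matching between families of polynomials and Hecke operators -/
def MPS : Submonoid ((Pl F → ℂ[X]) × HA D.toLevel) where
  carrier := {t | {w | t.1 w ≠ 1}.Finite ∧
    kYP D t.1 = ker (t.2 : Module.End ℂ (Y D.toLevel →₀ ℂ))}
  one_mem' := by
    refine ⟨?_, ?_⟩
    · simp
    · change kYP D 1 = ker (1 : Module.End ℂ (Y D.toLevel →₀ ℂ))
      rw [kYP_one, ker_one_eq]
  mul_mem' := by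
    rintro ⟨P, T⟩ ⟨Q, T'⟩ ⟨hP, h⟩ ⟨hQ, h'⟩
    refine ⟨(hP.union hQ).subset fun w hw ↦ ?_, ?_⟩
    · by_contra hc
      simp only [Set.mem_union, Set.mem_ofPred_eq, not_or, not_not] at hc
      apply hw
      change P w * Q w = 1
      rw [hc.1, hc.2, one_mul]
    · change kYP D (P * Q) = ker ((T * T' : HA D.toLevel) : Module.End ℂ (Y D.toLevel →₀ ℂ))
      rw [kYP_mul hP hQ, mul_comm T T', MulMemClass.coe_mul]
      change kYP D P = ker (T : Module.End ℂ (Y D.toLevel →₀ ℂ)) at h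
      change kYP D Q = ker (T' : Module.End ℂ (Y D.toLevel →₀ ℂ)) at h'
      rw [h, h']
      funext x y
      exact (ker_mul_finsum _ _ x y).symm

open Classical in
theorem single_mem_PS {w : Pl F} (hw : D.n w = 0) (m : ℕ) :
    ((Pi.mulSingle w (Chebyshev.C ℂ m), TH (U := D.toLevel) hw m) :
      (Pl F → ℂ[X]) × HA D.toLevel) ∈ MPS D := by
  refine ⟨?_, ?_⟩
  · refine (Set.finite_singleton w).subset fun v hv ↦ ?_
    by_contra h
    exact hv (Pi.mulSingle_eq_of_ne h _)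
  · change kYP D (Pi.mulSingle w (Chebyshev.C ℂ m)) = ker (TE w (fh w m))
    rw [← sf_cheb]
    exact kYP_single hw _ (Pi.mulSingle_eq_same _ _) fun v hv ↦ Pi.mulSingle_eq_of_ne hv _

namespace KillData

attribute [local instance] KillData.fJf KillData.fJa

variable (K : KillData D)

open Classical in
/-- the polynomials of a monomial -/
noncomputable def P (d : K.J →₀ ℕ) : Pl F → ℂ[X] :=
  ∏ j : K.Jf, Pi.mulSingle (K.pl j) (Chebyshev.C ℂ (K.en j)) ^ d (Sum.inl j)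

theorem moT_eq (d : K.J →₀ ℕ) :
    K.moT d = ∏ j : K.Jf, TH (U := D.toLevel) (K.good j) (K.en j) ^ d (Sum.inl j) := by
  unfold moT mo
  rw [Prod.snd_prod, Prod.fst_prod, Fintype.prod_sum_type]
  have h : ∀ j : K.Ja, (K.mon (Sum.inr j) ^ d (Sum.inr j)).2.1 = 1 := fun j ↦ by
    rw [Prod.pow_snd, Prod.pow_fst]
    exact one_pow _
  rw [Finset.prod_congr (s₁ := (Finset.univ : Finset K.Ja)) rfl fun j _ ↦ h j,
    Finset.prod_const_one, mul_one]
  rfl

theorem mem_PS (d : K.J →₀ ℕ) : ((K.P d, K.moT d) : (Pl F → ℂ[X]) × HA D.toLevel) ∈ MPS D := by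
  classical
  have e : ((K.P d, K.moT d) : (Pl F → ℂ[X]) × HA D.toLevel) = ∏ j : K.Jf,
      ((Pi.mulSingle (K.pl j) (Chebyshev.C ℂ (K.en j)), TH (U := D.toLevel) (K.good j) (K.en j)) :
        (Pl F → ℂ[X]) × HA D.toLevel) ^ d (Sum.inl j) := by
    refine Prod.ext ?_ ?_
    · rw [Prod.fst_prod, P]
      refine Finset.prod_congr rfl fun j _ ↦ ?_
      rw [Prod.pow_fst]
    · rw [Prod.snd_prod, moT_eq]
      refine Finset.prod_congr rfl fun j _ ↦ ?_
      rw [Prod.pow_snd]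
  rw [e]
  exact (MPS D).prod_mem fun j _ ↦ (MPS D).pow_mem (by
    have h := single_mem_PS (D := D) (K.good j) (K.en j)
    convert h) _

theorem P_fin (d : K.J →₀ ℕ) : {w | K.P d w ≠ 1}.Finite := (K.mem_PS d).1

theorem kYP_P (d : K.J →₀ ℕ) :
    kYP D (K.P d) = ker (K.moT d : Module.End ℂ (Y D.toLevel →₀ ℂ)) := (K.mem_PS d).2

open Classical in
theorem P_apply (d : K.J →₀ ℕ) (w : Pl F) : K.P d w =
    ∏ j : K.Jf, if K.pl j = w then (Chebyshev.C ℂ (K.en j)) ^ d (Sum.inl j) else 1 := by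
  unfold P
  rw [Finset.prod_apply]
  refine Finset.prod_congr rfl fun j _ ↦ ?_
  rw [Pi.pow_apply]
  by_cases h : K.pl j = w
  · rw [if_pos h, ← h, Pi.mulSingle_eq_same]
  · rw [if_neg h, Pi.mulSingle_eq_of_ne (Ne.symm h), one_pow]

theorem P_eq_one (d : K.J →₀ ℕ) {w : Pl F} (h : ∀ j, K.pl j ≠ w) : K.P d w = 1 := by
  classical
  rw [P_apply]
  exact Finset.prod_eq_one fun j _ ↦ if_neg (h j)

/-! ### the killed family -/

/-- The killed family. -/
noncomputable def A (g : D.I → ℝ → ℂ) (hg : ∀ i, IsTest (g i)) (d : K.J →₀ ℕ) : Pure D :=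
  pureP (fun i ↦ radK (bact (K.moB d) g i)) (fun i ↦ radK_ppi (K.test_moB d hg i)) (K.P d)
    (K.P_fin d)

theorem A_a (g : D.I → ℝ → ℂ) (hg : ∀ i, IsTest (g i)) (d : K.J →₀ ℕ) (i : D.I) :
    (K.A g hg d).a i = radK (bact (K.moB d) g i) := rfl

theorem A_f (g : D.I → ℝ → ℂ) (hg : ∀ i, IsTest (g i)) (d : K.J →₀ ℕ) (w : Pl F) :
    (K.A g hg d).f w = tF D.toLevel w (K.P d w) := rfl

theorem A_f_eq_unit (g : D.I → ℝ → ℂ) (hg : ∀ i, IsTest (g i)) (d : K.J →₀ ℕ) {w : Pl F}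
    (h : ∀ j, K.pl j ≠ w) : (K.A g hg d).f w = unitF (D.H w) := by
  rw [A_f, K.P_eq_one d h, tF_one]

theorem A_rad (g : D.I → ℝ → ℂ) (hg : ∀ i, IsTest (g i)) (d : K.J →₀ ℕ) (i : D.I) :
    RadK ((K.A g hg d).a i) := ⟨_, K.test_moB d hg i, rfl⟩

theorem A_ker (g : D.I → ℝ → ℂ) (hg : ∀ i, IsTest (g i)) (d : K.J →₀ ℕ) :
    (K.A g hg d).ker = K.km g unitK d := by
  funext x z
  unfold km kX Pure.ker
  rw [kcomp_unitK_left, ← K.kYP_P]
  rfl

/-- The killed family with arbitrary other finite components. -/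
noncomputable def AB (k₀ : Pure D) (g : D.I → ℝ → ℂ) (hg : ∀ i, IsTest (g i)) (d : K.J →₀ ℕ) :
    Pure D :=
  Pure.mk' (fun i ↦ radK (bact (K.moB d) g i)) (fun i ↦ radK_ppi (K.test_moB d hg i))
    (k₀.mul (K.A g hg d)).f (k₀.mul (K.A g hg d)).f_bi (k₀.mul (K.A g hg d)).f_fin
    (k₀.mul (K.A g hg d)).f_one

theorem AB_a (k₀ : Pure D) (g : D.I → ℝ → ℂ) (hg : ∀ i, IsTest (g i)) (d : K.J →₀ ℕ) (i : D.I) :
    (K.AB k₀ g hg d).a i = radK (bact (K.moB d) g i) := rfl

theorem AB_f (k₀ : Pure D) (g : D.I → ℝ → ℂ) (hg : ∀ i, IsTest (g i)) (d : K.J →₀ ℕ) (w : Pl F) :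
    (K.AB k₀ g hg d).f w = convF (D.H w) (k₀.f w) (tF D.toLevel w (K.P d w)) := rfl

theorem AB_rad (k₀ : Pure D) (g : D.I → ℝ → ℂ) (hg : ∀ i, IsTest (g i)) (d : K.J →₀ ℕ) (i : D.I) :
    RadK ((K.AB k₀ g hg d).a i) := ⟨_, K.test_moB d hg i, rfl⟩

theorem AB_ker (k₀ : Pure D) (g : D.I → ℝ → ℂ) (hg : ∀ i, IsTest (g i)) (d : K.J →₀ ℕ) :
    (K.AB k₀ g hg d).ker = K.km g k₀.kerY d := by
  funext x z
  unfold km kX Pure.ker
  have h : (K.AB k₀ g hg d).kerY = kcomp k₀.kerY (kYP D (K.P d)) := by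
    funext x y
    exact (Pure.kerY_mul k₀ (K.A g hg d) x y).symm
  rw [h, ← K.kYP_P]
  rfl

/-- **The killer theorem for pure tensors.** -/
theorem killed_A {g : D.I → ℝ → ℂ} (hg : ∀ i, IsTest (g i)) :
    Killed (fun x y ↦ ∑ d ∈ (killPoly K.J).support, K.co d * (K.A g hg d).ker x y) := by
  have h := K.killed hg (rowFin_unitK (A := Y D.toLevel))
  have e : (fun x y ↦ ∑ d ∈ (killPoly K.J).support, K.co d * (K.A g hg d).ker x y) =
      K.kk g unitK := by
    funext x y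
    refine Finset.sum_congr rfl fun d _ ↦ ?_
    rw [A_ker]
  rw [e]
  exact h

theorem rowFin_kerY (k : Pure D) : RowFin k.kerY := k.isFinTest.fin

theorem killed_AB (k₀ : Pure D) {g : D.I → ℝ → ℂ} (hg : ∀ i, IsTest (g i)) :
    Killed (fun x y ↦ ∑ d ∈ (killPoly K.J).support, K.co d * (K.AB k₀ g hg d).ker x y) := by
  have h := K.killed hg (rowFin_kerY k₀)
  have e : (fun x y ↦ ∑ d ∈ (killPoly K.J).support, K.co d * (K.AB k₀ g hg d).ker x y) =
      K.kk g k₀.kerY := by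
    funext x y
    refine Finset.sum_congr rfl fun d _ ↦ ?_
    rw [AB_ker]
  rw [e]
  exact h

end KillData

end Fermat.Agent.LT.CTree
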