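import Fermat.Agent.LT.CTree.HeckeAlg
import Fermat.Agent.LT.CTree.KillPoly
import Fermat.Agent.LT.CTree.KillArch
import Fermat.Agent.LT.B.CuspKer
import Fermat.Agent.LT.A.Height

/-!
# LT, piece C: the torus acting on functions on `X D`

* `TG D` : the group `(D.I → ℝ) × (Pl F →₀ ℤ)`;
* `tw g x` : its action on `X D` (scaling of the heights, left multiplication by `dg`);
* `wt g` : the modulus character;
* `rho` : the action of the group algebra on functions;
* `NA ψ` : continuous functions invariant under the adelic unipotent group;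
* `yv`, `rho_yv_TE`, `rho_yv_RI`: Hecke operators and archimedean translation operators on `NA`.
-/

set_option autoImplicit false

open NumberField IsDedekindDomain Matrix MeasureTheory
open Fermat.LT Fermat.Agent.LT.CArch
open Fermat.Agent.LT.B (IsNB Killed appK trX_trX)

namespace Fermat.Agent.LT.CTree

variable {F : Type} [Field F] [NumberField F] {D : Datum F}

/-- the torus -/
abbrev TG (D : Datum F) : Type := (D.I → ℝ) × (Pl F →₀ ℤ)

/-- the finite part, as an element of `GA` -/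
noncomputable def ta (m : Pl F →₀ ℤ) : GA F :=
  ⟨fun w ↦ dg (unif w ^ m w), by
    refine m.support.finite_toSet.subset ?_
    intro w hw
    rw [Finset.mem_coe, Finsupp.mem_support_iff]
    intro h
    apply hw
    change dg (unif w ^ m w) ∈ intGL w
    rw [h, zpow_zero, dg_one]
    exact one_mem _⟩

theorem ta_apply (m : Pl F →₀ ℤ) (w : Pl F) : (ta m).1 w = dg (unif w ^ m w) := rfl

theorem ta_zero : ta (0 : Pl F →₀ ℤ) = 1 := by
  apply Subtype.ext
  funext w
  rw [ta_apply, Finsupp.coe_zero, Pi.zero_apply, zpow_zero, dg_one]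
  rfl

theorem ta_add (m m' : Pl F →₀ ℤ) : ta (m + m') = ta m * ta m' := by
  apply Subtype.ext
  funext w
  change dg _ = dg _ * dg _
  rw [Finsupp.add_apply, _root_.zpow_add, dg_mul]

/-- the action on `X D` -/
noncomputable def tw (g : TG D) (x : X D) : X D := (sclI g.1 x.1, ta g.2 • x.2)

theorem sclI_zero {ι : Type*} (P : ι → H3) : sclI (0 : ι → ℝ) P = P :=
  funext fun i ↦ scl_zero (P i)

theorem sclI_add {ι : Type*} (r s : ι → ℝ) (P : ι → H3) : sclI (r + s) P = sclI r (sclI s P) :=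
  funext fun i ↦ scl_add (r i) (s i) (P i)

theorem tw_zero (x : X D) : tw 0 x = x := by
  refine Prod.ext (sclI_zero _) ?_
  change ta 0 • x.2 = x.2
  rw [ta_zero, one_smul]

theorem tw_add (g g' : TG D) (x : X D) : tw (g + g') x = tw g (tw g' x) := by
  refine Prod.ext (sclI_add _ _ _) ?_
  change ta (g.2 + g'.2) • x.2 = ta g.2 • ta g'.2 • x.2
  rw [ta_add, mul_smul]

theorem continuous_tw (g : TG D) : Continuous (tw g : X D → X D) :=
  ((continuous_sclI g.1).comp continuous_fst).prodMk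
    ((continuous_of_discreteTopology (f := fun y : Y D.toLevel ↦ ta g.2 • y)).comp continuous_snd)

/-- the modulus character -/
noncomputable def wt (g : TG D) : ℂ :=
  (Real.exp (-∑ i, g.1 i) : ℂ) * g.2.prod fun w k ↦ (sq w : ℂ) ^ k

theorem sq_ne_zero (w : Pl F) : (sq w : ℂ) ≠ 0 := by exact_mod_cast (sq_pos w).ne'

theorem wt_zero : wt (0 : TG D) = 1 := by
  unfold wt
  simp

theorem wt_add (g g' : TG D) : wt (g + g') = wt g * wt g' := by
  classical
  unfold wt
  rw [Prod.fst_add, Prod.snd_add, Finsupp.prod_add_index' (fun w ↦ zpow_zero _)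
    (fun w k k' ↦ zpow_add₀ (sq_ne_zero w) k k')]
  have h : Real.exp (-∑ i, (g.1 + g'.1) i) = Real.exp (-∑ i, g.1 i) * Real.exp (-∑ i, g'.1 i) := by
    rw [← Real.exp_add, ← neg_add, ← Finset.sum_add_distrib]
    rfl
  rw [h]
  push_cast
  ring

/-- the torus acting on functions -/
noncomputable def tact (D : Datum F) : Multiplicative (TG D) →* Module.End ℂ (X D → ℂ) where
  toFun g :=
    { toFun := fun ψ x ↦ wt g.toAdd * ψ (tw g.toAdd x)
      map_add' := fun ψ ψ' ↦ funext fun x ↦ mul_add _ _ _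
      map_smul' := fun c ψ ↦ funext fun x ↦ by
        simp only [Pi.smul_apply, smul_eq_mul, RingHom.id_apply]
        ring }
  map_one' := by
    apply LinearMap.ext
    intro ψ
    funext x
    change wt 0 * ψ (tw 0 x) = ψ x
    rw [wt_zero, tw_zero, one_mul]
  map_mul' g g' := by
    apply LinearMap.ext
    intro ψ
    funext x
    change wt (g.toAdd + g'.toAdd) * ψ (tw (g.toAdd + g'.toAdd) x) =
      wt g.toAdd * (wt g'.toAdd * ψ (tw g'.toAdd (tw g.toAdd x)))
    rw [wt_add, add_comm g.toAdd, tw_add, mul_assoc]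

/-- the group algebra acting on functions -/
noncomputable def rho (D : Datum F) : AddMonoidAlgebra ℂ (TG D) →ₐ[ℂ] Module.End ℂ (X D → ℂ) :=
  AddMonoidAlgebra.lift ℂ _ _ (tact D)

theorem rho_single (g : TG D) (c : ℂ) (ψ : X D → ℂ) (x : X D) :
    rho D (AddMonoidAlgebra.single g c) ψ x = c * (wt g * ψ (tw g x)) := by
  rw [rho, AddMonoidAlgebra.lift_single, LinearMap.smul_apply, Pi.smul_apply, smul_eq_mul]
  rfl

/-! ### functions invariant under the adelic unipotent group -/

/-- continuous functions invariant under the adelic unipotent group -/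
structure NA (ψ : X D → ℂ) : Prop where
  cont : Continuous ψ
  tr : ∀ u x, ψ (trX u x) = ψ x
  fin : ∀ (P : XI D.toArch) (y y' : Y D.toLevel), (∀ w, ∃ β : F, y' w = un β • y w) →
    ψ (P, y') = ψ (P, y)

theorem _root_.Fermat.Agent.LT.B.IsNB.na {ψ : X D → ℂ} (h : IsNB ψ) : NA ψ :=
  ⟨h.cont, h.tr, h.fin⟩

theorem NA.congr {ψ : X D → ℂ} (h : NA ψ) {P P' : XI D.toArch} {y y' : Y D.toLevel}
    (hP : ∀ i, (P i).t = (P' i).t) (hy : ∀ w, ∃ β : F, y' w = un β • y w) :
    ψ (P, y) = ψ (P', y') := by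
  rw [h.fin P' y y' hy]
  have e : ((P', y) : X D) = trX (fun i ↦ (P' i).z - (P i).z) (P, y) := by
    refine Prod.ext ?_ rfl
    funext i
    refine H3.ext ?_ ?_
    · change (P' i).z = (P i).z + ((P' i).z - (P i).z)
      ring
    · exact (hP i).symm
  rw [e, h.tr]

/-- the submodule of these functions -/
def NAS (D : Datum F) : Submodule ℂ (X D → ℂ) where
  carrier := {ψ | NA ψ}
  add_mem' := fun {ψ ψ'} h h' ↦ ⟨h.cont.add h'.cont, fun u x ↦ by
    rw [Pi.add_apply, Pi.add_apply, h.tr, h'.tr], fun P y y' hy ↦ by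
    rw [Pi.add_apply, Pi.add_apply, h.fin P y y' hy, h'.fin P y y' hy]⟩
  zero_mem' := ⟨continuous_const, fun _ _ ↦ rfl, fun _ _ _ _ ↦ rfl⟩
  smul_mem' := fun c ψ h ↦ ⟨h.cont.const_smul c, fun u x ↦ by
    rw [Pi.smul_apply, Pi.smul_apply, h.tr], fun P y y' hy ↦ by
    rw [Pi.smul_apply, Pi.smul_apply, h.fin P y y' hy]⟩

theorem NA.tact {ψ : X D → ℂ} (h : NA ψ) (g : TG D) : NA (fun x ↦ wt g * ψ (tw g x)) := by
  refine ⟨continuous_const.mul (h.cont.comp (continuous_tw g)), ?_, ?_⟩
  · intro u x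
    congr 1
    refine h.congr (fun i ↦ rfl) (fun w ↦ ⟨0, ?_⟩)
    rw [un_zero, one_smul]
    rfl
  · intro P y y' hy
    congr 1
    refine (h.congr (fun i ↦ rfl) (fun w ↦ ?_)).symm
    obtain ⟨β, hβ⟩ := hy w
    refine ⟨((unif w ^ g.2 w : Fˣ) : F) * β, ?_⟩
    change dg (unif w ^ g.2 w) • y' w = un _ • dg (unif w ^ g.2 w) • y w
    rw [hβ, ← mul_smul, ← mul_smul, dg_mul_un]

theorem NA.rho {ψ : X D → ℂ} (h : NA ψ) (r : AddMonoidAlgebra ℂ (TG D)) : NA (rho D r ψ) := by
  induction r using AddMonoidAlgebra.induction_on with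
  | of g =>
    have e : CTree.rho D (AddMonoidAlgebra.of ℂ (TG D) (Multiplicative.ofAdd g)) ψ =
        fun x ↦ wt g * ψ (tw g x) := by
      funext x
      rw [AddMonoidAlgebra.of_apply, rho_single, one_mul]
      rfl
    rw [e]
    exact h.tact _
  | add r s hr hs =>
    rw [map_add]
    exact (NAS D).add_mem hr hs
  | smul c r hr =>
    rw [map_smul]
    exact (NAS D).smul_mem c hr

/-! ### Hecke operators on `NA` -/

/-- the element `y + y⁻¹` of the group algebra -/
noncomputable def yy (g : TG D) : AddMonoidAlgebra ℂ (TG D) :=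
  AddMonoidAlgebra.single g 1 + AddMonoidAlgebra.single (-g) 1

theorem rho_yy (g : TG D) (ψ : X D → ℂ) (x : X D) :
    rho D (yy g) ψ x = wt g * ψ (tw g x) + wt (-g) * ψ (tw (-g) x) := by
  rw [yy, map_add, LinearMap.add_apply, Pi.add_apply, rho_single, rho_single, one_mul, one_mul]

theorem NA.nInv {ψ : X D → ℂ} (h : NA ψ) (P : XI D.toArch) (y : Y D.toLevel) (w : Pl F) :
    NInv (fun t : Yl D.toLevel w ↦ ψ (P, upd y w t)) := by
  classical
  intro b t
  refine (h.congr (fun i ↦ rfl) fun v ↦ ?_).symm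
  by_cases hv : v = w
  · subst hv
    exact ⟨b, by rw [upd_same, upd_same]⟩
  · exact ⟨0, by rw [upd_ne _ hv, upd_ne _ hv, un_zero, one_smul]⟩

theorem ta_single_smul (w : Pl F) (k : ℤ) (y : Y D.toLevel) :
    ta (Finsupp.single w k) • y = upd y w (dg (unif w ^ k) • y w) := by
  classical
  refine Y.ext' fun v ↦ ?_
  rw [GA_smul_apply, ta_apply]
  by_cases hv : v = w
  · subst hv
    rw [upd_same, Finsupp.single_eq_same]
  · rw [upd_ne _ hv, Finsupp.single_eq_of_ne hv, zpow_zero, dg_one, one_smul]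

/-- the torus element attached to a finite place -/
noncomputable def gf (D : Datum F) (w : Pl F) (k : ℤ) : TG D := (0, Finsupp.single w k)

theorem wt_gf (w : Pl F) (k : ℤ) : wt (gf D w k) = (sq w : ℂ) ^ k := by
  unfold wt gf
  rw [Finsupp.prod_single_index (zpow_zero _)]
  simp

theorem tw_gf (w : Pl F) (k : ℤ) (x : X D) :
    tw (gf D w k) x = (x.1, upd x.2 w (dg (unif w ^ k) • x.2 w)) := by
  refine Prod.ext (sclI_zero _) ?_
  exact ta_single_smul w k x.2

/-- the operator `T` acting in the finite variables -/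
noncomputable def actX (T : Module.End ℂ (Y D.toLevel →₀ ℂ)) (ψ : X D → ℂ) (x : X D) : ℂ :=
  act T (fun y ↦ ψ (x.1, y)) x.2

theorem NA.actX_TE {ψ : X D → ℂ} (h : NA ψ) {w : Pl F} (hw : D.n w = 0) (m : ℕ) :
    actX (TE w (fh w m)) ψ = CTree.rho D (yy (gf D w m)) ψ := by
  funext x
  have hx : lv w ((unif w ^ m : Fˣ) : F) = -m := by
    rw [Units.val_pow_eq_pow_val, ← zpow_natCast, lv_unif_zpow]
  have hneg : -gf D w (m : ℤ) = gf D w (-(m : ℤ)) := by
    refine Prod.ext neg_zero ?_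
    exact (Finsupp.single_neg _ _).symm
  rw [actX, act_TE hw (fh_support w m), (h.nInv x.1 x.2 w).hecke_fh' hw hx, rho_yy, hneg, wt_gf,
    wt_gf, tw_gf, tw_gf, zpow_natCast, zpow_natCast, _root_.zpow_neg, _root_.zpow_neg, zpow_natCast,
    zpow_natCast, inv_pow]

/-- the torus element attached to an archimedean place -/
noncomputable def ga (D : Datum F) (i : D.I) (a : ℝ) : TG D := (Pi.single i a, 0)

theorem wt_ga (i : D.I) (a : ℝ) : wt (ga D i a) = (Real.exp (-a) : ℂ) := by
  unfold wt ga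
  rw [Finsupp.prod_zero_index, mul_one, Finset.sum_pi_single' , if_pos (Finset.mem_univ _)]

theorem tw_ga (i : D.I) (a : ℝ) (x : X D) : tw (ga D i a) x = (sclI (Pi.single i a) x.1, x.2) := by
  refine Prod.ext rfl ?_
  change ta 0 • x.2 = x.2
  rw [ta_zero, one_smul]

theorem NA.hInvI {ψ : X D → ℂ} (h : NA ψ) (y : Y D.toLevel) :
    HInvI (fun P : XI D.toArch ↦ ψ (P, y)) := by
  intro P P' hP
  exact h.congr hP fun w ↦ ⟨0, by rw [un_zero, one_smul]⟩

theorem NA.cont_left {ψ : X D → ℂ} (h : NA ψ) (y : Y D.toLevel) :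
    Continuous (fun P : XI D.toArch ↦ ψ (P, y)) :=
  h.cont.comp (Continuous.prodMk_left y)

theorem NA.RI_translate {ψ : X D → ℂ} (h : NA ψ) {g : D.I → ℝ → ℂ} (hg : ∀ i, IsTest (g i))
    (i : D.I) (a : ℝ) (P : XI D.toArch) (y : Y D.toLevel) :
    RI (Function.update g i fun u ↦ g i (u + a) + g i (u - a)) (fun Q ↦ ψ (Q, y)) P =
      RI g (fun Q ↦ CTree.rho D (yy (ga D i a)) ψ (Q, y)) P := by
  refine (CTree.RI_translate hg i a (h.cont_left y) (h.hInvI y) P).trans ?_
  congr 1
  funext Q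
  have hneg : -ga D i a = ga D i (-a) := by
    refine Prod.ext ?_ neg_zero
    exact (Pi.single_neg _ _).symm
  rw [rho_yy, hneg, wt_ga, wt_ga, tw_ga, tw_ga, neg_neg]
  rfl

end Fermat.Agent.LT.CTree
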