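import Fermat.Agent.LT.CTree.KillPrime
import Fermat.Agent.LT.CTree.Val


/-!
# LT / C-TREE: existence of the killer element, in the language of `av`, `lv`

* `exists_killer_unit`: `ϖ : Fˣ`, a finite set `S ⊆ A ∪ B` of places with `av w ϖ = 1` off `S`,
  `av w (ϖ - 1) ≤ (q_w⁻¹) ^ (n w)` at the bad places and `∑_{w ∈ S ∩ A} lv w ϖ` odd.


-/

set_option autoImplicit false

open NumberField IsDedekindDomain Filter Topology Asymptotics
open Fermat.LT
open Fermat.Agent.Density Fermat.Agent.Density.EulerIdeal Fermat.Agent.Density.RayClassL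
open Fermat.Agent.LT.CTree.KillPrime

namespace Fermat.Agent.LT.CTree

noncomputable section

variable {F : Type} [Field F] [NumberField F]

theorem lv_algebraMap (w : Pl F) {a : 𝓞 F} (ha : a ≠ 0) :
    lv w (algebraMap (𝓞 F) F a) = -(ex w (Ideal.span {a}) : ℤ) := by
  unfold lv
  rw [HeightOneSpectrum.valuation_of_algebraMap, HeightOneSpectrum.intValuation_if_neg _ ha,
    WithZero.log_exp]
  rfl

theorem av_algebraMap_le_pow_iff (w : Pl F) (a : 𝓞 F) (n : ℕ) :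
    av w (algebraMap (𝓞 F) F a) ≤ (qv w)⁻¹ ^ n ↔ a ∈ w.asIdeal ^ n := by
  rw [← w.intValuation_le_pow_iff_mem]
  by_cases ha : a = 0
  · subst ha
    simp only [map_zero, zero_le, iff_true]
    exact pow_nonneg (inv_nonneg.mpr (qv_pos w).le) _
  · have h0 : (algebraMap (𝓞 F) F a) ≠ 0 := by
      rw [Ne, FaithfulSMul.algebraMap_eq_zero_iff]
      exact ha
    rw [av_eq_zpow w h0, inv_pow, ← zpow_natCast, ← zpow_neg, zpow_le_iff, lv_algebraMap w ha,
      HeightOneSpectrum.intValuation_if_neg _ ha, WithZero.exp_le_exp]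
    rfl

theorem exists_killer_unit {n : Pl F → ℕ} (hn : {w | n w ≠ 0}.Finite)
    {A B : Set (Pl F)} (hdis : Disjoint A B) (hAB : ∀ w ∈ A ∪ B, n w = 0)
    (hrest : ∃ C : ℝ, ∀ s : ℝ, 1 < s → s ≤ 2 → pzetaOn (A ∪ B)ᶜ s ≤ C)
    {α : ℝ} (hα : 1 / 2 < α) (hα1 : α < 1)
    (hlim : Tendsto (fun s : ℝ ↦ pzetaOn A s / Real.log (1 / (s - 1))) (𝓝[>] 1) (𝓝 α)) :
    ∃ (ϖ : Fˣ) (S : Finset (Pl F)), (∀ w ∈ S, w ∈ A ∪ B) ∧ (∀ w ∉ S, av w (ϖ : F) = 1) ∧
      (∀ w, n w ≠ 0 → av w ((ϖ : F) - 1) ≤ (qv w)⁻¹ ^ (n w)) ∧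
      (∀ (T : Finset (Pl F)), (∀ w, w ∈ T ↔ w ∈ S ∧ w ∈ A) → Odd (∑ w ∈ T, lv w (ϖ : F))) := by
  classical
  set 𝔪 : Ideal (𝓞 F) := ∏ w ∈ hn.toFinset, w.asIdeal ^ n w with h𝔪
  have hcop : ∀ w ∈ A ∪ B, w.asIdeal ⊔ 𝔪 = ⊤ := by
    intro w hw
    rw [← Ideal.isCoprime_iff_sup_eq, h𝔪]
    refine IsCoprime.prod_right fun v hv ↦ IsCoprime.pow_right ?_
    have hvw : w ≠ v := by
      rintro rfl
      rw [Set.Finite.mem_toFinset] at hv
      exact hv (hAB w hw)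
    have hmw := w.isMaximal
    have hmv := v.isMaximal
    refine Ideal.isCoprime_of_isMaximal fun h ↦ hvw (HeightOneSpectrum.ext h)
  obtain ⟨a, b, ha, hb, hsupp, hodd⟩ := exists_killer_elt hdis hcop hrest hα hα1 hlim
  have hle : ∀ w, n w ≠ 0 → 𝔪 ≤ w.asIdeal ^ n w := by
    intro w hw
    rw [h𝔪]
    exact Ideal.prod_le_inf.trans (Finset.inf_le (f := fun w : Pl F ↦ w.asIdeal ^ n w)
      (by rw [Set.Finite.mem_toFinset]; exact hw))
  have ha0 : (algebraMap (𝓞 F) F a) ≠ 0 := by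
    rw [Ne, FaithfulSMul.algebraMap_eq_zero_iff]; exact ha.1
  have hb0 : (algebraMap (𝓞 F) F b) ≠ 0 := by
    rw [Ne, FaithfulSMul.algebraMap_eq_zero_iff]; exact hb.1
  set d := dv (Ideal.span {a}) - dv (Ideal.span {b}) with hd
  have hlv : ∀ w : Pl F, lv w ((algebraMap (𝓞 F) F a) * (algebraMap (𝓞 F) F b)⁻¹) = - d w := by
    intro w
    rw [lv_mul w ha0 (inv_ne_zero hb0), lv_inv, lv_algebraMap w ha.1, lv_algebraMap w hb.1, hd,
      Finsupp.sub_apply, dv_apply ha.span_ne_bot, dv_apply hb.span_ne_bot]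
    ring
  refine ⟨Units.mk0 ((algebraMap (𝓞 F) F a) * (algebraMap (𝓞 F) F b)⁻¹)
    (mul_ne_zero ha0 (inv_ne_zero hb0)), d.support, fun w hw ↦ ?_, fun w hw ↦ ?_,
    fun w hw ↦ ?_, fun T hT ↦ ?_⟩
  · by_contra h
    exact Finsupp.mem_support_iff.mp hw (hsupp w h)
  · rw [Units.val_mk0, av_eq_zpow w (mul_ne_zero ha0 (inv_ne_zero hb0)), hlv,
      Finsupp.notMem_support_iff.mp hw, neg_zero, zpow_zero]
  · rw [Units.val_mk0]
    have h1 : (algebraMap (𝓞 F) F a) * (algebraMap (𝓞 F) F b)⁻¹ - 1 =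
        algebraMap (𝓞 F) F (a - b) * (algebraMap (𝓞 F) F b)⁻¹ := by
      rw [map_sub, sub_mul, mul_inv_cancel₀ hb0]
    have h2 : av w (algebraMap (𝓞 F) F b) = 1 := by
      apply le_antisymm (av_algebraMap_le_one w b)
      rw [← not_lt, av_algebraMap_lt_one_iff]
      intro h3
      have h4 : b - 1 ∈ w.asIdeal := Ideal.pow_le_self hw (hle w hw hb.2.1)
      have h5 : (1 : 𝓞 F) ∈ w.asIdeal := by
        have := w.asIdeal.sub_mem h3 h4
        rwa [sub_sub_cancel] at this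
      exact w.isPrime.ne_top ((Ideal.eq_top_iff_one _).mpr h5)
    rw [h1, map_mul, map_inv₀, h2, inv_one, mul_one, av_algebraMap_le_pow_iff]
    have h6 : a - b = (a - 1) - (b - 1) := by ring
    rw [h6]
    exact Ideal.sub_mem _ (hle w hw ha.2.1) (hle w hw hb.2.1)
  · rw [Units.val_mk0]
    have hT' : T = {w ∈ d.support | w ∈ A} := by
      ext w
      rw [hT, Finset.mem_filter]
    rw [hT', Finset.sum_congr rfl fun w _ ↦ hlv w, Finset.sum_neg_distrib, ← par_apply]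
    exact hodd.neg

end

end Fermat.Agent.LT.CTree
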