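import Fermat.Agent.LT.CTree.KillOp

/-!
# LT, piece C: the killer

* `KillData D` : a finite family of good places (with multiplicities) and of archimedean shifts whose
  product is given by an element `ϖ` of `Fˣ` close to `1` at the bad places;
* `KillData.mon` : the monomials;
* `KillData.kk` : the killed kernel;
* `KillData.killed` : it annihilates all `N(𝔸) B(F)`-invariant functions.
-/

set_option autoImplicit false

open NumberField IsDedekindDomain Matrix MeasureTheory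
open Fermat.LT Fermat.Agent.LT.CArch
open Fermat.Agent.LT.B (IsNB Killed appK)
open scoped IsMulCommutative

namespace Fermat.Agent.LT.CTree

variable {F : Type} [Field F] [NumberField F] {D : Datum F}

/-- Data for the killer. -/
structure KillData (D : Datum F) where
  /-- index set of the finite places -/
  Jf : Type
  /-- index set of the archimedean places -/
  Ja : Type
  fJf : Fintype Jf
  fJa : Fintype Ja
  /-- the places -/
  pl : Jf → Pl F
  /-- the exponents -/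
  e : Jf → ℤ
  good : ∀ j, D.n (pl j) = 0
  /-- the archimedean places -/
  ar : Ja → D.I
  /-- the shifts -/
  sh : Ja → ℝ
  /-- the element -/
  ϖ : Fˣ
  ord : ∀ w, D.n w = 0 → (∑ j, Finsupp.single (pl j) (e j)) w = -lv w (ϖ : F)
  bad : ∀ w, D.n w ≠ 0 → av w ((ϖ : F) - 1) ≤ (qv w)⁻¹ ^ D.n w
  arch : ∀ i, (∑ j, Pi.single (ar j) (sh j) : D.I → ℝ) i = Real.log ‖D.emb i (ϖ : F)‖

attribute [local instance] KillData.fJf KillData.fJa

namespace KillData

variable (K : KillData D)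

/-- the index set -/
abbrev J : Type := K.Jf ⊕ K.Ja

/-- the torus elements -/
noncomputable def gj : K.J → TG D :=
  Sum.elim (fun j ↦ gf D (K.pl j) (K.e j)) (fun j ↦ ga D (K.ar j) (K.sh j))

/-- the product of all torus elements -/
noncomputable def tot : TG D := ∑ j, K.gj j

theorem tot_fst (i : D.I) : K.tot.1 i = Real.log ‖D.emb i (K.ϖ : F)‖ := by
  rw [← K.arch i, tot, Fintype.sum_sum_type, Prod.fst_add, Prod.fst_sum, Prod.fst_sum]
  have h : ∀ j, (K.gj (Sum.inl j)).1 = 0 := fun j ↦ rfl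
  rw [Finset.sum_congr rfl fun j _ ↦ h j, Finset.sum_const_zero, zero_add]
  rfl

theorem tot_snd : K.tot.2 = ∑ j, Finsupp.single (K.pl j) (K.e j) := by
  rw [tot, Fintype.sum_sum_type, Prod.snd_add, Prod.snd_sum, Prod.snd_sum]
  have h : ∀ j, (K.gj (Sum.inr j)).2 = 0 := fun j ↦ rfl
  rw [Finset.sum_congr (s₁ := (Finset.univ : Finset K.Ja)) rfl fun j _ ↦ h j,
    Finset.sum_const_zero, add_zero]
  rfl

theorem tot_good {w : Pl F} (hw : D.n w = 0) : K.tot.2 w = -lv w (K.ϖ : F) := by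
  rw [tot_snd, K.ord w hw]

theorem tot_bad {w : Pl F} (hw : D.n w ≠ 0) : K.tot.2 w = 0 := by
  rw [tot_snd, Finsupp.finsetSum_apply]
  refine Finset.sum_eq_zero fun j _ ↦ ?_
  rw [Finsupp.single_eq_of_ne]
  rintro rfl
  exact hw (K.good j)

theorem av_bad {w : Pl F} (hw : D.n w ≠ 0) : av w (K.ϖ : F) = 1 := by
  have h1 : av w ((K.ϖ : F) - 1) < av w (1 : F) := by
    rw [map_one]
    refine (K.bad w hw).trans_lt ?_
    exact pow_lt_one₀ (inv_nonneg.mpr (qv_pos w).le) (inv_lt_one_of_one_lt₀ (one_lt_qv w)) hw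
  have h2 := av_add_eq_of_lt w h1
  rwa [sub_add_cancel, map_one] at h2

theorem av_eq_sq (w : Pl F) : av w (K.ϖ : F) = (((sq w) ^ K.tot.2 w) ^ 2)⁻¹ := by
  have hs := sq_sq w
  by_cases hw : D.n w = 0
  · rw [K.tot_good hw, av_eq_zpow w K.ϖ.ne_zero, ← hs, ← zpow_natCast, ← zpow_natCast,
      ← _root_.zpow_mul, ← _root_.zpow_mul, ← _root_.zpow_neg]
    congr 1
    push_cast
    ring
  · rw [K.tot_bad hw, K.av_bad hw, zpow_zero, one_pow, inv_one]

theorem wt_tot : wt K.tot = 1 := by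
  have hemb : ∀ i, 0 < ‖D.emb i (K.ϖ : F)‖ := fun i ↦
    norm_pos_iff.mpr ((map_ne_zero _).mpr K.ϖ.ne_zero)
  -- the real weight
  set A : ℝ := Real.exp (-∑ i, K.tot.1 i) with hA
  set B : ℝ := K.tot.2.prod fun w k ↦ (sq w) ^ k with hB
  have hw : wt K.tot = ((A * B : ℝ) : ℂ) := by
    unfold wt
    rw [hA, hB, Finsupp.prod, Finsupp.prod]
    push_cast
    rfl
  have hA' : A = (∏ i, ‖D.emb i (K.ϖ : F)‖)⁻¹ := by
    rw [hA, Real.exp_neg, Real.exp_sum]
    congr 1
    refine Finset.prod_congr rfl fun i _ ↦ ?_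
    rw [K.tot_fst, Real.exp_log (hemb i)]
  have hB' : ∏ᶠ w : Pl F, av w (K.ϖ : F) = (B ^ 2)⁻¹ := by
    rw [finprod_eq_prod_of_mulSupport_subset (s := K.tot.2.support)]
    · rw [hB, Finsupp.prod, ← Finset.prod_pow, ← Finset.prod_inv_distrib]
      exact Finset.prod_congr rfl fun w _ ↦ K.av_eq_sq w
    · intro w hw
      rw [Finset.mem_coe, Finsupp.mem_support_iff]
      intro h
      apply hw
      change av w (K.ϖ : F) = 1
      rw [K.av_eq_sq, h, zpow_zero, one_pow, inv_one]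
  have hprod := prod_formula D.toArch (x := (K.ϖ : F)) K.ϖ.ne_zero
  rw [hB', Finset.prod_pow] at hprod
  have hA0 : 0 < A := Real.exp_pos _
  have hB0 : 0 < B := by
    rw [hB, Finsupp.prod]
    exact Finset.prod_pos fun w _ ↦ zpow_pos (sq_pos w) _
  have hAB : (A * B) ^ 2 = 1 := by
    have h1 : (∏ i, ‖D.emb i (K.ϖ : F)‖) = A⁻¹ := by rw [hA', inv_inv]
    rw [h1, inv_pow, ← mul_inv, ← mul_pow] at hprod
    exact inv_eq_one.mp hprod
  have h1 : A * B = 1 := by
    rw [pow_eq_one_iff_of_nonneg (mul_pos hA0 hB0).le two_ne_zero] at hAB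
    exact hAB
  rw [hw, h1, Complex.ofReal_one]

/-! ### comparison with `dg ϖ` -/

theorem exists_un_good {U : Level F} {w : Pl F} (hw : U.n w = 0) {x x' : Fˣ}
    (hx : lv w (x : F) = lv w (x' : F)) (y : Yl U w) : ∃ β : F, dg x • y = un β • dg x' • y := by
  obtain ⟨a, b, rfl⟩ := exists_tri_rep hw y
  refine ⟨x * b - x' * b, ?_⟩
  change ((dg x * tri a b : G2 F) : Yl U w) = ((un _ * (dg x' * tri a b) : G2 F) : Yl U w)
  have e1 : un ((x : F) * b - x' * b) * (dg x' * tri a b) = un ((x : F) * b) * dg (x' * a) := by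
    rw [dg_mul_tri, un_eq_tri, tri_mul, un_eq_tri, dg_eq_tri, tri_mul]
    congr 1
    · rw [Units.val_one]
      ring
  have e2 : dg x * tri a b = un ((x : F) * b) * dg (x * a) := by
    rw [dg_mul_tri]
    rfl
  rw [e1, e2, QuotientGroup.eq, U.H_eq hw]
  have e3 : (un ((x : F) * b) * dg (x * a))⁻¹ * (un ((x : F) * b) * dg (x' * a)) =
      (dg (x * a))⁻¹ * dg (x' * a) := by group
  rw [e3, ← dn_eq_zero_iff, dn_eq_iff, pow_zero]
  have e : (dg (x * a))⁻¹ * dg (x' * a) = tri (x⁻¹ * x') 0 := by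
    rw [dg_eq_tri, dg_eq_tri, tri_inv, tri_mul]
    congr 1
    · rw [_root_.mul_inv_rev, mul_comm a⁻¹, mul_comm x' a, mul_assoc, inv_mul_cancel_left]
    · ring
  have hav : av w ((x⁻¹ * x' : Fˣ) : F) = 1 := by
    rw [Units.val_mul, Units.val_inv_eq_inv_val, map_mul, map_inv₀, av_eq_zpow w x.ne_zero,
      av_eq_zpow w x'.ne_zero, hx, inv_mul_cancel₀]
    exact zpow_ne_zero _ (qv_pos w).ne'
  rw [e, dd_tri, hav, map_zero]
  norm_num

theorem dg_mem_congGL {w : Pl F} {n : ℕ} {u : Fˣ} (hn : n ≠ 0)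
    (hu : av w ((u : F) - 1) ≤ (qv w)⁻¹ ^ n) : dg u ∈ congGL w n := by
  have h1 : av w ((u : F) - 1) < av w (1 : F) := by
    rw [map_one]
    refine hu.trans_lt ?_
    exact pow_lt_one₀ (inv_nonneg.mpr (qv_pos w).le) (inv_lt_one_of_one_lt₀ (one_lt_qv w)) hn
  have h2 := av_add_eq_of_lt w h1
  rw [sub_add_cancel, map_one] at h2
  refine ⟨dg_mem_intGL w h2, ?_⟩
  rw [nm_le_iff]
  have h0 : 0 ≤ (qv w)⁻¹ ^ n := pow_nonneg (inv_nonneg.mpr (qv_pos w).le) n
  have e : (dg u).1 - 1 = !![(u : F) - 1, 0; 0, 0] := by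
    rw [dg_val]
    ext i j
    fin_cases i <;> fin_cases j <;> simp
  intro i j
  rw [e]
  fin_cases i <;> fin_cases j
  · exact hu
  all_goals
    change av w 0 ≤ _
    rw [map_zero]
    exact h0

theorem exists_un_bad {U : Level F} {w : Pl F} (hw : U.n w ≠ 0) {u : Fˣ}
    (hu : av w ((u : F) - 1) ≤ (qv w)⁻¹ ^ U.n w) (y : Yl U w) : ∃ β : F, y = un β • dg u • y := by
  obtain ⟨g, rfl⟩ := QuotientGroup.mk_surjective y
  obtain ⟨a, b, h, hh, rfl⟩ := exists_tri w g
  obtain ⟨c, hc⟩ := (mem_stdH_iff w h).mp hh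
  refine ⟨b - u * b, ?_⟩
  change ((tri a b * h : G2 F) : Yl U w) = ((un _ * (dg u * (tri a b * h)) : G2 F) : Yl U w)
  rw [QuotientGroup.eq]
  have e1 : un (b - (u : F) * b) * (dg u * (tri a b * h)) = tri a b * dg u * h := by
    rw [← mul_assoc (dg u), ← mul_assoc, dg_mul_tri, un_eq_tri, tri_mul, dg_eq_tri, tri_mul]
    congr 2
    · rw [one_mul, mul_comm]
    · rw [Units.val_one]
      ring
  have e2 : (tri a b * h)⁻¹ * (un (b - (u : F) * b) * (dg u * (tri a b * h))) =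
      (sc c⁻¹ * h)⁻¹ * dg u * (sc c⁻¹ * h) := by
    rw [e1, _root_.mul_inv_rev (sc c⁻¹), sc_comm c⁻¹ h, ]
    have : h⁻¹ * (sc c⁻¹)⁻¹ * dg u * (h * sc c⁻¹) =
        h⁻¹ * ((sc c⁻¹)⁻¹ * (dg u * h)) * sc c⁻¹ := by group
    rw [this, sc_inv, inv_inv, sc_comm c (dg u * h)]
    rw [← sc_inv]
    group
  rw [e2]
  exact U.cong_le w (conj_mem_congGL' w _ hc (dg_mem_congGL hw hu))

theorem tw_tot (x : X D) {ψ : X D → ℂ} (h : IsNB ψ) : ψ (tw K.tot x) = ψ x := by
  rw [← h.dg K.ϖ x]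
  refine (h.na.congr (fun i ↦ ?_) fun w ↦ ?_).symm
  · change ((dg K.ϖ • x.1) i).t = (scl (K.tot.1 i) (x.1 i)).t
    rw [scl_t, K.tot_fst, Real.exp_log, Fermat.LT.dg_smul_t]
    exact norm_pos_iff.mpr ((map_ne_zero _).mpr K.ϖ.ne_zero)
  · change ∃ β : F, dg (unif w ^ K.tot.2 w) • x.2 w = un β • dg K.ϖ • x.2 w
    by_cases hw : D.n w = 0
    · refine exists_un_good hw ?_ (x.2 w)
      rw [Units.val_zpow_eq_zpow_val, lv_unif_zpow, K.tot_good hw, neg_neg]
    · rw [K.tot_bad hw, zpow_zero, dg_one, one_smul]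
      exact exists_un_bad hw (K.bad w hw) (x.2 w)

theorem rho_tot {ψ : X D → ℂ} (h : IsNB ψ) :
    rho D (AddMonoidAlgebra.single K.tot 1) ψ = ψ := by
  funext x
  rw [rho_single, one_mul, K.wt_tot, one_mul, K.tw_tot x h]

/-! ### the killed kernels -/

/-- the absolute values of the exponents -/
noncomputable def en (j : K.Jf) : ℕ := (K.e j).natAbs

theorem yy_neg (g : TG D) : yy (-g) = yy g := by
  rw [yy, yy, neg_neg, add_comm]

theorem yy_gf_natAbs (w : Pl F) (k : ℤ) : yy (gf D w k) = yy (gf D w (k.natAbs : ℤ)) := by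
  rcases Int.natAbs_eq k with h | h
  · rw [← h]
  · have hneg : gf D w k = -gf D w (k.natAbs : ℤ) := by
      conv_lhs => rw [h]
      refine Prod.ext neg_zero.symm ?_
      exact Finsupp.single_neg _ _
    rw [hneg, yy_neg]

/-- the generators of the monomials: (torus element, Hecke operator, translation) -/
noncomputable def mon : K.J → AddMonoidAlgebra ℂ (TG D) × HA D.toLevel × TB D :=
  Sum.elim
    (fun j ↦ (yy (gf D (K.pl j) (K.e j)), TH (U := D.toLevel) (K.good j) (K.en j), 1))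
    (fun j ↦ (yy (ga D (K.ar j) (K.sh j)), 1, Pi.mulSingle (K.ar j) (tt (K.sh j))))

theorem mon_mem (j : K.J) : K.mon j ∈ MatS D := by
  rcases j with j | j
  · rw [mem_MatS]
    change Mat (yy (gf D (K.pl j) (K.e j))) (TH (U := D.toLevel) (K.good j) (K.en j)) 1
    rw [yy_gf_natAbs]
    exact mat_fin (K.good j) (K.en j)
  · exact mat_arch (K.ar j) (K.sh j)

/-- the monomials -/
noncomputable def mo (d : K.J →₀ ℕ) : AddMonoidAlgebra ℂ (TG D) × HA D.toLevel × TB D :=
  ∏ j, K.mon j ^ d j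

theorem mo_mem (d : K.J →₀ ℕ) : K.mo d ∈ MatS D :=
  (MatS D).prod_mem fun j _ ↦ (MatS D).pow_mem (K.mon_mem j) _

/-- the Hecke operator of a monomial -/
noncomputable def moT (d : K.J →₀ ℕ) : HA D.toLevel := (K.mo d).2.1

/-- the translation of a monomial -/
noncomputable def moB (d : K.J →₀ ℕ) : TB D := (K.mo d).2.2

/-- the coefficients of the killing polynomial -/
noncomputable def co (d : K.J →₀ ℕ) : ℂ := (((killPoly K.J).coeff d : ℤ) : ℂ)

/-- The kernel attached to a monomial. -/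
noncomputable def km (g : D.I → ℝ → ℂ) (κ : Y D.toLevel → Y D.toLevel → ℂ) (d : K.J →₀ ℕ) :
    X D → X D → ℂ :=
  kX (bact (K.moB d) g) (kcomp κ (ker (K.moT d : Module.End ℂ (Y D.toLevel →₀ ℂ))))

/-- The killed kernel. -/
noncomputable def kk (g : D.I → ℝ → ℂ) (κ : Y D.toLevel → Y D.toLevel → ℂ) (x z : X D) : ℂ :=
  ∑ d ∈ (killPoly K.J).support, K.co d * K.km g κ d x z

theorem test_moB (d : K.J →₀ ℕ) {g : D.I → ℝ → ℂ} (hg : ∀ i, IsTest (g i)) (i : D.I) :
    IsTest (bact (K.moB d) g i) :=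
  Mat.test' (mem_MatS.mp (K.mo_mem d)) hg i

theorem mo_fst (d : K.J →₀ ℕ) : (K.mo d).1 = ∏ j, (yy (K.gj j)) ^ d j := by
  rw [mo, Prod.fst_prod]
  refine Finset.prod_congr rfl fun j _ ↦ ?_
  rw [Prod.pow_fst]
  rcases j with j | j <;> rfl

theorem sum_mo : ∑ d ∈ (killPoly K.J).support, K.co d • (K.mo d).1 =
    MvPolynomial.aeval (fun j ↦ yy (K.gj j)) (killPoly K.J) := by
  rw [MvPolynomial.aeval_def, MvPolynomial.eval₂_eq']
  refine Finset.sum_congr rfl fun d _ ↦ ?_
  rw [K.mo_fst, Algebra.smul_def, co, map_intCast, eq_intCast]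

theorem prod_single_gj :
    ∏ j, (AddMonoidAlgebra.single (K.gj j) 1 : AddMonoidAlgebra ℂ (TG D)) =
      AddMonoidAlgebra.single K.tot 1 := by
  rw [tot]
  have h : ∀ s : Finset K.J,
      ∏ j ∈ s, (AddMonoidAlgebra.single (K.gj j) 1 : AddMonoidAlgebra ℂ (TG D)) =
        AddMonoidAlgebra.single (∑ j ∈ s, K.gj j) 1 := by
    classical
    intro s
    induction s using Finset.induction_on with
    | empty => rw [Finset.prod_empty, Finset.sum_empty]; rfl
    | insert a s ha ih =>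
      rw [Finset.prod_insert ha, Finset.sum_insert ha, ih, AddMonoidAlgebra.single_mul_single,
        one_mul]
  exact h _

/-- The polynomial in the torus elements kills `N(𝔸)B(F)`-invariant functions. -/
theorem rho_kill {ψ : X D → ℂ} (h : IsNB ψ) :
    rho D (∑ d ∈ (killPoly K.J).support, K.co d • (K.mo d).1) ψ = 0 := by
  have h1 : ∀ j, (AddMonoidAlgebra.single (K.gj j) 1 : AddMonoidAlgebra ℂ (TG D)) *
      AddMonoidAlgebra.single (-K.gj j) 1 = 1 := by
    intro j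
    rw [AddMonoidAlgebra.single_mul_single, add_neg_cancel, one_mul]
    rfl
  obtain ⟨c, hc⟩ := dvd_aeval_killPoly
    (fun j ↦ (AddMonoidAlgebra.single (K.gj j) 1 : AddMonoidAlgebra ℂ (TG D)))
    (fun j ↦ AddMonoidAlgebra.single (-K.gj j) 1) h1
  have e : MvPolynomial.aeval (fun j ↦ yy (K.gj j)) (killPoly K.J) =
      c * (∏ j, AddMonoidAlgebra.single (K.gj j) 1 - 1) := by
    rw [mul_comm, ← hc]
    rfl
  rw [K.sum_mo, e, map_mul, Module.End.mul_apply, map_sub, LinearMap.sub_apply, K.prod_single_gj,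
    K.rho_tot h, map_one, Module.End.one_apply, sub_self, map_zero]

theorem appK_sum {g : D.I → ℝ → ℂ} (hg : ∀ i, IsTest (g i)) {κ : Y D.toLevel → Y D.toLevel → ℂ}
    (hκ : RowFin κ) {A : Type} (s : Finset A) (c : A → ℂ) (ψ : A → X D → ℂ) (hψ : ∀ a, CX (ψ a))
    (x : X D) : appK volume (kX g κ) (∑ a ∈ s, c a • ψ a) x =
      ∑ a ∈ s, c a * appK volume (kX g κ) (ψ a) x := by
  classical
  have key : ∀ s : Finset A, CX (∑ a ∈ s, c a • ψ a) ∧
      appK volume (kX g κ) (∑ a ∈ s, c a • ψ a) x =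
        ∑ a ∈ s, c a * appK volume (kX g κ) (ψ a) x := by
    intro s
    induction s using Finset.induction_on with
    | empty =>
      rw [Finset.sum_empty, Finset.sum_empty]
      exact ⟨fun y ↦ continuous_const, appK_zero _ x⟩
    | insert a s ha ih =>
      rw [Finset.sum_insert ha, Finset.sum_insert ha]
      refine ⟨((hψ a).smul (c a)).add ih.1, ?_⟩
      rw [appK_kX_add hg hκ ((hψ a).smul (c a)) ih.1, appK_smul, ih.2]
  exact (key s).2

/-- **The killer theorem.** -/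
theorem killed {g : D.I → ℝ → ℂ} (hg : ∀ i, IsTest (g i)) {κ : Y D.toLevel → Y D.toLevel → ℂ}
    (hκ : RowFin κ) : Killed (K.kk g κ) := by
  intro ψ hψ x
  have h1 : appK volume (K.kk g κ) ψ x =
      ∑ d ∈ (killPoly K.J).support, K.co d * appK volume (K.km g κ d) ψ x := by
    have hint : ∀ d, Integrable (fun z : X D ↦ K.km g κ d x z * ψ z) := fun d ↦
      integrable_kX (K.test_moB d hg) (hκ.kcomp (rowFin_ker _)) hψ.na.cx x
    have e : ∀ z, K.kk g κ x z * ψ z =
        ∑ d ∈ (killPoly K.J).support, K.co d * (K.km g κ d x z * ψ z) := by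
      intro z
      rw [kk, Finset.sum_mul]
      exact Finset.sum_congr rfl fun d _ ↦ mul_assoc _ _ _
    unfold appK
    rw [integral_congr_ae (Filter.Eventually.of_forall e),
      integral_finsetSum _ fun d _ ↦ (hint d).const_mul _]
    exact Finset.sum_congr rfl fun d _ ↦ integral_const_mul _ _
  have h2 : ∀ d, appK volume (K.km g κ d) ψ x =
      appK volume (kX g κ) (rho D (K.mo d).1 ψ) x := fun d ↦
    (mem_MatS.mp (K.mo_mem d)).eq g κ ψ hg hκ hψ.na x
  rw [h1, Finset.sum_congr rfl fun d _ ↦ by rw [h2 d],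
    ← appK_sum hg hκ _ _ _ (fun d ↦ (hψ.na.rho _).cx)]
  have h3 : ∑ d ∈ (killPoly K.J).support, K.co d • rho D (K.mo d).1 ψ =
      rho D (∑ d ∈ (killPoly K.J).support, K.co d • (K.mo d).1) ψ := by
    rw [map_sum, LinearMap.sum_apply]
    exact Finset.sum_congr rfl fun d _ ↦ by rw [map_smul]; rfl
  rw [h3, K.rho_kill hψ, appK_zero]

end KillData

end Fermat.Agent.LT.CTree
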