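import Fermat.Agent.Density.RayClassL

/-!
# LT / C-TREE: the L-function of a nontrivial ray class character is Lipschitz at `s = 1`

Upgrade of `Density/RayClassL` (existence of the limit) to `L(s, ψ) = L(1, ψ) + O(s - 1)`.
-/

set_option autoImplicit false
set_option linter.unusedSectionVars false

open NumberField NumberField.InfinitePlace NumberField.mixedEmbedding NumberField.Units
  NumberField.Units.dirichletUnitTheorem Module Filter Topology nonZeroDivisors Asymptotics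
open Fermat.Agent.Density.UnitWeight Fermat.Agent.Density.RayClassL

namespace Fermat.Agent.LT.CTree.RayLip

noncomputable section

variable {K : Type*} [Field K] [NumberField K]

theorem norm_le_hgt_pow (x : mixedSpace K) :
    mixedEmbedding.norm x ≤ hgt x ^ (finrank ℚ K) := by
  rw [mixedEmbedding.norm_apply, ← sum_mult_eq (K := K), ← Finset.prod_pow_eq_pow_sum]
  exact Finset.prod_le_prod (fun w _ ↦ pow_nonneg (normAtPlace_nonneg _ _) _) fun w _ ↦
    pow_le_pow_left₀ (normAtPlace_nonneg _ _) (normAtPlace_le_hgt w x) _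

theorem hasDerivAt_G {x : mixedSpace K} (hx : 0 < mixedEmbedding.norm x) (s : ℝ) :
    HasDerivAt (fun s ↦ G s x) (-(Real.log (mixedEmbedding.norm x) * G s x)) s := by
  unfold G
  have h1 : HasDerivAt (fun s : ℝ ↦ (mixedEmbedding.norm x) ^ (-s))
      (mixedEmbedding.norm x ^ (-s) * Real.log (mixedEmbedding.norm x) * -1) s :=
    (Real.hasStrictDerivAt_const_rpow hx (-s)).hasDerivAt.comp s (hasDerivAt_neg s)
  exact (h1.const_mul (weight x)).congr_deriv (by ring)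

theorem exists_estimate2 (M : ℝ) (hM : 0 ≤ M) : ∃ R C : ℝ, 0 < R ∧ 0 ≤ C ∧
    ∀ x y : mixedSpace K, hgt (y - x) ≤ M → R ≤ hgt x → weight x ≠ 0 →
      (∀ w : InfinitePlace K, M < normAtPlace w x) ∧
      ∀ s : ℝ, 1 ≤ s → s ≤ 2 →
        |(G s y - G s x) - (G 1 y - G 1 x)| ≤
          (s - 1) * (C * (hgt x) ^ (-((finrank ℚ K : ℝ) + 1 / 2))) := by
  obtain ⟨R₁, C₁, hR₁, hC₁, hest⟩ := exists_estimate (K := K) M hM
  obtain ⟨c, hc0, hc1, hc⟩ := exists_cone K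
  set d : ℝ := (finrank ℚ K : ℝ) with hd
  have hd1 : 1 ≤ d := by
    rw [hd]; exact_mod_cast (finrank_pos (R := ℚ) (M := K))
  refine ⟨max R₁ ((4 * d * M + 2 * M + 1) / c),
    (3 * d * (2 * M / c) * c ^ (-d)) + 2 * d * C₁, by positivity, by positivity,
    fun x y hxy hx hwx ↦ ?_⟩
  obtain ⟨hMx, hG⟩ := hest x y hxy ((le_max_left _ _).trans hx) hwx
  refine ⟨hMx, fun s hs1 hs2 ↦ ?_⟩
  set H := hgt x with hH
  have hcH : 4 * d * M + 2 * M + 1 ≤ c * H := by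
    have := (le_max_right _ _).trans hx
    rw [div_le_iff₀ hc0] at this; linarith
  have hdM : 0 ≤ 4 * d * M := by positivity
  have hH0 : 0 < H := by
    by_contra hneg
    have : c * H ≤ 0 := mul_nonpos_of_nonneg_of_nonpos hc0.le (not_lt.mp hneg)
    linarith
  have hH1 : 1 ≤ H := by
    have h1 : c * H ≤ 1 * H := mul_le_mul_of_nonneg_right hc1 hH0.le
    linarith
  have hxw : ∀ w : InfinitePlace K, c * H ≤ normAtPlace w x := hc x hwx
  have hyw : ∀ w : InfinitePlace K, c / 2 * H ≤ normAtPlace w y := by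
    intro w
    have h1 := abs_le.mp ((abs_normAtPlace_sub_le w x y).trans hxy)
    have h2 := hxw w
    linarith
  have hxw' : ∀ w : InfinitePlace K, c / 2 * H ≤ normAtPlace w x := fun w ↦
    (by nlinarith : c / 2 * H ≤ c * H).trans (hxw w)
  have hcH2 : 0 < c / 2 * H := by positivity
  set ε := M / (c / 2 * H) with hε
  have hε0 : 0 ≤ ε := by positivity
  have hlog : ∀ w : InfinitePlace K,
      |Real.log (normAtPlace w y) - Real.log (normAtPlace w x)| ≤ ε := by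
    intro w
    refine (abs_log_sub_log_le hcH2 (hxw' w) (hyw w)).trans ?_
    exact div_le_div_of_nonneg_right ((abs_normAtPlace_sub_le w x y).trans hxy) hcH2.le
  have hNx : mixedEmbedding.norm x ≠ 0 := norm_ne_zero_of_weight_ne_zero hwx
  have hNy : mixedEmbedding.norm y ≠ 0 :=
    mixedEmbedding.norm_ne_zero_iff.mpr fun w ↦ (hcH2.trans_le (hyw w)).ne'
  have hNx0 : 0 < mixedEmbedding.norm x := lt_of_le_of_ne (mixedEmbedding.norm_nonneg _) hNx.symm
  have hNy0 : 0 < mixedEmbedding.norm y := lt_of_le_of_ne (mixedEmbedding.norm_nonneg _) hNy.symm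
  have hN := abs_log_norm_sub_le hNx hNy hlog
  have hεd : 2 * (d * ε) ≤ 1 := by
    rw [hε, ← mul_div_assoc, ← mul_div_assoc, div_le_one hcH2]
    linarith
  have hcH1 : 1 ≤ c * H := by linarith
  have hNlow : (c * H) ^ (finrank ℚ K) ≤ mixedEmbedding.norm x := pow_le_norm (by positivity) hxw
  have hNx1 : 1 ≤ mixedEmbedding.norm x := (one_le_pow₀ hcH1).trans hNlow
  -- the log of the norm
  have hlogN0 : 0 ≤ Real.log (mixedEmbedding.norm x) := Real.log_nonneg hNx1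
  have hlogN : Real.log (mixedEmbedding.norm x) ≤ 2 * d * H ^ (1 / 2 : ℝ) := by
    have h1 : Real.log (mixedEmbedding.norm x) ≤ Real.log (H ^ (finrank ℚ K)) :=
      Real.log_le_log hNx0 (norm_le_hgt_pow x)
    rw [Real.log_pow] at h1
    have h2 : Real.log H ≤ H ^ (1 / 2 : ℝ) / (1 / 2) := Real.log_le_rpow_div hH0.le (by norm_num)
    calc _ ≤ d * Real.log H := h1
      _ ≤ d * (H ^ (1 / 2 : ℝ) / (1 / 2)) := mul_le_mul_of_nonneg_left h2 (by linarith)
      _ = _ := by ring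
  -- bound for the derivative
  set B := (3 * d * (2 * M / c) * c ^ (-d) + 2 * d * C₁) * H ^ (-(d + 1 / 2)) with hB
  have hderiv : ∀ t : ℝ, 1 ≤ t → t ≤ 2 →
      |-(Real.log (mixedEmbedding.norm y) * G t y) - -(Real.log (mixedEmbedding.norm x) * G t x)|
        ≤ B := by
    intro t ht1 ht2
    have hpow : (mixedEmbedding.norm y) ^ (-t) ≤ 3 * (mixedEmbedding.norm x) ^ (-t) := by
      rw [Real.rpow_def_of_pos hNx0, Real.rpow_def_of_pos hNy0]
      set a := Real.log (mixedEmbedding.norm x)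
      set b := Real.log (mixedEmbedding.norm y)
      have h1 : b * -t ≤ a * -t + 1 := by
        have h2 := abs_le.mp hN
        have h3 : t * (a - b) ≤ 2 * (d * ε) := by
          rcases le_total 0 (a - b) with h4 | h4
          · calc t * (a - b) ≤ 2 * (a - b) := mul_le_mul_of_nonneg_right ht2 h4
              _ ≤ _ := by linarith
          · have : t * (a - b) ≤ 0 := mul_nonpos_of_nonneg_of_nonpos (by linarith) h4
            have : 0 ≤ 2 * (d * ε) := by positivity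
            linarith
        nlinarith
      calc Real.exp (b * -t) ≤ Real.exp (a * -t + 1) := Real.exp_le_exp.mpr h1
        _ = Real.exp 1 * Real.exp (a * -t) := by rw [Real.exp_add, mul_comm]
        _ ≤ 3 * Real.exp (a * -t) := by
          refine mul_le_mul_of_nonneg_right ?_ (Real.exp_pos _).le
          linarith [Real.exp_one_lt_d9]
    have hNpow : (mixedEmbedding.norm x) ^ (-t) ≤ (c * H) ^ (-d) := by
      calc (mixedEmbedding.norm x) ^ (-t) ≤ (mixedEmbedding.norm x) ^ (-1 : ℝ) :=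
            Real.rpow_le_rpow_of_exponent_le hNx1 (by linarith)
        _ = (mixedEmbedding.norm x)⁻¹ := Real.rpow_neg_one _
        _ ≤ ((c * H) ^ (finrank ℚ K))⁻¹ := inv_anti₀ (by positivity) hNlow
        _ = (c * H) ^ (-d) := by rw [Real.rpow_neg (by positivity), hd, Real.rpow_natCast]
    have hGy : G t y ≤ 3 * (c * H) ^ (-d) := by
      unfold G
      calc weight y * (mixedEmbedding.norm y) ^ (-t) ≤ 1 * (3 * (mixedEmbedding.norm x) ^ (-t)) :=
            mul_le_mul (weight_le_one _) hpow (Real.rpow_nonneg hNy0.le _) zero_le_one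
        _ ≤ _ := by linarith
    have e : -(Real.log (mixedEmbedding.norm y) * G t y) -
        -(Real.log (mixedEmbedding.norm x) * G t x) =
        -((Real.log (mixedEmbedding.norm y) - Real.log (mixedEmbedding.norm x)) * G t y) -
          Real.log (mixedEmbedding.norm x) * (G t y - G t x) := by ring
    rw [e]
    refine (abs_sub _ _).trans ?_
    rw [abs_neg, abs_mul, abs_mul, abs_of_nonneg (G_nonneg t y), abs_of_nonneg hlogN0]
    have h1 : |Real.log (mixedEmbedding.norm y) - Real.log (mixedEmbedding.norm x)| * G t y ≤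
        (d * ε) * (3 * (c * H) ^ (-d)) :=
      mul_le_mul hN hGy (G_nonneg t y) (by positivity)
    have h2 : Real.log (mixedEmbedding.norm x) * |G t y - G t x| ≤
        (2 * d * H ^ (1 / 2 : ℝ)) * (C₁ * H ^ (-(d + 1))) :=
      mul_le_mul hlogN (hG t ht1 ht2) (abs_nonneg _) (by positivity)
    have h3 : (d * ε) * (3 * (c * H) ^ (-d)) = (3 * d * (2 * M / c) * c ^ (-d)) * H ^ (-(d + 1)) := by
      rw [Real.mul_rpow hc0.le hH0.le, neg_add, Real.rpow_add hH0, Real.rpow_neg_one, hε]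
      field_simp
    have h4 : (2 * d * H ^ (1 / 2 : ℝ)) * (C₁ * H ^ (-(d + 1))) =
        2 * d * C₁ * H ^ (-(d + 1 / 2)) := by
      have : H ^ (-(d + 1 / 2)) = H ^ (1 / 2 : ℝ) * H ^ (-(d + 1)) := by
        rw [← Real.rpow_add hH0]; congr 1; ring
      rw [this]; ring
    have h5 : H ^ (-(d + 1)) ≤ H ^ (-(d + 1 / 2)) :=
      Real.rpow_le_rpow_of_exponent_le hH1 (by linarith)
    have h6 : (3 * d * (2 * M / c) * c ^ (-d)) * H ^ (-(d + 1)) ≤
        (3 * d * (2 * M / c) * c ^ (-d)) * H ^ (-(d + 1 / 2)) :=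
      mul_le_mul_of_nonneg_left h5 (by positivity)
    rw [hB, add_mul]
    rw [h3] at h1
    rw [h4] at h2
    linarith
  have hmv := (convex_Icc (1 : ℝ) 2).norm_image_sub_le_of_norm_hasDerivWithin_le
    (f := fun t ↦ G t y - G t x)
    (f' := fun t ↦ -(Real.log (mixedEmbedding.norm y) * G t y) -
      -(Real.log (mixedEmbedding.norm x) * G t x)) (C := B) (x := 1) (y := s)
    (fun t _ ↦ ((hasDerivAt_G hNy0 t).sub (hasDerivAt_G hNx0 t)).hasDerivWithinAt)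
    (fun t ht ↦ hderiv t ht.1 ht.2) (by norm_num) ⟨hs1, hs2⟩
  rw [Real.norm_eq_abs, Real.norm_eq_abs, abs_of_nonneg (by linarith : 0 ≤ s - 1), mul_comm] at hmv
  exact hmv

variable (K) in
theorem summable_hgt2 :
    Summable (fun a : 𝓞 K ↦ hgt (emb a) ^ (-((finrank ℚ K : ℝ) + 1 / 2))) := by
  classical
  have h0 : finrank ℤ (mixedEmbedding.integerLattice K) = finrank ℚ K := by
    rw [ZLattice.rank ℝ (mixedEmbedding.integerLattice K), mixedEmbedding.finrank]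
  have h1 := ZLattice.summable_norm_rpow (mixedEmbedding.integerLattice K)
    (-((finrank ℚ K : ℝ) + 1 / 2)) (by rw [h0]; linarith)
  let e : 𝓞 K ≃ mixedEmbedding.integerLattice K :=
    Equiv.ofBijective (fun a ↦ ⟨emb a, ⟨a, rfl⟩⟩) (by
      constructor
      · intro a b h
        exact emb_injective (congrArg Subtype.val h)
      · rintro ⟨_, a, rfl⟩
        exact ⟨a, rfl⟩)
  have h2 := e.summable_iff.mpr h1
  refine h2.congr fun a ↦ ?_
  simp only [Function.comp_apply]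
  rw [← norm_eq_hgt]
  rfl

theorem abs_G_sub_le {s : ℝ} (hs : 1 ≤ s) {x : mixedSpace K} (hx : 1 ≤ mixedEmbedding.norm x) :
    |G s x - G 1 x| ≤ s - 1 := by
  set N := mixedEmbedding.norm x with hN
  have hN0 : 0 < N := by linarith
  unfold G
  rw [← mul_sub, abs_mul, abs_of_nonneg (weight_nonneg x), ← hN]
  have h1 : N ^ (-s) = N ^ (-1 : ℝ) * N ^ (-(s - 1)) := by
    rw [← Real.rpow_add hN0]; congr 1; ring
  have h2 : N ^ (-(s - 1)) ≤ 1 := Real.rpow_le_one_of_one_le_of_nonpos hx (by linarith)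
  have h3 : 1 - (s - 1) * Real.log N ≤ N ^ (-(s - 1)) := by
    rw [Real.rpow_def_of_pos hN0]
    have := Real.add_one_le_exp (Real.log N * -(s - 1))
    linarith
  have h4 : Real.log N ≤ N := (Real.log_le_sub_one_of_pos hN0).trans (by linarith)
  have h5 : |N ^ (-s) - N ^ (-1 : ℝ)| ≤ s - 1 := by
    rw [h1, show N ^ (-1 : ℝ) * N ^ (-(s - 1)) - N ^ (-1 : ℝ) =
      -(N ^ (-1 : ℝ) * (1 - N ^ (-(s - 1)))) by ring, abs_neg, Real.rpow_neg_one, abs_mul,
      abs_of_pos (inv_pos.mpr hN0), abs_of_nonneg (by linarith), inv_mul_le_iff₀ hN0]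
    have h6 : (s - 1) * Real.log N ≤ (s - 1) * N := mul_le_mul_of_nonneg_left h4 (by linarith)
    linarith
  calc weight x * |N ^ (-s) - N ^ (-1 : ℝ)| ≤ 1 * (s - 1) :=
        mul_le_mul (weight_le_one x) h5 (abs_nonneg _) zero_le_one
    _ = s - 1 := one_mul _

theorem norm_g_sub_le {f : 𝓞 K → ℂ} (hf : ∀ a, ‖f a‖ ≤ 1) {s : ℝ} (hs : 1 ≤ s) (a : 𝓞 K) :
    ‖g f s a - g f 1 a‖ ≤ s - 1 := by
  by_cases ha : a = 0
  · subst ha
    unfold g
    rw [G_of_weight_eq_zero _ weight_emb_zero, G_of_weight_eq_zero _ weight_emb_zero, sub_self,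
      norm_zero]
    linarith
  · unfold g
    rw [← mul_sub, norm_mul, ← Complex.ofReal_sub, Complex.norm_real, Real.norm_eq_abs]
    calc ‖f a‖ * |G s (emb a) - G 1 (emb a)| ≤ 1 * (s - 1) :=
          mul_le_mul (hf a) (abs_G_sub_le hs (one_le_norm_emb ha)) (abs_nonneg _) zero_le_one
      _ = s - 1 := one_mul _

open Classical in
theorem exists_summable_bound2 {f : 𝓞 K → ℂ} (hf : ∀ a, ‖f a‖ ≤ 1) {μ : 𝓞 K}
    (hper : SignPeriodic f μ) : ∃ bound : 𝓞 K → ℝ, Summable bound ∧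
      ∀ s : ℝ, 1 ≤ s → s ≤ 2 → ∀ a,
        ‖(g f s (a + μ) - g f s a) - (g f 1 (a + μ) - g f 1 a)‖ ≤ (s - 1) * bound a := by
  set M := hgt (emb μ) with hM
  have hM0 : 0 ≤ M := hgt_nonneg _
  obtain ⟨R, C, hR, hC, hest⟩ := exists_estimate2 (K := K) M hM0
  set d : ℝ := (finrank ℚ K : ℝ) with hd
  have hd0 : 0 ≤ d := Nat.cast_nonneg _
  set e : ℝ := d + 1 / 2 with he
  refine ⟨fun a ↦ (C * 2 ^ e + 2 * (R + 2 * M) ^ e) * hgt (emb a) ^ (-e) + if a = 0 then 2 else 0,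
    ?_, ?_⟩
  · refine ((summable_hgt2 K).mul_left _).add ?_
    exact summable_of_ne_finset_zero (s := {0}) fun a ha ↦ by
      rw [if_neg (by simpa using ha)]
  · intro s hs1 hs2 a
    have hs0 : 0 ≤ s - 1 := by linarith
    have htwo : ‖(g f s (a + μ) - g f s a) - (g f 1 (a + μ) - g f 1 a)‖ ≤ (s - 1) * 2 := by
      have e1 : (g f s (a + μ) - g f s a) - (g f 1 (a + μ) - g f 1 a) =
        (g f s (a + μ) - g f 1 (a + μ)) - (g f s a - g f 1 a) := by ring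
      rw [e1]
      refine (norm_sub_le _ _).trans ?_
      have h1 := norm_g_sub_le hf hs1 (a + μ)
      have h2 := norm_g_sub_le hf hs1 a
      linarith
    have hpos1 : 0 ≤ C * 2 ^ e := by positivity
    have hpos2 : 0 ≤ 2 * (R + 2 * M) ^ e := by positivity
    have hpos3 : 0 ≤ hgt (emb a) ^ (-e) := Real.rpow_nonneg (hgt_nonneg _) _
    by_cases ha : a = 0
    · simp only [ha, if_true]
      rw [ha] at htwo hpos3
      refine htwo.trans (mul_le_mul_of_nonneg_left ?_ hs0)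
      nlinarith [mul_nonneg hpos1 hpos3, mul_nonneg hpos2 hpos3]
    simp only [if_neg ha, add_zero]
    have hx0 : 0 < hgt (emb a) := hgt_emb_pos ha
    by_cases hsmall : hgt (emb a) < R + 2 * M
    · refine htwo.trans (mul_le_mul_of_nonneg_left ?_ hs0)
      have h1 : 1 ≤ (R + 2 * M) ^ e * hgt (emb a) ^ (-e) := by
        rw [Real.rpow_neg hx0.le, ← div_eq_mul_inv, one_le_div (by positivity)]
        exact Real.rpow_le_rpow hx0.le hsmall.le (by linarith)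
      nlinarith [mul_nonneg hpos1 hpos3]
    rw [not_lt] at hsmall
    have hsub : hgt (emb (a + μ) - emb a) ≤ M := by rw [emb_add, add_sub_cancel_left]
    have hsub' : hgt (emb a - emb (a + μ)) ≤ M := by rw [hgt_sub_comm]; exact hsub
    have hdiff : ∀ D : ℝ, f (a + μ) = f a →
        |(G s (emb (a + μ)) - G s (emb a)) - (G 1 (emb (a + μ)) - G 1 (emb a))| ≤ D →
        ‖(g f s (a + μ) - g f s a) - (g f 1 (a + μ) - g f 1 a)‖ ≤ D := by
      intro D h1 h2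
      unfold g
      rw [h1, ← mul_sub, ← mul_sub, ← mul_sub, norm_mul, ← Complex.ofReal_sub,
        ← Complex.ofReal_sub, ← Complex.ofReal_sub, Complex.norm_real, Real.norm_eq_abs]
      calc ‖f a‖ * |(G s (emb (a + μ)) - G s (emb a)) - (G 1 (emb (a + μ)) - G 1 (emb a))|
          ≤ 1 * D := mul_le_mul (hf a) h2 (abs_nonneg _) zero_le_one
        _ = D := one_mul D
    by_cases hwx : weight (emb a) = 0
    · by_cases hwy : weight (emb (a + μ)) = 0
      · unfold g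
        rw [G_of_weight_eq_zero _ hwx, G_of_weight_eq_zero _ hwy, G_of_weight_eq_zero _ hwx,
          G_of_weight_eq_zero _ hwy]
        simp only [Complex.ofReal_zero, mul_zero, sub_zero, norm_zero]
        positivity
      · have hy : hgt (emb a) ≤ hgt (emb (a + μ)) + M := by
          have h1 := hgt_add_le (emb (a + μ)) (emb a - emb (a + μ))
          rw [add_sub_cancel] at h1
          linarith
        obtain ⟨h1, h2⟩ := hest (emb (a + μ)) (emb a) hsub' (by linarith) hwy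
        have h3 := h2 s hs1 hs2
        have h3' : |(G s (emb (a + μ)) - G s (emb a)) - (G 1 (emb (a + μ)) - G 1 (emb a))| ≤
            (s - 1) * (C * hgt (emb (a + μ)) ^ (-e)) := by
          rw [← abs_neg]
          refine le_trans (le_of_eq ?_) h3
          congr 1
          ring
        refine (hdiff _ (eq_of_large hper hM.ge (Or.inr h1)) h3').trans ?_
        refine mul_le_mul_of_nonneg_left ?_ hs0
        have h4 : hgt (emb a) / 2 ≤ hgt (emb (a + μ)) := by linarith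
        have h5 : hgt (emb (a + μ)) ^ (-e) ≤ 2 ^ e * hgt (emb a) ^ (-e) := by
          calc hgt (emb (a + μ)) ^ (-e) ≤ (hgt (emb a) / 2) ^ (-e) :=
                Real.rpow_le_rpow_of_nonpos (by positivity) h4 (by linarith)
            _ = 2 ^ e * hgt (emb a) ^ (-e) := by
                rw [Real.div_rpow hx0.le (by norm_num), Real.rpow_neg (by norm_num : (0:ℝ) ≤ 2)]
                field_simp
        calc C * hgt (emb (a + μ)) ^ (-e) ≤ C * (2 ^ e * hgt (emb a) ^ (-e)) :=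
              mul_le_mul_of_nonneg_left h5 hC
          _ ≤ (C * 2 ^ e + 2 * (R + 2 * M) ^ e) * hgt (emb a) ^ (-e) := by
              nlinarith [mul_nonneg hpos2 hpos3]
    · obtain ⟨h1, h2⟩ := hest (emb a) (emb (a + μ)) hsub (by linarith) hwx
      refine (hdiff _ (eq_of_large hper hM.ge (Or.inl h1)) (h2 s hs1 hs2)).trans ?_
      refine mul_le_mul_of_nonneg_left ?_ hs0
      have h5 : (1 : ℝ) ≤ 2 ^ e := Real.one_le_rpow (by norm_num) (by linarith)
      have h6 : C ≤ C * 2 ^ e := le_mul_of_one_le_right hC h5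
      exact mul_le_mul_of_nonneg_right (by linarith) hpos3

/-! ### Lipschitz functions at `1` -/

/-- `f` is Lipschitz at `1` (from the right) with value `c` -/
def Lip (f : ℝ → ℂ) (c : ℂ) : Prop := (fun s : ℝ ↦ f s - c) =O[𝓝[>] 1] (fun s : ℝ ↦ s - 1)

theorem tendsto_sub_one : Tendsto (fun s : ℝ ↦ s - 1) (𝓝[>] 1) (𝓝 0) := by
  have h : Tendsto (fun s : ℝ ↦ s - 1) (𝓝 1) (𝓝 (1 - 1)) :=
    (continuous_id.sub continuous_const).tendsto 1
  rw [sub_self] at h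
  exact h.mono_left nhdsWithin_le_nhds

theorem Lip.tendsto {f : ℝ → ℂ} {c : ℂ} (h : Lip f c) : Tendsto f (𝓝[>] 1) (𝓝 c) := by
  have h1 := (IsBigO.trans_tendsto h tendsto_sub_one).add_const c
  rw [zero_add] at h1
  exact h1.congr fun s ↦ sub_add_cancel _ _

theorem Lip.congr' {f f' : ℝ → ℂ} {c : ℂ} (h : Lip f c) (hff : f =ᶠ[𝓝[>] 1] f') : Lip f' c :=
  IsBigO.congr' h (hff.mono fun s hs ↦ by simp only [hs]) EventuallyEq.rfl

theorem Lip.const (c : ℂ) : Lip (fun _ ↦ c) c := by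
  unfold Lip
  simp only [sub_self]
  exact isBigO_zero _ _

theorem Lip.add {f f' : ℝ → ℂ} {c c' : ℂ} (h : Lip f c) (h' : Lip f' c') :
    Lip (fun s ↦ f s + f' s) (c + c') :=
  (IsBigO.add h h').congr_left fun s ↦ by ring

theorem Lip.sub {f f' : ℝ → ℂ} {c c' : ℂ} (h : Lip f c) (h' : Lip f' c') :
    Lip (fun s ↦ f s - f' s) (c - c') :=
  (IsBigO.sub h h').congr_left fun s ↦ by ring

theorem Lip.mul {f f' : ℝ → ℂ} {c c' : ℂ} (h : Lip f c) (h' : Lip f' c') :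
    Lip (fun s ↦ f s * f' s) (c * c') := by
  have h1 : (fun s ↦ (f s - c) * f' s) =O[𝓝[>] 1] (fun s : ℝ ↦ s - 1) := by
    simpa using IsBigO.mul h (h'.tendsto.isBigO_one ℝ)
  have h2 : (fun s ↦ c * (f' s - c')) =O[𝓝[>] 1] (fun s : ℝ ↦ s - 1) :=
    IsBigO.const_mul_left h' c
  exact (h1.add h2).congr_left fun s ↦ by ring

theorem Lip.sum {ι : Type*} (S : Finset ι) {f : ι → ℝ → ℂ} {c : ι → ℂ}
    (h : ∀ i ∈ S, Lip (f i) (c i)) : Lip (fun s ↦ ∑ i ∈ S, f i s) (∑ i ∈ S, c i) := by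
  have h1 := IsBigO.sum (s := S) (fun i hi ↦ h i hi)
  refine h1.congr_left fun s ↦ ?_
  simp only [Finset.sum_apply]
  rw [Finset.sum_sub_distrib]

theorem Lip.div {f f' : ℝ → ℂ} {c c' : ℂ} (h : Lip f c) (h' : Lip f' c') (hc : c' ≠ 0) :
    Lip (fun s ↦ f s / f' s) (c / c') := by
  have h1 : (fun s ↦ (f s - c) * c' - c * (f' s - c')) =O[𝓝[>] 1] (fun s : ℝ ↦ s - 1) :=
    (by simpa [mul_comm] using IsBigO.const_mul_left h c' :
      (fun s ↦ (f s - c) * c') =O[𝓝[>] 1] (fun s : ℝ ↦ s - 1)).sub (IsBigO.const_mul_left h' c)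
  have h2 : Tendsto (fun s ↦ (f' s * c')⁻¹) (𝓝[>] 1) (𝓝 (c' * c')⁻¹) :=
    (h'.tendsto.mul_const c').inv₀ (mul_ne_zero hc hc)
  have h3 := h1.mul (h2.isBigO_one ℝ)
  simp only [mul_one] at h3
  refine h3.congr' ?_ EventuallyEq.rfl
  filter_upwards [h'.tendsto.eventually_ne hc] with s hs
  field_simp
  ring

theorem lip_rpow {x : ℝ} (hx : 0 < x) :
    Lip (fun s : ℝ ↦ ((x ^ s : ℝ) : ℂ)) ((x ^ (1 : ℝ) : ℝ) : ℂ) := by
  have h1 : (fun s : ℝ ↦ x ^ s - x ^ (1 : ℝ)) =O[𝓝 1] (fun s : ℝ ↦ s - 1) :=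
    (Real.hasStrictDerivAt_const_rpow hx 1).hasDerivAt.isBigO_sub
  have h2 := h1.mono (nhdsWithin_le_nhds (s := Set.Ioi (1 : ℝ)))
  unfold Lip
  refine IsBigO.trans (isBigO_of_le _ fun s ↦ le_of_eq ?_) h2
  rw [← Complex.ofReal_sub, Complex.norm_real]

theorem lip_rpow_neg {x : ℝ} (hx : 0 < x) :
    Lip (fun s : ℝ ↦ ((x ^ (-s) : ℝ) : ℂ)) ((x ^ (-1 : ℝ) : ℝ) : ℂ) := by
  have h1 : (fun s : ℝ ↦ x ^ (-s) - x ^ (-1 : ℝ)) =O[𝓝 1] (fun s : ℝ ↦ s - 1) :=
    ((Real.hasStrictDerivAt_const_rpow hx (-1)).hasDerivAt.comp (1 : ℝ)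
      (hasDerivAt_neg (1 : ℝ))).isBigO_sub
  have h2 := h1.mono (nhdsWithin_le_nhds (s := Set.Ioi (1 : ℝ)))
  unfold Lip
  refine IsBigO.trans (isBigO_of_le _ fun s ↦ le_of_eq ?_) h2
  rw [← Complex.ofReal_sub, Complex.norm_real]

theorem lip_tsum_diff {f : 𝓞 K → ℂ} (hf : ∀ a, ‖f a‖ ≤ 1) {μ : 𝓞 K}
    (hper : SignPeriodic f μ) (B : Set (𝓞 K)) :
    Lip (fun s : ℝ ↦ ∑' a : B, (g f s (a + μ) - g f s a))
      (∑' a : B, (g f 1 (a + μ) - g f 1 a)) := by
  obtain ⟨bound, hb, hbound⟩ := exists_summable_bound hf hper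
  obtain ⟨bound2, hb2, hbound2⟩ := exists_summable_bound2 hf hper
  refine IsBigO.of_bound (∑' a : B, bound2 a) ?_
  have h1 : ∀ᶠ s : ℝ in 𝓝[>] 1, 1 ≤ s ∧ s ≤ 2 := by
    filter_upwards [Ioo_mem_nhdsGT (by norm_num : (1 : ℝ) < 2)] with s hs
    exact ⟨hs.1.le, hs.2.le⟩
  filter_upwards [h1] with s hs
  have hS : ∀ t : ℝ, 1 ≤ t → t ≤ 2 → Summable (fun a : B ↦ g f t (a + μ) - g f t a) :=
    fun t ht1 ht2 ↦ Summable.of_norm_bounded (hb.subtype B) fun a ↦ hbound t ht1 ht2 a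
  rw [← (hS s hs.1 hs.2).tsum_sub (hS 1 le_rfl (by norm_num)), Real.norm_of_nonneg
    (by linarith [hs.1] : 0 ≤ s - 1), mul_comm, ← tsum_mul_left]
  exact tsum_of_norm_bounded ((hb2.subtype B).mul_left (s - 1)).hasSum
    fun a ↦ hbound2 s hs.1 hs.2 a

theorem lip_E {𝔪 : Ideal (𝓞 K)} {ψ : Ideal (𝓞 K) → ℂ} (hψ : IsRayChar 𝔪 ψ)
    {J C : Ideal (𝓞 K)} (hJ : J ≠ ⊥) {μ : Fin (Ideal.absNorm C) → 𝓞 K}
    (hμ : ∀ i, μ i ∈ 𝔪 * J) : Lip (E ψ J C μ) (E ψ J C μ 1) := by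
  unfold E
  refine Lip.sum (c := fun i ↦ ∑' β : {x : 𝓞 K // x ∈ C * J},
    (g (fJ ψ J) 1 (β + μ i) - g (fJ ψ J) 1 β)) _ fun i _ ↦ ?_
  exact lip_tsum_diff (norm_fJ_le hψ J) (signPeriodic_fJ hψ hJ (hμ i)) {x : 𝓞 K | x ∈ C * J}

theorem exists_lip_term {𝔪 : Ideal (𝓞 K)} {ψ : Ideal (𝓞 K) → ℂ} (hψ : IsRayChar 𝔪 ψ)
    {C : Ideal (𝓞 K)} (hC : C ≠ ⊥) (hcop : C ⊔ 𝔪 = ⊤) (hne : ψ C ≠ 1) :
    ∃ c : ℂ, Lip (fun s : ℝ ↦ ∑' I : Ideal (𝓞 K), term ψ s I) c := by
  classical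
  -- representatives of the classes
  have hrep : ∀ c : ClassGroup (𝓞 K), ∃ J : (Ideal (𝓞 K))⁰, (ClassGroup.mk0 J)⁻¹ = c := by
    intro c
    obtain ⟨J, hJ⟩ := ClassGroup.mk0_surjective c⁻¹
    exact ⟨J, by rw [hJ, inv_inv]⟩
  choose J hJc using hrep
  have hJ0 : ∀ c, (J c : Ideal (𝓞 K)) ≠ ⊥ := fun c ↦ ne_bot_of_mem (J c)
  let C' : (Ideal (𝓞 K))⁰ := ⟨C, mem_nonZeroDivisors_of_ne_zero hC⟩
  have hreps := fun c ↦ exists_reps (𝔪 := 𝔪) (hJ0 c) hC hcop
  choose μ hμ e he using hreps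
  have hlimE := fun c ↦ lip_E (C := C) hψ (hJ0 c) (hμ c)
  set T : ℂ := ((torsionOrder K : ℝ) : ℂ) with hT
  have hT0 : T ≠ 0 := by
    rw [hT, Complex.ofReal_ne_zero, Nat.cast_ne_zero]
    exact (torsionOrder_pos K).ne'
  let w : ClassGroup (𝓞 K) → ℝ → ℂ := fun c s ↦
    (((Ideal.absNorm (J c : Ideal (𝓞 K)) : ℝ) ^ s : ℝ) : ℂ)
  -- the key identity
  have hkey : ∀ s : ℝ, 1 < s → ∀ c, T⁻¹ * (w c s * E ψ (J c) C (μ c) s) =
      Zc ψ s c - (Ideal.absNorm C : ℂ) * (((Ideal.absNorm C : ℝ) ^ (-s) : ℝ) : ℂ) * ψ C *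
        Zc ψ s (c * (ClassGroup.mk0 C')⁻¹) := by
    intro s hs c
    have h1 := tsum_sub hψ.mul hψ.norm_le (hJ0 c) hC (he c) hs
    have h2 := tsum_g hψ.norm_le (J c : Ideal (𝓞 K)) hs
    have h3 := tsum_g hψ.norm_le (C * (J c : Ideal (𝓞 K))) hs
    have h4 := tsum_hJ_eq ψ (J c) s
    have h5 := tsum_hJ_eq ψ (C' * J c) s
    have hcoe : ((C' * J c : (Ideal (𝓞 K))⁰) : Ideal (𝓞 K)) = C * (J c : Ideal (𝓞 K)) := rfl
    rw [hcoe] at h5
    rw [h4] at h2
    rw [h5] at h3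
    rw [h2, h3] at h1
    rw [h1]
    have h6 : (ClassGroup.mk0 (C' * J c))⁻¹ = c * (ClassGroup.mk0 C')⁻¹ := by
      rw [map_mul, mul_inv, hJc, mul_comm]
    rw [h6, hJc]
    have h7 : (((Ideal.absNorm (C * (J c : Ideal (𝓞 K))) : ℝ) ^ (-s) : ℝ) : ℂ) =
        (((Ideal.absNorm C : ℝ) ^ (-s) : ℝ) : ℂ) *
          (((Ideal.absNorm (J c : Ideal (𝓞 K)) : ℝ) ^ (-s) : ℝ) : ℂ) := by
      rw [map_mul, Nat.cast_mul, Real.mul_rpow (Nat.cast_nonneg _) (Nat.cast_nonneg _),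
        Complex.ofReal_mul]
    rw [h7]
    have hNpos : (0 : ℝ) < (Ideal.absNorm (J c : Ideal (𝓞 K)) : ℝ) := by
      have : Ideal.absNorm (J c : Ideal (𝓞 K)) ≠ 0 := by
        rw [Ne, Ideal.absNorm_eq_zero_iff]; exact hJ0 c
      exact_mod_cast Nat.pos_of_ne_zero this
    have h8 : w c s * (((Ideal.absNorm (J c : Ideal (𝓞 K)) : ℝ) ^ (-s) : ℝ) : ℂ) = 1 := by
      simp only [w]
      rw [← Complex.ofReal_mul, ← Real.rpow_add hNpos, add_neg_cancel, Real.rpow_zero,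
        Complex.ofReal_one]
    set X := (((Ideal.absNorm (J c : Ideal (𝓞 K)) : ℝ) ^ (-s) : ℝ) : ℂ)
    have h9 : T⁻¹ * T = 1 := inv_mul_cancel₀ hT0
    calc T⁻¹ * (w c s * (T * (X * Zc ψ s c) - (Ideal.absNorm C : ℂ) * (ψ C *
          (T * ((((Ideal.absNorm C : ℝ) ^ (-s) : ℝ) : ℂ) * X * Zc ψ s (c * (ClassGroup.mk0 C')⁻¹))))))
        = (T⁻¹ * T) * (w c s * X) * (Zc ψ s c - (Ideal.absNorm C : ℂ) *
          (((Ideal.absNorm C : ℝ) ^ (-s) : ℝ) : ℂ) * ψ C * Zc ψ s (c * (ClassGroup.mk0 C')⁻¹)) := by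
          ring
      _ = _ := by rw [h8, h9, one_mul, one_mul]
  -- sum over classes
  have hsum : ∀ s : ℝ, 1 < s → (1 - (Ideal.absNorm C : ℂ) *
      (((Ideal.absNorm C : ℝ) ^ (-s) : ℝ) : ℂ) * ψ C) * ∑' I : Ideal (𝓞 K), term ψ s I =
      T⁻¹ * ∑ c, w c s * E ψ (J c) C (μ c) s := by
    intro s hs
    rw [Finset.mul_sum, Finset.sum_congr rfl fun c _ ↦ hkey s hs c, Finset.sum_sub_distrib,
      ← Finset.mul_sum]
    have h1 : ∑ c, Zc ψ s (c * (ClassGroup.mk0 C')⁻¹) = ∑ c, Zc ψ s c :=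
      Equiv.sum_comp (Equiv.mulRight (ClassGroup.mk0 C')⁻¹) (fun c ↦ Zc ψ s c)
    rw [h1, sum_Zc hψ.norm_le hs]
    ring
  have hCpos : (0 : ℝ) < (Ideal.absNorm C : ℝ) := by
    have : Ideal.absNorm C ≠ 0 := by rwa [Ne, Ideal.absNorm_eq_zero_iff]
    exact_mod_cast Nat.pos_of_ne_zero this
  have hfac : Lip (fun s : ℝ ↦ 1 - (Ideal.absNorm C : ℂ) *
      (((Ideal.absNorm C : ℝ) ^ (-s) : ℝ) : ℂ) * ψ C) (1 - ψ C) := by
    have h1 := (Lip.const 1).sub (((Lip.const (Ideal.absNorm C : ℂ)).mul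
      (lip_rpow_neg hCpos)).mul (Lip.const (ψ C)))
    have h2 : (Ideal.absNorm C : ℂ) * (((Ideal.absNorm C : ℝ) ^ (-1 : ℝ) : ℝ) : ℂ) = 1 := by
      rw [Real.rpow_neg_one, Complex.ofReal_inv, Complex.ofReal_natCast]
      exact mul_inv_cancel₀ (by exact_mod_cast hCpos.ne')
    rw [h2, one_mul] at h1
    exact h1
  have hrhs : Lip (fun s : ℝ ↦ T⁻¹ * ∑ c, w c s * E ψ (J c) C (μ c) s)
      (T⁻¹ * ∑ c, (((Ideal.absNorm (J c : Ideal (𝓞 K)) : ℝ) ^ (1 : ℝ) : ℝ) : ℂ) *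
        E ψ (J c) C (μ c) 1) := by
    refine (Lip.const T⁻¹).mul (Lip.sum Finset.univ fun c _ ↦ ?_)
    refine Lip.mul (lip_rpow ?_) (hlimE c)
    have : Ideal.absNorm (J c : Ideal (𝓞 K)) ≠ 0 := by
      rw [Ne, Ideal.absNorm_eq_zero_iff]; exact hJ0 c
    exact_mod_cast Nat.pos_of_ne_zero this
  have hne' : 1 - ψ C ≠ 0 := sub_ne_zero.mpr hne.symm
  refine ⟨_, (hrhs.div hfac hne').congr' ?_⟩
  filter_upwards [self_mem_nhdsWithin, hfac.tendsto.eventually_ne hne'] with s hs hs0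
  rw [← hsum s hs, mul_div_assoc, mul_comm, div_mul_cancel₀]
  exact hs0

/-- **The L-series of a nontrivial ray class character is Lipschitz at `1`.** -/
theorem exists_lip_rayL {𝔪 : Ideal (𝓞 K)} {ψ : Ideal (𝓞 K) → ℂ} (hψ : IsRayChar 𝔪 ψ)
    {C : Ideal (𝓞 K)} (hC : C ≠ ⊥) (hcop : C ⊔ 𝔪 = ⊤) (hne : ψ C ≠ 1) :
    ∃ c : ℂ, Lip
      (fun s : ℝ ↦ ∑' I : Ideal (𝓞 K), ψ I * (Ideal.absNorm I : ℂ) ^ (-(s : ℂ))) c := by
  obtain ⟨c, hc⟩ := exists_lip_term hψ hC hcop hne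
  exact ⟨c, hc.congr' (Eventually.of_forall fun s ↦ tsum_congr fun I ↦ term_eq ψ s I)⟩

end

end Fermat.Agent.LT.CTree.RayLip
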